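import Mathlib
import Fermat.Prelude.Def_ModularCurve_IgusaScheme
import Fermat.Prelude.Def_ModularCurve_X0ModL

/-!
# S28, leaf ALG: targets

`FA_S28_Target_Deg N ℓ` is the single arithmetic input of S28 ("the degree does not drop mod `ℓ`",
i.e. Igusa's irreducibility): there are `n` elements `e i` of `ℤ((q))` lying in
`F = modularFunctionFieldFull N = ℚ(j(q^d) : d ∣ N)` such that

* (D2) their reductions mod `ℓ` are linearly independent over `𝔽_ℓ[j̄]` inside `𝔽_ℓ((q))`;
* (D3) they span `F` over `ℚ(j)` (stated with denominators cleared).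

With the induction on the level one takes `n = ψ(N)` and the `e i` monomials in the `j(q^d)`.

`FA_S28_Target_Alg N ℓ` is what the scheme wrapper needs: the three chart algebras stay
domains after base change to any field of characteristic `ℓ`.
-/

set_option autoImplicit false

noncomputable section

namespace Fermat.Agent.S28

open ModularCurve ModularCurve.IgusaScheme

/-- **DEG** (Igusa): `n` elements of `F ∩ ℤ((q))` spanning `F` over `ℚ(j)` whose reductions
mod `ℓ` are linearly independent over `𝔽_ℓ[j̄]`. -/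
def FA_S28_Target_Deg (N : ℕ) [NeZero N] (ℓ : ℕ) [Fact ℓ.Prime] : Prop :=
  ∃ (n : ℕ) (e : Fin n → LaurentSeries ℤ),
    (∀ i, coeffMap (Int.castRingHom ℚ) (e i) ∈ modularFunctionFieldFull N) ∧
    (∀ c : Fin n → Polynomial (ZMod ℓ),
      (∑ i, Polynomial.aeval (jqModC (ZMod ℓ)) (c i) *
          coeffMap (Int.castRingHom (ZMod ℓ)) (e i)) = 0 → ∀ i, c i = 0) ∧
    (∀ y ∈ modularFunctionFieldFull N, ∃ (Q : Polynomial ℤ) (P : Fin n → Polynomial ℤ),
      Q ≠ 0 ∧
      Polynomial.aeval jq Q * y =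
        ∑ i, Polynomial.aeval jq (P i) * coeffMap (Int.castRingHom ℚ) (e i))

/-- **ALG**: the chart algebras of the Igusa model stay domains after base change to any
field of characteristic `ℓ`. -/
def FA_S28_Target_Alg (N : ℕ) [NeZero N] (ℓ : ℕ) [Fact ℓ.Prime] : Prop :=
  ∀ (K : Type) [Field K] [CharP K ℓ] [Algebra ↥(GaloisRep.ratLocalizedAt ℓ) K],
    IsDomain (TensorProduct ↥(GaloisRep.ratLocalizedAt ℓ) ↥(chartAlgFin N ℓ) K) ∧
    IsDomain (TensorProduct ↥(GaloisRep.ratLocalizedAt ℓ) ↥(chartAlgInf N ℓ) K) ∧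
    IsDomain (TensorProduct ↥(GaloisRep.ratLocalizedAt ℓ) ↥(chartAlgMid N ℓ) K)

end Fermat.Agent.S28
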