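import Mathlib
import Fermat.Prelude.Def_ModularCurve_IgusaScheme
import Fermat.Prelude.Def_ModularCurve_X0ModL
import Fermat.Agent.S28.AlgTarget

/-!
# S28 interface: the targets below `FA_S28_Target_Deg` (see `NOTES/plan/S28.md`)

Chain:

    PHI, THETA, UNIT (formal, prime level; from the analytic leaves of S16)
      THETA + UNIT ⟹ IG;   PHI + IG + LD ⟹ DegModLField ⟹ DegModL;
    S24 + LD ⟹ DegZero;   DegZero + DegModL ⟹ FA_S28_Target_Deg
      ⟹ (ALG, helper7) FA_S28_Target_Alg ⟹ Charts ⟹ (wrapper) S28.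

Everything here is a `def … : Prop` (a target).  Notation: `u` is the variable of the ambient
Laurent series ring; "level `p`" statements live in `k((u))` with `q = u ^ p`, so that
`j(q) = jqNModC k p`, `j(q^p) = jqNModC k (p * p)` and `j(ζ^b q^{1/p})` is the twist of
`jqModC k` by `ζ ^ b`.
-/

set_option autoImplicit false

noncomputable section

namespace Fermat.Agent.S28

open ModularCurve ModularCurve.IgusaScheme

/-! ### Definitions -/

/-- `y = f(ζ · u)`: `y` is the twist of the Laurent series `f` by `ζ`. -/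
def FA_S28_IsTwist {k : Type} [Field k] (ζ : k) (f y : LaurentSeries k) : Prop :=
  ∀ n : ℤ, y.coeff n = ζ ^ n * f.coeff n

/-- The derivation `θ = q d/dq` on Laurent series (coefficientwise `a_n ↦ n a_n`). -/
def FA_S28_theta {R : Type} [CommRing R] (f : LaurentSeries R) : LaurentSeries R :=
  HahnSeries.ofSuppBddBelow (fun n : ℤ => (n : R) * f.coeff n)
    ⟨f.order, fun n hn => by
      by_contra hlt
      exact hn (by
        show (n : R) * f.coeff n = 0
        rw [HahnSeries.coeff_eq_zero_of_lt_order (not_le.mp hlt), mul_zero])⟩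

theorem FA_S28_theta_coeff {R : Type} [CommRing R] (f : LaurentSeries R) (n : ℤ) :
    (FA_S28_theta f).coeff n = (n : R) * f.coeff n := rfl

/-- The discriminant `Δ = q ∏ (1 - q^n)^24` as a Laurent series over any commutative ring. -/
def FA_S28_delta (R : Type) [CommRing R] : LaurentSeries R :=
  HahnSeries.single 1 1 *
    HahnSeries.ofPowerSeries ℤ R (dedekindEtaUnit.map (Int.castRingHom R))

/-! ### Formal prime-level targets (inputs from the analytic side) -/

/-- **PHI** (the modular equation of prime level `p`, with its roots): over every field `k`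
with a primitive `p`-th root of unity `ζ` there is `Φ ∈ k[X][Y]`, monic of degree `p + 1` in
`Y`, with `Φ(j(q), Y) = (Y − j(q^p)) · ∏_{b < p} (Y − j(ζ^b q^{1/p}))` in `k((u))[Y]`,
`q = u ^ p`.  (Classically `Φ` is the reduction of `Φ_p ∈ ℤ[X][Y]`; only this form is used.) -/
def FA_S28_Target_PHI (p : ℕ) [NeZero p] : Prop :=
  ∀ (k : Type) [Field k] (ζ : k), IsPrimitiveRoot ζ p →
    ∃ Φ : Polynomial (Polynomial k), Φ.Monic ∧ Φ.natDegree = p + 1 ∧
      ∀ y : Fin p → LaurentSeries k,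
        (∀ b : Fin p, FA_S28_IsTwist (ζ ^ (b : ℕ)) (jqModC k) (y b)) →
        Φ.map (Polynomial.aeval (jqNModC k p)).toRingHom
          = (Polynomial.X - Polynomial.C (jqNModC k (p * p)))
              * ∏ b : Fin p, (Polynomial.X - Polynomial.C (y b))

/-- **THETA**: `(θ j)^6 = j^4 (j - 1728)^3 Δ` in `ℤ((q))`
(from `D j · Δ = - E₄² E₆` and `E₄³ - E₆² = 1728 Δ`; S24 layer C). -/
def FA_S28_Target_THETA : Prop :=
  FA_S28_theta (jqModC ℤ) ^ 6 = jqModC ℤ ^ 4 * (jqModC ℤ - 1728) ^ 3 * FA_S28_delta ℤ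

/-- **UNIT** (formal version of S16's `FA_S16_Target_AlgUnit`): for primes `ℓ ≠ p` the series
`Δ̄(q^p)/Δ̄(q)` is not in `𝔽_ℓ(j̄)`. -/
def FA_S28_Target_UNIT (p : ℕ) [NeZero p] (ℓ : ℕ) [Fact ℓ.Prime] : Prop :=
  qExpand (ZMod ℓ) p (FA_S28_delta (ZMod ℓ)) * (FA_S28_delta (ZMod ℓ))⁻¹
    ∉ IntermediateField.adjoin (ZMod ℓ) {jqModC (ZMod ℓ)}

/-- **IG** (Igusa at prime level, the `Δ`-unit argument): for primes `p ≠ ℓ`,
`j̄(q^p) ∉ 𝔽_ℓ(j̄(q))` inside `𝔽_ℓ((q))`.  (From THETA and UNIT.) -/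
def FA_S28_Target_IG (p : ℕ) [NeZero p] (ℓ : ℕ) [Fact ℓ.Prime] : Prop :=
  jqNModC (ZMod ℓ) p ∉ IntermediateField.adjoin (ZMod ℓ) {jqModC (ZMod ℓ)}

/-! ### Linear disjointness of coefficient extensions -/

/-- **LD**: Laurent series over `k` that are linearly independent over `k[x]` stay linearly
independent over `k'[x]` in `k'((q))`, for every field extension `k'/k`. -/
def FA_S28_Target_LD : Prop :=
  ∀ (k k' : Type) [Field k] [Field k'] [Algebra k k'] (x : LaurentSeries k) (m : ℕ)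
    (v : Fin m → LaurentSeries k),
    (∀ c : Fin m → Polynomial k, (∑ i, Polynomial.aeval x (c i) * v i) = 0 → ∀ i, c i = 0) →
    ∀ c : Fin m → Polynomial k',
      (∑ i, Polynomial.aeval (coeffMap (algebraMap k k') x) (c i) *
        coeffMap (algebraMap k k') (v i)) = 0 → ∀ i, c i = 0

/-! ### Degrees -/

/-- **DegZero** (characteristic `0`, from S24): more than `ψ(N)` elements of
`F = ℚ(j(q^d) : d ∣ N)` are linearly dependent over `ℚ[j]`, i.e. `[F : ℚ(j)] ≤ ψ(N)`. -/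
def FA_S28_Target_DegZero (N : ℕ) [NeZero N] : Prop :=
  ∀ (m : ℕ) (v : Fin m → LaurentSeries ℚ), (∀ i, v i ∈ modularFunctionFieldFull N) →
    (∀ c : Fin m → Polynomial ℚ, (∑ i, Polynomial.aeval jq (c i) * v i) = 0 → ∀ i, c i = 0) →
    m ≤ dedekindPsi N

/-- **DegModLField** (Igusa, all levels; what the induction on the level proves): over
`k = 𝔽_ℓ`, `ℓ ∤ N`, the field `k(j̄(q^d) : d ∣ N)` contains `ψ(N)` elements that are linearly
independent over `k[j̄]`. -/
def FA_S28_Target_DegModLField (N : ℕ) [NeZero N] (ℓ : ℕ) [Fact ℓ.Prime] : Prop :=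
  ∃ v : Fin (dedekindPsi N) → LaurentSeries (ZMod ℓ),
    (∀ i, v i ∈ modularFunctionFieldFullC (ZMod ℓ) N) ∧
    (∀ c : Fin (dedekindPsi N) → Polynomial (ZMod ℓ),
      (∑ i, Polynomial.aeval (jqModC (ZMod ℓ)) (c i) * v i) = 0 → ∀ i, c i = 0)

/-- **DegModL**: `ψ(N)` elements of `F ∩ ℤ((q))` whose reductions mod `ℓ` are linearly
independent over `𝔽_ℓ[j̄]`. -/
def FA_S28_Target_DegModL (N : ℕ) [NeZero N] (ℓ : ℕ) [Fact ℓ.Prime] : Prop :=
  ∃ e : Fin (dedekindPsi N) → LaurentSeries ℤ,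
    (∀ i, coeffMap (Int.castRingHom ℚ) (e i) ∈ modularFunctionFieldFull N) ∧
    (∀ c : Fin (dedekindPsi N) → Polynomial (ZMod ℓ),
      (∑ i, Polynomial.aeval (jqModC (ZMod ℓ)) (c i) *
          coeffMap (Int.castRingHom (ZMod ℓ)) (e i)) = 0 → ∀ i, c i = 0)

/-! ### The wrapper's input -/

/-- **Charts** (what the scheme wrapper uses; a consequence of `FA_S28_Target_Alg`). -/
def FA_S28_Target_Charts (N : ℕ) [NeZero N] (ℓ : ℕ) [Fact ℓ.Prime] : Prop :=
  ∀ (K : Type) [Field K] [CharP K ℓ] [Algebra ↥(GaloisRep.ratLocalizedAt ℓ) K],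
    IsDomain (TensorProduct ↥(GaloisRep.ratLocalizedAt ℓ) ↥(chartAlgFin N ℓ) K) ∧
    IsDomain (TensorProduct ↥(GaloisRep.ratLocalizedAt ℓ) ↥(chartAlgInf N ℓ) K) ∧
    Nontrivial (TensorProduct ↥(GaloisRep.ratLocalizedAt ℓ) ↥(chartAlgMid N ℓ) K)

theorem FA_S28_charts_of_alg (N : ℕ) [NeZero N] (ℓ : ℕ) [Fact ℓ.Prime]
    (h : FA_S28_Target_Alg N ℓ) : FA_S28_Target_Charts N ℓ := by
  intro K _ _ _
  obtain ⟨h1, h2, h3⟩ := h K
  exact ⟨h1, h2, h3.toNontrivial⟩

end Fermat.Agent.S28
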