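import Mathlib
import Fermat.Agent.S28.Interface

/-!
# S28, leaf LD: linear disjointness of coefficient extensions

Laurent series over `k` that are linearly independent over `k[x]` stay linearly independent over
`k'[x]` in `k'((q))`.  Proof: apply the coordinate functionals of a `k`-basis of `k'`
coefficientwise.
-/

set_option autoImplicit false

noncomputable section

namespace Fermat.Agent.S28

open ModularCurve

section

variable {k k' : Type} [Field k] [Field k'] [Algebra k k']

/-- Coefficientwise application of a `k`-linear functional. -/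
def FA_S28_ld_proj (π : k' →ₗ[k] k) (a : LaurentSeries k') : LaurentSeries k :=
  a.map π

@[simp] theorem FA_S28_ld_proj_coeff (π : k' →ₗ[k] k) (a : LaurentSeries k') (n : ℤ) :
    (FA_S28_ld_proj π a).coeff n = π (a.coeff n) := rfl

theorem FA_S28_ld_proj_add (π : k' →ₗ[k] k) (a b : LaurentSeries k') :
    FA_S28_ld_proj π (a + b) = FA_S28_ld_proj π a + FA_S28_ld_proj π b := by
  ext n
  simp

theorem FA_S28_ld_proj_zero (π : k' →ₗ[k] k) : FA_S28_ld_proj π 0 = 0 := by
  ext n
  simp

theorem FA_S28_ld_proj_sum (π : k' →ₗ[k] k) {ι : Type*} (s : Finset ι)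
    (a : ι → LaurentSeries k') :
    FA_S28_ld_proj π (∑ i ∈ s, a i) = ∑ i ∈ s, FA_S28_ld_proj π (a i) := by
  classical
  induction s using Finset.induction_on with
  | empty => simp [FA_S28_ld_proj_zero]
  | insert i s hi ih => rw [Finset.sum_insert hi, Finset.sum_insert hi, FA_S28_ld_proj_add, ih]

theorem FA_S28_ld_support_proj (π : k' →ₗ[k] k) (a : LaurentSeries k') :
    (FA_S28_ld_proj π a).support ⊆ a.support := by
  intro n hn
  simp only [HahnSeries.mem_support, FA_S28_ld_proj_coeff, ne_eq] at hn ⊢
  intro h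
  exact hn (by rw [h, map_zero])

theorem FA_S28_ld_support_coeffMap (f : LaurentSeries k) :
    (coeffMap (algebraMap k k') f).support ⊆ f.support := by
  intro n hn
  simp only [HahnSeries.mem_support, coeffMap_coeff, ne_eq] at hn ⊢
  intro h
  exact hn (by rw [h, map_zero])

/-- The projection is `k((q))`-linear. -/
theorem FA_S28_ld_proj_mul (π : k' →ₗ[k] k) (f : LaurentSeries k) (a : LaurentSeries k') :
    FA_S28_ld_proj π (coeffMap (algebraMap k k') f * a) = f * FA_S28_ld_proj π a := by
  ext n
  rw [FA_S28_ld_proj_coeff,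
    HahnSeries.coeff_mul_left' f.isPWO_support (FA_S28_ld_support_coeffMap f),
    HahnSeries.coeff_mul_right' a.isPWO_support (FA_S28_ld_support_proj π a), map_sum]
  refine Finset.sum_congr rfl fun ij _ => ?_
  rw [coeffMap_coeff, FA_S28_ld_proj_coeff, ← Algebra.smul_def, map_smul, smul_eq_mul]

/-- Coefficientwise application of a functional to a polynomial. -/
def FA_S28_ld_polyProj (π : k' →ₗ[k] k) (c : Polynomial k') : Polynomial k :=
  ∑ n ∈ Finset.range (c.natDegree + 1), Polynomial.monomial n (π (c.coeff n))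

@[simp] theorem FA_S28_ld_polyProj_coeff (π : k' →ₗ[k] k) (c : Polynomial k') (n : ℕ) :
    (FA_S28_ld_polyProj π c).coeff n = π (c.coeff n) := by
  rw [FA_S28_ld_polyProj, Polynomial.finsetSum_coeff]
  simp only [Polynomial.coeff_monomial]
  rw [Finset.sum_ite_eq' (Finset.range (c.natDegree + 1)) n]
  split_ifs with h
  · rfl
  · rw [Finset.mem_range, not_lt] at h
    rw [Polynomial.coeff_eq_zero_of_natDegree_lt (by omega), map_zero]

theorem FA_S28_ld_polyProj_natDegree_le (π : k' →ₗ[k] k) (c : Polynomial k') :
    (FA_S28_ld_polyProj π c).natDegree ≤ c.natDegree := by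
  rw [Polynomial.natDegree_le_iff_coeff_eq_zero]
  intro n hn
  rw [FA_S28_ld_polyProj_coeff, Polynomial.coeff_eq_zero_of_natDegree_lt hn, map_zero]

theorem FA_S28_ld_algebraMap_eq (c : k') :
    algebraMap k' (LaurentSeries k') c = HahnSeries.single 0 c :=
  algebraMap_laurentSeries_eq_single k' c

theorem FA_S28_ld_proj_const (π : k' →ₗ[k] k) (c : k') :
    FA_S28_ld_proj π (algebraMap k' (LaurentSeries k') c)
      = algebraMap k (LaurentSeries k) (π c) := by
  ext n
  rw [FA_S28_ld_proj_coeff, FA_S28_ld_algebraMap_eq]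
  rw [algebraMap_laurentSeries_eq_single k (π c)]
  by_cases h : n = 0
  · subst h
    simp
  · rw [HahnSeries.coeff_single_of_ne h, HahnSeries.coeff_single_of_ne h, map_zero]

theorem FA_S28_ld_proj_aeval (π : k' →ₗ[k] k) (x v : LaurentSeries k) (c : Polynomial k') :
    FA_S28_ld_proj π (Polynomial.aeval (coeffMap (algebraMap k k') x) c *
        coeffMap (algebraMap k k') v)
      = Polynomial.aeval x (FA_S28_ld_polyProj π c) * v := by
  rw [Polynomial.aeval_eq_sum_range' (Nat.lt_succ_self c.natDegree),
    Polynomial.aeval_eq_sum_range'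
      (Nat.lt_succ_of_le (FA_S28_ld_polyProj_natDegree_le π c)),
    Finset.sum_mul, Finset.sum_mul, FA_S28_ld_proj_sum]
  refine Finset.sum_congr rfl fun n _ => ?_
  rw [Algebra.smul_def, Algebra.smul_def, FA_S28_ld_polyProj_coeff]
  have e : algebraMap k' (LaurentSeries k') (c.coeff n) * coeffMap (algebraMap k k') x ^ n *
      coeffMap (algebraMap k k') v
      = coeffMap (algebraMap k k') (x ^ n * v) * algebraMap k' (LaurentSeries k') (c.coeff n) := by
    rw [map_mul, map_pow]
    ring
  rw [e, FA_S28_ld_proj_mul, FA_S28_ld_proj_const]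
  ring

end

/-- **Leaf LD.** -/
theorem FA_S28_ld : FA_S28_Target_LD := by
  intro k k' _ _ _ x m v hind c hc i
  classical
  let b := Module.Free.chooseBasis k k'
  have key : ∀ β, ∀ i, FA_S28_ld_polyProj (b.coord β) (c i) = 0 := by
    intro β
    apply hind
    have := congrArg (FA_S28_ld_proj (b.coord β)) hc
    rw [FA_S28_ld_proj_sum, FA_S28_ld_proj_zero] at this
    rw [← this]
    refine Finset.sum_congr rfl fun i _ => ?_
    rw [FA_S28_ld_proj_aeval]
  ext n
  rw [Polynomial.coeff_zero]
  apply b.repr.injective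
  ext β
  have := congrArg (fun P : Polynomial k => P.coeff n) (key β i)
  simpa using this

end Fermat.Agent.S28
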