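import Fermat.Agent.S28.DegZero2
import Fermat.Agent.S28.LD

/-!
# S28, leaf DEG0: `[ℚ(j(q^d) : d ∣ N) : ℚ(j)] ≤ ψ(N)`, in the form `FA_S28_Target_DegZero N`

From the analytic package of S24 over `ℚ̄` (degree `= ψ(N)` with `x = j` exposed) and linear
disjointness `ℚ → ℚ̄` (leaf LD).
-/

set_option autoImplicit false
set_option linter.unusedSectionVars false
set_option linter.style.haveILetI false

noncomputable section

namespace Fermat.Agent.S28

open Fermat.Agent.S24 Fermat.Agent.Mero ModularCurve Polynomial IntermediateField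

/-- Independence over the polynomial ring `K[x]` implies linear independence over `K(x)`. -/
theorem FA_S28_d0_linearIndependent {K F : Type} [Field K] [Field F] [Algebra K F] (x : F)
    {m : ℕ} (w : Fin m → F)
    (h : ∀ c : Fin m → K[X], (∑ i, aeval x (c i) * w i) = 0 → ∀ i, c i = 0) :
    LinearIndependent (IntermediateField.adjoin K {x}) w := by
  classical
  rw [Fintype.linearIndependent_iff]
  intro a ha i₀
  -- write `a i = r i (x) / s i (x)` with `s i (x) ≠ 0`
  have hrs : ∀ i, ∃ r s : K[X], aeval x s ≠ 0 ∧ ((a i : F)) = aeval x r / aeval x s := by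
    intro i
    obtain ⟨r, s, hrs⟩ := (IntermediateField.mem_adjoin_simple_iff K (a i : F)).mp (a i).2
    by_cases hs : aeval x s = 0
    · refine ⟨0, 1, by simp, ?_⟩
      rw [hrs, hs, div_zero, map_zero, zero_div]
    · exact ⟨r, s, hs, hrs⟩
  choose r s hs hrs using hrs
  have hsum : (∑ i, aeval x (r i * ∏ k ∈ Finset.univ.erase i, s k) * w i) = 0 := by
    have h1 : (∏ k, aeval x (s k)) * (∑ i, (a i : F) * w i) = 0 := by
      have : (∑ i, a i • w i) = ∑ i, (a i : F) * w i := by
        refine Finset.sum_congr rfl fun i _ => ?_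
        rfl
      rw [← this, ha, mul_zero]
    rw [← h1, Finset.mul_sum]
    refine Finset.sum_congr rfl fun i _ => ?_
    rw [map_mul, map_prod, hrs i, ← Finset.mul_prod_erase _ _ (Finset.mem_univ i)]
    field_simp [hs i]
  have hz := h _ hsum i₀
  have hs0 : ∀ k, s k ≠ 0 := by
    intro k hk
    apply hs k
    rw [hk, map_zero]
  have hr0 : r i₀ = 0 := by
    rcases mul_eq_zero.mp hz with h1 | h1
    · exact h1
    · exact absurd h1 (Finset.prod_ne_zero_iff.mpr fun k _ => hs0 k)
  apply Subtype.ext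
  rw [hrs i₀, hr0, map_zero, zero_div]
  rfl

/-- **DEG0**. -/
theorem FA_S28_degZero (N : ℕ) [NeZero N] : FA_S28_Target_DegZero N := by
  have halg : Algebra.IsAlgebraic ℚ (AlgebraicClosure ℚ) := AlgebraicClosure.isAlgebraic ℚ
  letI algC : Algebra (AlgebraicClosure ℚ) ℂ :=
    (IsAlgClosed.lift (R := ℚ) (S := AlgebraicClosure ℚ) (M := ℂ)).toRingHom.toAlgebra
  letI algM : Algebra (AlgebraicClosure ℚ) FA_Mero_Field :=
    ((algebraMap ℂ FA_Mero_Field).comp (algebraMap (AlgebraicClosure ℚ) ℂ)).toAlgebra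
  have ht : FA_S24_Tower (AlgebraicClosure ℚ) := fun c => rfl
  have hP := FA_S24_props FA_S24_UT FA_S24_UT0 FA_S24_QE FA_S24_TW FA_S24_BDD FA_S24_HOL
    FA_S24_RAT FA_S24_NORM FA_S24_COEF (AlgebraicClosure ℚ) ht N
    (FA_S24_roots_mem (AlgebraicClosure ℚ))
  obtain ⟨τ, hτ, hj⟩ := FA_S28_d0_transfer (AlgebraicClosure ℚ) ht N
  obtain ⟨τ', hτ', hval⟩ := FA_S28_d0_transport (FA_S24_BC N) τ
  have hjmem : coeffEmb (AlgebraicClosure ℚ) jq ∈ modularFunctionFieldBar N :=
    coeffEmb_mem_laurentBaseChange (AlgebraicClosure ℚ)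
      (modularFunctionField_le_full N (jq_mem N))
  set jbar : ↥(modularFunctionFieldBar N) := ⟨_, hjmem⟩ with hjbar
  have hx : τ' jbar = FA_S24_g 1 := (hval _ hjmem ((FA_S24_BC N) ▸ hjmem)).trans (hj _)
  have hfr := FA_S28_d0_finrank hP (modularFunctionFieldBar N) τ' (hτ'.trans hτ) jbar hx
  haveI hfin := FA_S28_d0_finite hP (modularFunctionFieldBar N) τ' (hτ'.trans hτ) jbar hx
  intro m v hv hind
  have hld := FA_S28_ld ℚ (AlgebraicClosure ℚ) jq m v hind
  let w : Fin m → ↥(modularFunctionFieldBar N) := fun i =>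
    ⟨coeffEmb (AlgebraicClosure ℚ) (v i), coeffEmb_mem_laurentBaseChange (AlgebraicClosure ℚ) (hv i)⟩
  have hli : LinearIndependent (IntermediateField.adjoin (AlgebraicClosure ℚ) {jbar}) w := by
    apply FA_S28_d0_linearIndependent
    intro c hc
    apply hld c
    have h1 := congrArg (fun y : ↥(modularFunctionFieldBar N) =>
      (y : LaurentSeries (AlgebraicClosure ℚ))) hc
    simp only [ZeroMemClass.coe_zero, AddSubmonoidClass.coe_finsetSum, MulMemClass.coe_mul] at h1
    rw [← h1]
    refine Finset.sum_congr rfl fun i _ => ?_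
    congr 1
    exact aeval_algHom_apply (modularFunctionFieldBar N).val jbar (c i)
  have := hli.fintype_card_le_finrank
  rw [Fintype.card_fin, hfr] at this
  exact this

end Fermat.Agent.S28
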