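import Mathlib
import Fermat.Agent.S28.Interface

/-!
# S28, leaf IND: definitions and basic tools

* `FA_S28_tw ζ` : the twist `f(u) ↦ f(ζ u)` as a ring endomorphism of `k((u))`;
* `FA_S28_jd k d` : `j(q^d)` as a total function of `d`;
* orders of `j`, transcendence of `j`, total ramification of `k((q)) / k((q^p))`.
-/

set_option autoImplicit false

noncomputable section

namespace Fermat.Agent.S28

open ModularCurve

variable {k : Type} [Field k]

/-! ### The twist -/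

/-- The twist `f(u) ↦ f(ζ u)`, as a function. -/
def FA_S28_twFun (ζ : k) (f : LaurentSeries k) : LaurentSeries k :=
  HahnSeries.ofSuppBddBelow (fun n : ℤ => ζ ^ n * f.coeff n)
    ⟨f.order, fun n hn => by
      by_contra hlt
      exact hn (by
        show ζ ^ n * f.coeff n = 0
        rw [HahnSeries.coeff_eq_zero_of_lt_order (not_le.mp hlt), mul_zero])⟩

@[simp] theorem FA_S28_twFun_coeff (ζ : k) (f : LaurentSeries k) (n : ℤ) :
    (FA_S28_twFun ζ f).coeff n = ζ ^ n * f.coeff n := rfl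

theorem FA_S28_twFun_support {ζ : k} (hζ : ζ ≠ 0) (f : LaurentSeries k) :
    (FA_S28_twFun ζ f).support = f.support := by
  ext n
  simp only [HahnSeries.mem_support, FA_S28_twFun_coeff, ne_eq, mul_eq_zero, not_or]
  constructor
  · exact fun h => h.2
  · exact fun h => ⟨zpow_ne_zero n hζ, h⟩

theorem FA_S28_twFun_mul {ζ : k} (hζ : ζ ≠ 0) (f g : LaurentSeries k) :
    FA_S28_twFun ζ (f * g) = FA_S28_twFun ζ f * FA_S28_twFun ζ g := by
  ext n
  rw [FA_S28_twFun_coeff, HahnSeries.coeff_mul, HahnSeries.coeff_mul, Finset.mul_sum]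
  refine Finset.sum_congr ?_ ?_
  · ext ij
    simp only [Finset.mem_antidiagonal, FA_S28_twFun_support hζ]
  · intro ij hij
    have h : ij.1 + ij.2 = n := (Finset.mem_antidiagonal.mp hij).2.2
    rw [FA_S28_twFun_coeff, FA_S28_twFun_coeff, ← h, zpow_add₀ hζ]
    ring

/-- The twist `f(u) ↦ f(ζ u)` as a ring endomorphism. -/
def FA_S28_tw (ζ : k) (hζ : ζ ≠ 0) : LaurentSeries k →+* LaurentSeries k where
  toFun := FA_S28_twFun ζ
  map_one' := by
    ext n
    rw [FA_S28_twFun_coeff, HahnSeries.coeff_one]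
    split_ifs with h
    · subst h; simp
    · simp
  map_mul' := FA_S28_twFun_mul hζ
  map_zero' := by
    ext n
    simp
  map_add' f g := by
    ext n
    simp [mul_add]

@[simp] theorem FA_S28_tw_coeff (ζ : k) (hζ : ζ ≠ 0) (f : LaurentSeries k) (n : ℤ) :
    (FA_S28_tw ζ hζ f).coeff n = ζ ^ n * f.coeff n := rfl

theorem FA_S28_isTwist_iff (ζ : k) (hζ : ζ ≠ 0) (f y : LaurentSeries k) :
    FA_S28_IsTwist ζ f y ↔ y = FA_S28_tw ζ hζ f := by
  constructor
  · intro h
    ext n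
    rw [h n, FA_S28_tw_coeff]
  · rintro rfl n
    rfl

/-- The twist by a `p`-th root of unity fixes `k((u^p))`. -/
theorem FA_S28_tw_qExpand (ζ : k) (hζ : ζ ≠ 0) (p : ℕ) [NeZero p] (h1 : ζ ^ p = 1)
    (f : LaurentSeries k) : FA_S28_tw ζ hζ (qExpand k p f) = qExpand k p f := by
  ext n
  rw [FA_S28_tw_coeff]
  by_cases hn : (p : ℤ) ∣ n
  · obtain ⟨m, rfl⟩ := hn
    rw [zpow_mul, zpow_natCast, h1, one_zpow, one_mul]
  · rw [qExpand_coeff_of_not_dvd p f hn, mul_zero]

theorem FA_S28_tw_tw (ζ ξ : k) (hζ : ζ ≠ 0) (hξ : ξ ≠ 0) (f : LaurentSeries k) :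
    FA_S28_tw ζ hζ (FA_S28_tw ξ hξ f) = FA_S28_tw (ζ * ξ) (mul_ne_zero hζ hξ) f := by
  ext n
  rw [FA_S28_tw_coeff, FA_S28_tw_coeff, FA_S28_tw_coeff, mul_zpow, mul_assoc]

theorem FA_S28_tw_one (f : LaurentSeries k) : FA_S28_tw (1 : k) one_ne_zero f = f := by
  ext n
  rw [FA_S28_tw_coeff, one_zpow, one_mul]

/-! ### `j(q^d)` -/

/-- `j(q^d)` as a total function of `d` (junk value `0` for `d = 0`). -/
def FA_S28_jd (k : Type) [Field k] (d : ℕ) : LaurentSeries k :=
  if h : d = 0 then 0 else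
    haveI : NeZero d := ⟨h⟩
    jqNModC k d

theorem FA_S28_jd_eq (d : ℕ) [NeZero d] : FA_S28_jd k d = jqNModC k d := by
  rw [FA_S28_jd, dif_neg (NeZero.ne d)]

theorem FA_S28_jd_one : FA_S28_jd k 1 = jqModC k := by
  rw [FA_S28_jd_eq, jqNModC_one]

theorem FA_S28_qExpand_jd (e d : ℕ) [NeZero e] [NeZero d] :
    qExpand k e (FA_S28_jd k d) = FA_S28_jd k (e * d) := by
  rw [FA_S28_jd_eq, FA_S28_jd_eq, jqNModC, jqNModC, qExpand_qExpand]

/-! ### Orders -/

theorem FA_S28_coeff_jd_neg (d : ℕ) [NeZero d] : (FA_S28_jd k d).coeff (-(d : ℤ)) = 1 := by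
  rw [FA_S28_jd_eq, jqNModC, show (-(d : ℤ)) = (d : ℤ) * (-1) by ring, qExpand_coeff_mul,
    coeff_jqModC_neg_one]

theorem FA_S28_order_jq : (jqModC k).order = -1 := by
  apply le_antisymm
  · exact HahnSeries.order_le_of_coeff_ne_zero (by rw [coeff_jqModC_neg_one]; exact one_ne_zero)
  · rw [HahnSeries.le_order_iff_forall (jqModC_ne_zero_of_nontrivial k)]
    intro n hn
    exact coeff_jqModC_of_lt k hn

end Fermat.Agent.S28
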