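import Mathlib
import Fermat.Agent.S28.IndDefs

/-!
# S28, leaf IND: sub-targets (see `NOTES/plan/S28.md`, section IND)

Standing data: a field `k` of characteristic `ℓ`, algebraically closed (so that all roots of unity
of order prime to `ℓ` are available); `Ω = k((q))`; `κ = k(j)`;
`FA_S28_fld k S = k(j, j(q^d) : d ∈ S)`.

* `IGk`    : IG over `k` (from IG over `𝔽_ℓ` by LD).
* `IndFin` : `j(q^d)` is integral over `κ` (from PHI).
* `IndIrr` : if `κ ≤ L ⊆ k((q))` and `j(q^p) ∉ L`, no nonzero polynomial of degree `≤ p` over `L`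
             kills `j(q^p)`  (lead's argument: twist by `ζ_p`).
* `IndA`   : `p ∤ M` ⇒ `j(q^p) ∉ k(j, j(q^r) : r ∣ M prime)`  (splitting in `k((q^{1/M}))`).
* `IndB`   : `[k_{Mp} : κ] ≥ p · [k_M : κ]`  (total ramification of `k((q)) / k((q^p))`).
* `IndMain`: the induction and the extraction of monomials: `DegModL N ℓ`.
-/

set_option autoImplicit false

noncomputable section

namespace Fermat.Agent.S28

open ModularCurve

/-- `κ = k(j)`. -/
def FA_S28_kappa (k : Type) [Field k] : IntermediateField k (LaurentSeries k) :=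
  IntermediateField.adjoin k {jqModC k}

/-- `k(j, j(q^d) : d ∈ S)`. -/
def FA_S28_fld (k : Type) [Field k] (S : Set ℕ) : IntermediateField k (LaurentSeries k) :=
  IntermediateField.adjoin k (insert (jqModC k) (FA_S28_jd k '' S))

/-- PHI for all primes different from `ℓ`. -/
def FA_S28_PHIall (ℓ : ℕ) : Prop :=
  ∀ (p : ℕ) [NeZero p], p.Prime → p ≠ ℓ → FA_S28_Target_PHI p

/-- IG over the field `k`, for all primes different from `ℓ`. -/
def FA_S28_IGall (k : Type) [Field k] (ℓ : ℕ) : Prop :=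
  ∀ p : ℕ, p.Prime → p ≠ ℓ → FA_S28_jd k p ∉ FA_S28_kappa k

/-- **IGk**: IG over `𝔽_ℓ` gives IG over every field of characteristic `ℓ` (by LD). -/
def FA_S28_Target_IGk (ℓ : ℕ) [Fact ℓ.Prime] : Prop :=
  (∀ (p : ℕ) [NeZero p], p.Prime → p ≠ ℓ → FA_S28_Target_IG p ℓ) →
    ∀ (k : Type) [Field k] [CharP k ℓ], FA_S28_IGall k ℓ

/-- **IndFin**: `j(q^d)` is integral over `κ` when `ℓ ∤ d`. -/
def FA_S28_Target_IndFin (ℓ : ℕ) [Fact ℓ.Prime] : Prop :=
  FA_S28_PHIall ℓ → ∀ (k : Type) [Field k] [IsAlgClosed k] [CharP k ℓ] (d : ℕ),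
    d ≠ 0 → ¬ ℓ ∣ d → IsIntegral ↥(FA_S28_kappa k) (FA_S28_jd k d)

/-- **IndIrr**: prime level irreducibility over every intermediate field not containing
`j(q^p)`. -/
def FA_S28_Target_IndIrr (ℓ : ℕ) [Fact ℓ.Prime] : Prop :=
  FA_S28_PHIall ℓ → ∀ (k : Type) [Field k] [IsAlgClosed k] [CharP k ℓ] (p : ℕ),
    p.Prime → p ≠ ℓ →
    ∀ L : IntermediateField k (LaurentSeries k), FA_S28_kappa k ≤ L → FA_S28_jd k p ∉ L →
      ∀ A : Polynomial ↥L, A ≠ 0 → Polynomial.aeval (FA_S28_jd k p) A = 0 → p + 1 ≤ A.natDegree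

/-- **IndA**: a new prime gives a new generator. -/
def FA_S28_Target_IndA (ℓ : ℕ) [Fact ℓ.Prime] : Prop :=
  FA_S28_PHIall ℓ → ∀ (k : Type) [Field k] [IsAlgClosed k] [CharP k ℓ], FA_S28_IGall k ℓ →
    ∀ (p M : ℕ), p.Prime → p ≠ ℓ → M ≠ 0 → ¬ ℓ ∣ M → ¬ p ∣ M →
      FA_S28_jd k p ∉ FA_S28_fld k {r | r.Prime ∧ r ∣ M}

/-- **IndB**: total ramification: `[k_{Mp} : κ] ≥ p · [k_M : κ]`. -/
def FA_S28_Target_IndB (ℓ : ℕ) [Fact ℓ.Prime] : Prop :=
  FA_S28_PHIall ℓ → ∀ (k : Type) [Field k] [IsAlgClosed k] [CharP k ℓ], FA_S28_IGall k ℓ →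
    ∀ (p M : ℕ), p.Prime → p ≠ ℓ → M ≠ 0 → ¬ ℓ ∣ M →
      p * IntermediateField.relfinrank (FA_S28_kappa k) (FA_S28_fld k {d | d ∣ M})
        ≤ IntermediateField.relfinrank (FA_S28_kappa k) (FA_S28_fld k {d | d ∣ M * p})

/-- **IndDeg**: the degree bound for all levels prime to `ℓ`. -/
def FA_S28_Target_IndDeg (ℓ : ℕ) [Fact ℓ.Prime] : Prop :=
  ∀ (k : Type) [Field k] [IsAlgClosed k] [CharP k ℓ] (N : ℕ), N ≠ 0 → ¬ ℓ ∣ N →
    dedekindPsi N ≤ IntermediateField.relfinrank (FA_S28_kappa k) (FA_S28_fld k {d | d ∣ N})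

/-- **IndInduct**: the induction on the level.  Squarefree `N`: `IndIrr` over
`L = k(j, j(q^r) : r ∣ M prime)` + `IndA`; `p² ∣ N`: `IndB`; `FA_S24_psi_mul_prime_of_dvd`,
`FA_S24_psi_mul_prime_of_not_dvd` (S24/BIndexPsi.lean) for `ψ`. -/
def FA_S28_Target_IndInduct (ℓ : ℕ) [Fact ℓ.Prime] : Prop :=
  FA_S28_PHIall ℓ → (∀ (k : Type) [Field k] [CharP k ℓ], FA_S28_IGall k ℓ) →
    FA_S28_Target_IndFin ℓ → FA_S28_Target_IndIrr ℓ → FA_S28_Target_IndA ℓ →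
    FA_S28_Target_IndB ℓ → FA_S28_Target_IndDeg ℓ

/-- **IndMain**: `IndDeg` (+ integrality) gives `DegModL`: extract `ψ(N)` independent monomials in
the `j(q^d)`, which are defined over `ℤ`. -/
def FA_S28_Target_IndMain (ℓ : ℕ) [Fact ℓ.Prime] : Prop :=
  FA_S28_Target_IndFin ℓ → FA_S28_PHIall ℓ → FA_S28_Target_IndDeg ℓ →
    ∀ (N : ℕ) [NeZero N], ¬ ℓ ∣ N → FA_S28_Target_DegModL N ℓ

end Fermat.Agent.S28
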