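import Mathlib
import Fermat.Agent.S28.IndInterface

/-!
# S28, leaf IndB, part 1: total ramification of `k((q)) / k((q^p))`

A polynomial of degree `< p` with coefficients in `k((q^p))` (the range of `qExpand k p`) that
kills `j` (which has a simple pole) is zero: the orders of the terms are distinct modulo `p`.
-/

set_option autoImplicit false

noncomputable section

namespace Fermat.Agent.S28

open ModularCurve Polynomial

/-- Finitely many Laurent series whose nonzero members have pairwise distinct orders and whose sum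
is zero are all zero. -/
theorem FA_S28_indB_ord {R : Type} [CommRing R] {ι : Type} (s : Finset ι)
    (f : ι → LaurentSeries R)
    (hinj : ∀ i ∈ s, ∀ i' ∈ s, f i ≠ 0 → f i' ≠ 0 → (f i).order = (f i').order → i = i')
    (hsum : ∑ i ∈ s, f i = 0) : ∀ i ∈ s, f i = 0 := by
  classical
  by_contra hcon
  push Not at hcon
  obtain ⟨i₁, hi₁, hne₁⟩ := hcon
  have hne : (s.filter fun i => f i ≠ 0).Nonempty := ⟨i₁, Finset.mem_filter.mpr ⟨hi₁, hne₁⟩⟩
  obtain ⟨i₀, hi₀, hmin⟩ := Finset.exists_min_image (s.filter fun i => f i ≠ 0)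
    (fun i => (f i).order) hne
  rw [Finset.mem_filter] at hi₀
  have h1 := congrArg (fun x : LaurentSeries R => x.coeff (f i₀).order) hsum
  simp only [HahnSeries.coeff_sum, HahnSeries.coeff_zero] at h1
  rw [Finset.sum_eq_single_of_mem i₀ hi₀.1] at h1
  · exact (HahnSeries.coeff_order_eq_zero.not.mpr hi₀.2) h1
  · intro i hi hii
    by_cases hfi : f i = 0
    · rw [hfi, HahnSeries.coeff_zero]
    · have hle := hmin i (Finset.mem_filter.mpr ⟨hi, hfi⟩)
      have hneq : (f i₀).order ≠ (f i).order := fun h =>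
        hii (hinj i₀ hi₀.1 i hi hi₀.2 hfi h).symm
      exact HahnSeries.coeff_eq_zero_of_lt_order (lt_of_le_of_ne hle hneq)

/-- The order of a nonzero element of `k((q^p))` is divisible by `p`. -/
theorem FA_S28_indB_order_qExpand {k : Type} [Field k] (p : ℕ) [NeZero p] (c : LaurentSeries k)
    (hc : qExpand k p c ≠ 0) : (p : ℤ) ∣ (qExpand k p c).order := by
  by_contra h
  exact (HahnSeries.coeff_order_eq_zero.not.mpr hc) (qExpand_coeff_of_not_dvd p c h)

/-- The order of `c · j^i`. -/
theorem FA_S28_indB_order_term {k : Type} [Field k] (c : LaurentSeries k) (hc : c ≠ 0) (i : ℕ) :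
    (c * jqModC k ^ i).order = c.order - i := by
  have hj : jqModC k ≠ 0 := jqModC_ne_zero_of_nontrivial k
  have hji : jqModC k ^ i ≠ 0 := pow_ne_zero _ hj
  rw [HahnSeries.order_mul_of_ne_zero, HahnSeries.order_pow, FA_S28_order_jq]
  · simp only [nsmul_eq_mul, mul_neg, mul_one]
    ring
  · exact mul_ne_zero (HahnSeries.leadingCoeff_ne_zero.mpr hc)
      (HahnSeries.leadingCoeff_ne_zero.mpr hji)

/-- `1, j, …, j^{p-1}` are linearly independent over `k((q^p))`. -/
theorem FA_S28_indB_indep {k : Type} [Field k] (p : ℕ) [NeZero p] (s : Finset ℕ)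
    (hs : ∀ i ∈ s, i < p) (c : ℕ → LaurentSeries k)
    (hsum : ∑ i ∈ s, qExpand k p (c i) * jqModC k ^ i = 0) : ∀ i ∈ s, c i = 0 := by
  have hj : jqModC k ≠ 0 := jqModC_ne_zero_of_nontrivial k
  have key := FA_S28_indB_ord s (fun i => qExpand k p (c i) * jqModC k ^ i) ?_ hsum
  · intro i hi
    have h := key i hi
    rcases mul_eq_zero.mp h with h | h
    · exact qExpand_injective (R := k) p (by rw [h, map_zero])
    · exact absurd h (pow_ne_zero _ hj)
  · intro i hi i' hi' hne hne' hord
    have hci : qExpand k p (c i) ≠ 0 := left_ne_zero_of_mul hne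
    have hci' : qExpand k p (c i') ≠ 0 := left_ne_zero_of_mul hne'
    rw [FA_S28_indB_order_term _ hci, FA_S28_indB_order_term _ hci'] at hord
    obtain ⟨a, ha⟩ := FA_S28_indB_order_qExpand p (c i) hci
    obtain ⟨a', ha'⟩ := FA_S28_indB_order_qExpand p (c i') hci'
    rw [ha, ha'] at hord
    have hip := hs i hi
    have hip' := hs i' hi'
    have hdvd : (p : ℤ) ∣ (i : ℤ) - i' := ⟨a - a', by linarith⟩
    have hlt : |(i : ℤ) - i'| < p := by
      rw [abs_lt]
      constructor <;> omega
    have := Int.eq_zero_of_abs_lt_dvd hdvd hlt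
    omega

end Fermat.Agent.S28
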