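import Mathlib

/-!
# S28, leaf IndB, part 2: bounds for relative ranks of intermediate fields
-/

set_option autoImplicit false

noncomputable section

namespace Fermat.Agent.S28

open Polynomial

/-- Lower bound: if no nonzero polynomial over `X` of degree `< n` kills `x ∈ Y`, then
`n ≤ [Y : X]`. -/
theorem FA_S28_indB_le_relrank {F Ω : Type} [Field F] [Field Ω] [Algebra F Ω]
    (X Y : IntermediateField F Ω) (h : X ≤ Y) (x : Ω) (hx : x ∈ Y) (n : ℕ)
    (hmin : ∀ P : Polynomial ↥X, P ≠ 0 → Polynomial.aeval x P = 0 → n ≤ P.natDegree) :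
    (n : Cardinal) ≤ IntermediateField.relrank X Y := by
  rw [IntermediateField.relrank_eq_rank_of_le h]
  let v : Fin n → ↥(IntermediateField.extendScalars h) := fun i => ⟨x ^ (i : ℕ), pow_mem hx _⟩
  have hli : LinearIndependent ↥X v := by
    rw [Fintype.linearIndependent_iff]
    intro g hg i
    set P : Polynomial ↥X := ∑ i : Fin n, Polynomial.C (g i) * Polynomial.X ^ (i : ℕ) with hP
    have hPx : Polynomial.aeval x P = 0 := by
      have h1 := congrArg (fun y : ↥(IntermediateField.extendScalars h) => (y : Ω)) hg
      simp only [ZeroMemClass.coe_zero] at h1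
      rw [← h1, hP, map_sum]
      rw [show ((∑ i : Fin n, g i • v i : ↥(IntermediateField.extendScalars h)) : Ω)
        = ∑ i : Fin n, ((g i • v i : ↥(IntermediateField.extendScalars h)) : Ω) from by
          simp only [AddSubmonoidClass.coe_finset_sum]]
      refine Finset.sum_congr rfl fun i _ => ?_
      simp only [map_mul, aeval_C, map_pow, aeval_X]
      rfl
    by_contra hgi
    have hcoeff : P.coeff (i : ℕ) = g i := by
      rw [hP, Polynomial.finset_sum_coeff]
      rw [Finset.sum_eq_single i]
      · rw [Polynomial.coeff_C_mul_X_pow, if_pos rfl]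
      · intro b _ hb
        rw [Polynomial.coeff_C_mul_X_pow, if_neg]
        exact fun h => hb (Fin.ext h.symm)
      · intro h
        exact absurd (Finset.mem_univ i) h
    have hP0 : P ≠ 0 := by
      intro h0
      rw [h0, Polynomial.coeff_zero] at hcoeff
      exact hgi hcoeff.symm
    have hdeg : P.degree < n := Polynomial.degree_sum_fin_lt g
    have h2 := hmin P hP0 hPx
    have h3 : P.natDegree < n := (Polynomial.natDegree_lt_iff_degree_lt hP0).mpr hdeg
    omega
  have h4 := hli.cardinal_le_rank
  simpa using h4

/-- Upper bound: `[X(x) : X] ≤ deg P` for a monic `P` over `X` killing `x`. -/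
theorem FA_S28_indB_relrank_le {F Ω : Type} [Field F] [Field Ω] [Algebra F Ω]
    (X : IntermediateField F Ω) (S : Set Ω) (h : X ≤ IntermediateField.adjoin F S) (x : Ω)
    (hS : ∀ y ∈ S, y ∈ X ∨ y = x)
    (P : Polynomial ↥X) (hP : P.Monic) (hPx : Polynomial.aeval x P = 0) :
    IntermediateField.relrank X (IntermediateField.adjoin F S) ≤ (P.natDegree : Cardinal) := by
  rw [IntermediateField.relrank_eq_rank_of_le h, IntermediateField.extendScalars_adjoin h]
  have hint : IsIntegral ↥X x := ⟨P, hP, hPx⟩
  have hle : IntermediateField.adjoin ↥X S ≤ IntermediateField.adjoin ↥X {x} := by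
    rw [IntermediateField.adjoin_le_iff]
    intro y hy
    rcases hS y hy with hy | hy
    · exact (IntermediateField.adjoin ↥X {x}).algebraMap_mem ⟨y, hy⟩
    · subst hy
      exact IntermediateField.mem_adjoin_simple_self _ _
  have h1 : Module.rank ↥X ↥(IntermediateField.adjoin ↥X S)
      ≤ Module.rank ↥X ↥(IntermediateField.adjoin ↥X {x}) :=
    LinearMap.rank_le_of_injective (IntermediateField.inclusion hle).toLinearMap
      (IntermediateField.inclusion_injective hle)
  have hfd : FiniteDimensional ↥X ↥(IntermediateField.adjoin ↥X {x}) :=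
    IntermediateField.adjoin.finiteDimensional hint
  have h2 : Module.rank ↥X ↥(IntermediateField.adjoin ↥X {x})
      = ((minpoly ↥X x).natDegree : Cardinal) := by
    rw [← Module.finrank_eq_rank, IntermediateField.adjoin.finrank hint]
  have h3 : (minpoly ↥X x).natDegree ≤ P.natDegree :=
    Polynomial.natDegree_le_natDegree (minpoly.min _ _ hP hPx)
  calc Module.rank ↥X ↥(IntermediateField.adjoin ↥X S)
      ≤ Module.rank ↥X ↥(IntermediateField.adjoin ↥X {x}) := h1
    _ = ((minpoly ↥X x).natDegree : Cardinal) := h2
    _ ≤ (P.natDegree : Cardinal) := by exact_mod_cast h3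

/-- Finiteness: finitely many integral generators. -/
theorem FA_S28_indB_relrank_lt {F Ω : Type} [Field F] [Field Ω] [Algebra F Ω]
    (X : IntermediateField F Ω) (S : Set Ω) (hfin : S.Finite)
    (h : X ≤ IntermediateField.adjoin F S) (hS : ∀ y ∈ S, IsIntegral ↥X y) :
    IntermediateField.relrank X (IntermediateField.adjoin F S) < Cardinal.aleph0 := by
  rw [IntermediateField.relrank_eq_rank_of_le h, IntermediateField.extendScalars_adjoin h]
  have : Finite ↑S := hfin
  have := IntermediateField.finiteDimensional_adjoin (K := ↥X) hS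
  exact Module.rank_lt_aleph0 _ _

end Fermat.Agent.S28
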