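import Mathlib
import Fermat.Agent.S28.IndInterface

/-!
# S28, leaf IndIrr: prime level irreducibility over intermediate fields
-/

set_option autoImplicit false

noncomputable section

namespace Fermat.Agent.S28

open ModularCurve Polynomial

/-- Abstract irreducibility: a divisor `A` of `P` of degree `≥ 2` with root `y∞`, where the other
roots `y b` of `P` are distinct and permuted cyclically by an endomorphism fixing the
coefficients, has degree `≥ p + 1`. -/
theorem FA_S28_irr_abs {L Ω : Type} [Field L] [Field Ω] (ι : L →+* Ω) (p : ℕ) [NeZero p]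
    (P : Polynomial L) (yinf : Ω) (y : Fin p → Ω)
    (hP : P.map ι = (X - C yinf) * ∏ b : Fin p, (X - C (y b)))
    (τ : Ω →+* Ω) (hτι : ∀ a, τ (ι a) = ι a) (hτy : ∀ b, τ (y b) = y (b + 1))
    (hinj : Function.Injective y) (hne : ∀ b, y b ≠ yinf)
    (A : Polynomial L) (hA : A ∣ P) (hroot : (A.map ι).eval yinf = 0) (hdeg : 2 ≤ A.natDegree) :
    p + 1 ≤ A.natDegree := by
  classical
  set Q : Polynomial Ω := ∏ b : Fin p, (X - C (y b)) with hQ
  have hQmonic : Q.Monic := monic_prod_of_monic _ _ fun b _ => monic_X_sub_C (y b)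
  have hQ0 : Q ≠ 0 := hQmonic.ne_zero
  have hQroots : Q.roots = Finset.univ.val.map y := by
    have e : (fun b => X - C (y b)) = (fun a : Ω => X - C a) ∘ y := rfl
    rw [hQ, Finset.prod_eq_multiset_prod, e, ← Multiset.map_map, roots_multiset_prod_X_sub_C]
  have hP0 : P.map ι ≠ 0 := by
    rw [hP]
    exact mul_ne_zero (X_sub_C_ne_zero yinf) hQ0
  obtain ⟨B, hB⟩ := hA
  have hAB : A.map ι * B.map ι = (X - C yinf) * Q := by
    rw [← Polynomial.map_mul, ← hB, hP]
  have hA0 : A.map ι ≠ 0 := fun h => hP0 (by rw [hB, Polynomial.map_mul, h, zero_mul])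
  have hB0 : B.map ι ≠ 0 := fun h => hP0 (by rw [hB, Polynomial.map_mul, h, mul_zero])
  -- split off the root `yinf` of `A`
  obtain ⟨A', hA'⟩ : (X - C yinf) ∣ A.map ι := dvd_iff_isRoot.mpr hroot
  have hA'0 : A' ≠ 0 := fun h => hA0 (by rw [hA', h, mul_zero])
  have hA'B : A' * B.map ι = Q := by
    have := hAB
    rw [hA', mul_assoc] at this
    exact mul_left_cancel₀ (X_sub_C_ne_zero yinf) this
  have hdegA : A.natDegree = A'.natDegree + 1 := by
    rw [← natDegree_map ι, hA', natDegree_mul (X_sub_C_ne_zero yinf) hA'0, natDegree_X_sub_C,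
      add_comm]
  -- `A'` has a root among the `y b`
  have hcard : Multiset.card A'.roots + Multiset.card (B.map ι).roots = p := by
    have := congrArg Multiset.card (roots_mul (p := A') (q := B.map ι) (by rw [hA'B]; exact hQ0))
    rw [hA'B, hQroots, Multiset.card_add, Multiset.card_map] at this
    simpa using this.symm
  have hdegQ : A'.natDegree + (B.map ι).natDegree = p := by
    have := congrArg natDegree hA'B
    rw [natDegree_mul hA'0 hB0, hQ, natDegree_prod_of_monic _ _ fun b _ => monic_X_sub_C (y b)]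
      at this
    simpa using this
  have hcA : Multiset.card A'.roots = A'.natDegree := by
    have h1 := card_roots' A'
    have h2 := card_roots' (B.map ι)
    omega
  have hpos : 0 < Multiset.card A'.roots := by omega
  obtain ⟨r, hr⟩ := Multiset.card_pos_iff_exists_mem.mp hpos
  have hrQ : r ∈ Q.roots := by
    rw [← hA'B, roots_mul (by rw [hA'B]; exact hQ0)]
    exact Multiset.mem_add.mpr (Or.inl hr)
  rw [hQroots, Multiset.mem_map] at hrQ
  obtain ⟨b₀, -, rfl⟩ := hrQ
  have hb₀ : (A.map ι).IsRoot (y b₀) := by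
    rw [hA']
    exact (((mem_roots hA'0).mp hr).dvd (dvd_mul_left A' (X - C yinf)))
  -- `τ` preserves the roots of `A`
  have hτroot : ∀ r : Ω, (A.map ι).IsRoot r → (A.map ι).IsRoot (τ r) := by
    intro r hr
    have h1 : (A.map ι).map τ = A.map ι := by
      rw [Polynomial.map_map]
      congr 1
      exact RingHom.ext hτι
    rw [IsRoot.def, ← h1, eval_map, eval₂_hom, hr.eq_zero, map_zero]
  have hall : ∀ n : ℕ, (A.map ι).IsRoot (y ((fun b : Fin p => b + 1)^[n] b₀)) := by
    intro n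
    induction n with
    | zero => simpa using hb₀
    | succ n ih =>
      have := hτroot _ ih
      rw [hτy] at this
      rwa [Function.iterate_succ_apply']
  have hval : ∀ n : ℕ, (((fun b : Fin p => b + 1)^[n] b₀ : Fin p) : ℕ) = (b₀.val + n) % p := by
    intro n
    induction n with
    | zero => simp [Nat.mod_eq_of_lt b₀.isLt]
    | succ n ih =>
      rw [Function.iterate_succ_apply', Fin.val_add, ih, Fin.val_one', Nat.add_mod_mod,
        Nat.mod_add_mod, add_assoc]
  have hally : ∀ b, (A.map ι).IsRoot (y b) := by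
    intro b
    have h := hall (b.val + (p - b₀.val))
    have e : (fun b : Fin p => b + 1)^[b.val + (p - b₀.val)] b₀ = b := by
      apply Fin.ext
      rw [hval]
      have h1 : b₀.val + (b.val + (p - b₀.val)) = b.val + p := by
        have := b₀.isLt
        omega
      rw [h1, Nat.add_mod_right, Nat.mod_eq_of_lt b.isLt]
    rwa [e] at h
  -- count
  let Z : Finset Ω := insert yinf (Finset.univ.image y)
  have hZ : Z.card = p + 1 := by
    rw [Finset.card_insert_of_notMem, Finset.card_image_of_injective _ hinj, Finset.card_univ,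
      Fintype.card_fin]
    intro h
    obtain ⟨b, -, hb⟩ := Finset.mem_image.mp h
    exact hne b hb
  have hsub : Z.val ⊆ (A.map ι).roots := by
    intro r hr
    rw [mem_roots hA0]
    rcases Finset.mem_insert.mp (Finset.mem_val.mp hr) with rfl | h
    · exact hroot
    · obtain ⟨b, -, rfl⟩ := Finset.mem_image.mp h
      exact hally b
  have := card_le_degree_of_subset_roots hsub
  rw [hZ, natDegree_map] at this
  exact this

end Fermat.Agent.S28

namespace Fermat.Agent.S28

open ModularCurve Polynomial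

/-- A primitive `p`-th root of unity in an algebraically closed field of characteristic `≠ p`. -/
theorem FA_S28_exists_primitiveRoot (k : Type) [Field k] [IsAlgClosed k] (ℓ : ℕ) [CharP k ℓ]
    (p : ℕ) (hp : p.Prime) (hℓ : ℓ.Prime) (hpℓ : p ≠ ℓ) : ∃ ζ : k, IsPrimitiveRoot ζ p := by
  have hpk : (p : k) ≠ 0 := by
    intro h
    rw [CharP.cast_eq_zero_iff k ℓ] at h
    exact hpℓ ((Nat.prime_dvd_prime_iff_eq hℓ hp).mp h).symm
  have : NeZero (p : k) := ⟨hpk⟩
  obtain ⟨ζ, hζ⟩ := IsAlgClosed.exists_root (cyclotomic p k)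
    (degree_cyclotomic_pos p k hp.pos).ne'
  exact ⟨ζ, isRoot_cyclotomic_iff.mp hζ⟩

/-- The `p + 1` roots of the modular equation, as twists. -/
def FA_S28_root {k : Type} [Field k] (ζ : k) (hζ : ζ ≠ 0) (p : ℕ) (b : Fin p) : LaurentSeries k :=
  FA_S28_tw (ζ ^ (b : ℕ)) (pow_ne_zero _ hζ) (jqModC k)

theorem FA_S28_root_coeff {k : Type} [Field k] (ζ : k) (hζ : ζ ≠ 0) (p : ℕ) (b : Fin p) (n : ℤ) :
    (FA_S28_root ζ hζ p b).coeff n = (ζ ^ (b : ℕ)) ^ n * (jqModC k).coeff n := rfl

theorem FA_S28_root_isTwist {k : Type} [Field k] (ζ : k) (hζ : ζ ≠ 0) (p : ℕ) (b : Fin p) :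
    FA_S28_IsTwist (ζ ^ (b : ℕ)) (jqModC k) (FA_S28_root ζ hζ p b) :=
  (FA_S28_isTwist_iff _ (pow_ne_zero _ hζ) _ _).mpr rfl

theorem FA_S28_root_injective {k : Type} [Field k] (ζ : k) (p : ℕ) (h : IsPrimitiveRoot ζ p)
    (hζ : ζ ≠ 0) : Function.Injective (FA_S28_root ζ hζ p) := by
  intro b b' hbb
  have := congrArg (fun f : LaurentSeries k => f.coeff (-1)) hbb
  simp only [FA_S28_root_coeff, coeff_jqModC_neg_one, mul_one, zpow_neg, zpow_one,
    inv_inj] at this
  exact Fin.ext (h.pow_inj b.isLt b'.isLt this)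

theorem FA_S28_root_ne {k : Type} [Field k] (ζ : k) (hζ : ζ ≠ 0) (p : ℕ) [NeZero p]
    (hp : 2 ≤ p) (b : Fin p) : FA_S28_root ζ hζ p b ≠ jqNModC k (p * p) := by
  intro h
  have := congrArg (fun f : LaurentSeries k => f.coeff (-1)) h
  simp only [FA_S28_root_coeff, coeff_jqModC_neg_one, mul_one, zpow_neg, zpow_one] at this
  rw [jqNModC, qExpand_coeff_of_not_dvd] at this
  · exact inv_ne_zero (pow_ne_zero _ hζ) this
  · intro hd
    have h1 : ((p * p : ℕ) : ℤ) ∣ 1 := by simpa using hd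
    have h2 : (p * p : ℕ) ∣ 1 := by exact_mod_cast h1
    have h3 : p * p = 1 := Nat.dvd_one.mp h2
    nlinarith

theorem FA_S28_tw_root {k : Type} [Field k] (ζ : k) (hζ : ζ ≠ 0) (p : ℕ) [NeZero p]
    (h1 : ζ ^ p = 1) (b : Fin p) :
    FA_S28_tw ζ hζ (FA_S28_root ζ hζ p b) = FA_S28_root ζ hζ p (b + 1) := by
  ext n
  rw [FA_S28_tw_coeff, FA_S28_root_coeff, FA_S28_root_coeff, ← mul_assoc, ← mul_zpow]
  congr 2
  rw [Fin.val_add, Fin.val_one', Nat.add_mod_mod, ← pow_eq_pow_mod _ h1, pow_succ, mul_comm]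

/-- The modular equation over an intermediate field `L ⊇ κ`, from PHI. -/
theorem FA_S28_irr_setup {k : Type} [Field k] (p : ℕ) [NeZero p] (hPHI : FA_S28_Target_PHI p)
    (ζ : k) (hζp : IsPrimitiveRoot ζ p) (hζ : ζ ≠ 0)
    (L : IntermediateField k (LaurentSeries k)) (hL : FA_S28_kappa k ≤ L) :
    ∃ P : Polynomial ↥L, P.Monic ∧ P.natDegree = p + 1 ∧
      P.map ((qExpand k p).comp (algebraMap ↥L (LaurentSeries k)))
        = (X - C (jqNModC k (p * p))) * ∏ b : Fin p, (X - C (FA_S28_root ζ hζ p b)) := by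
  obtain ⟨Φ, hmonic, hdeg, hfac⟩ := hPHI k ζ hζp
  have hjL : jqModC k ∈ L := hL (IntermediateField.mem_adjoin_simple_self k _)
  refine ⟨Φ.map (Polynomial.aeval (⟨jqModC k, hjL⟩ : ↥L)).toRingHom, hmonic.map _, ?_, ?_⟩
  · rw [hmonic.natDegree_map, hdeg]
  · rw [Polynomial.map_map, ← hfac _ (FA_S28_root_isTwist ζ hζ p)]
    congr 1
    apply Polynomial.ringHom_ext
    · intro c
      simp only [RingHom.coe_comp, Function.comp_apply, AlgHom.toRingHom_eq_coe,
        RingHom.coe_coe, aeval_C]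
      show qExpand k p (algebraMap k (LaurentSeries k) c) = algebraMap k (LaurentSeries k) c
      rw [algebraMap_laurentSeries_eq_single, qExpand_single, mul_zero]
    · simp only [RingHom.coe_comp, Function.comp_apply, AlgHom.toRingHom_eq_coe,
        RingHom.coe_coe, aeval_X]
      rfl

/-- **Leaf IndIrr.** -/
theorem FA_S28_indIrr (ℓ : ℕ) [Fact ℓ.Prime] : FA_S28_Target_IndIrr ℓ := by
  intro hPHI k _ _ _ p hp hpℓ L hL hnot A hA0 hAroot
  have : NeZero p := ⟨hp.ne_zero⟩
  obtain ⟨ζ, hζp⟩ := FA_S28_exists_primitiveRoot k ℓ p hp (Fact.out) hpℓ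
  have hζ : ζ ≠ 0 := hζp.ne_zero hp.ne_zero
  obtain ⟨P, hPmonic, hPdeg, hPfac⟩ := FA_S28_irr_setup p (hPHI p hp hpℓ) ζ hζp hζ L hL
  set ι : ↥L →+* LaurentSeries k := (qExpand k p).comp (algebraMap ↥L (LaurentSeries k)) with hι
  have hjd : FA_S28_jd k p = jqNModC k p := FA_S28_jd_eq p
  have hyinf : qExpand k p (FA_S28_jd k p) = jqNModC k (p * p) := by
    rw [hjd, jqNModC, jqNModC, qExpand_qExpand]
  -- evaluation through `ι`
  have heval : ∀ B : Polynomial ↥L,
      (B.map ι).eval (jqNModC k (p * p)) = qExpand k p (Polynomial.aeval (FA_S28_jd k p) B) := by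
    intro B
    rw [eval_map, ← hyinf, hι, Polynomial.aeval_def, hom_eval₂]
  have hPjd : Polynomial.aeval (FA_S28_jd k p) P = 0 := by
    apply qExpand_injective (R := k) p
    rw [← heval, hPfac, map_zero]
    simp
  have hint : IsIntegral ↥L (FA_S28_jd k p) := ⟨P, hPmonic, hPjd⟩
  have hmin_dvd : minpoly ↥L (FA_S28_jd k p) ∣ P := minpoly.dvd _ _ hPjd
  have hmin2 : 2 ≤ (minpoly ↥L (FA_S28_jd k p)).natDegree := by
    rw [minpoly.two_le_natDegree_iff hint]
    rintro ⟨a, ha⟩
    exact hnot (ha ▸ a.2)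
  have hmin := FA_S28_irr_abs ι p P (jqNModC k (p * p)) (FA_S28_root ζ hζ p) hPfac
    (FA_S28_tw ζ hζ)
    (fun a => FA_S28_tw_qExpand ζ hζ p hζp.pow_eq_one _)
    (FA_S28_tw_root ζ hζ p hζp.pow_eq_one)
    (FA_S28_root_injective ζ p hζp hζ)
    (FA_S28_root_ne ζ hζ p hp.two_le)
    (minpoly ↥L (FA_S28_jd k p)) hmin_dvd
    (by rw [heval, minpoly.aeval, map_zero]) hmin2
  exact hmin.trans (natDegree_le_of_dvd (minpoly.dvd _ _ hAroot) hA0)

end Fermat.Agent.S28
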