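import Mathlib
import Fermat.Agent.S28.IndIrr
import Fermat.Agent.S28.IndBOrd
import Fermat.Agent.S28.IndBRank

/-!
# S28, leaf IndB: `p · [k_M : κ] ≤ [k_{Mp} : κ]`

`σ = (q ↦ q^p)`, `A = κ = k(j)`, `B = k_M`, `C = k_{Mp}`, `A' = σ A = k(j_p)`, `B' = σ B ⊆ C`,
`E = k(j, j_p)`.  Then `[B' : A'] = [B : A]`, `[C : B'] ≥ p` (total ramification),
`[E : A'] ≤ p + 1 ≤ [E : A]` (modular equation and `IndIrr`), and everything is finite by `IndFin`.
-/

set_option autoImplicit false

noncomputable section

namespace Fermat.Agent.S28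

open ModularCurve Polynomial

/-- `j` is a root of a monic polynomial of degree `p + 1` over `k(j(q^p))`. -/
theorem FA_S28_indB_modEq {k : Type} [Field k] (p : ℕ) [NeZero p] (hPHI : FA_S28_Target_PHI p)
    (ζ : k) (hζp : IsPrimitiveRoot ζ p) :
    ∃ P : Polynomial ↥((FA_S28_kappa k).map (qExpandAlgHomC k p)), P.Monic ∧
      P.natDegree = p + 1 ∧ Polynomial.aeval (jqModC k) P = 0 := by
  have hζ : ζ ≠ 0 := hζp.ne_zero (NeZero.ne p)
  obtain ⟨P, hmonic, hdeg, hfac⟩ := FA_S28_irr_setup p hPHI ζ hζp hζ (FA_S28_kappa k) le_rfl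
  let e : ↥(FA_S28_kappa k) →+* ↥((FA_S28_kappa k).map (qExpandAlgHomC k p)) :=
    ((FA_S28_kappa k).equivMap (qExpandAlgHomC k p)).toAlgHom.toRingHom
  refine ⟨P.map e, hmonic.map _, by rw [hmonic.natDegree_map, hdeg], ?_⟩
  rw [Polynomial.aeval_def, Polynomial.eval₂_map]
  have hcomp : (algebraMap ↥((FA_S28_kappa k).map (qExpandAlgHomC k p)) (LaurentSeries k)).comp e
      = (qExpand k p).comp (algebraMap ↥(FA_S28_kappa k) (LaurentSeries k)) := by
    ext x
    rfl
  rw [hcomp, ← Polynomial.eval_map, hfac, Polynomial.eval_mul, Polynomial.eval_prod]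
  have h0 : FA_S28_root ζ hζ p (0 : Fin p) = jqModC k := by
    ext n
    rw [FA_S28_root_coeff]
    simp
  rw [Finset.prod_eq_zero (Finset.mem_univ (0 : Fin p)) (by rw [h0]; simp), mul_zero]

/-- No nonzero polynomial of degree `< p` over a subfield of `k((q^p))` kills `j`. -/
theorem FA_S28_indB_ram {k : Type} [Field k] (p : ℕ) [NeZero p]
    (B : IntermediateField k (LaurentSeries k))
    (P : Polynomial ↥(B.map (qExpandAlgHomC k p))) (hP0 : P ≠ 0)
    (hPx : Polynomial.aeval (jqModC k) P = 0) : p ≤ P.natDegree := by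
  by_contra hlt
  push Not at hlt
  have hex : ∀ i : ℕ, ∃ c : LaurentSeries k, qExpand k p c = ((P.coeff i : ↥(B.map
      (qExpandAlgHomC k p))) : LaurentSeries k) := by
    intro i
    obtain ⟨c, _, hc⟩ := (IntermediateField.mem_map B).mp (P.coeff i).2
    exact ⟨c, hc⟩
  choose c hc using hex
  have hsum : ∑ i ∈ Finset.range (P.natDegree + 1), qExpand k p (c i) * jqModC k ^ i = 0 := by
    rw [← hPx, Polynomial.aeval_eq_sum_range]
    refine Finset.sum_congr rfl fun i _ => ?_
    rw [hc i]
    rfl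
  have hall := FA_S28_indB_indep p (Finset.range (P.natDegree + 1))
    (fun i hi => by rw [Finset.mem_range] at hi; omega) c hsum
  apply hP0
  refine Polynomial.ext fun i => ?_
  rw [Polynomial.coeff_zero]
  by_cases hi : i ≤ P.natDegree
  · have h1 := hall i (Finset.mem_range.mpr (by omega))
    have h2 := hc i
    rw [h1, map_zero] at h2
    exact Subtype.ext h2.symm
  · exact Polynomial.coeff_eq_zero_of_natDegree_lt (by omega)

/-- **Leaf IndB** (given `IndFin`). -/
theorem FA_S28_indB (ℓ : ℕ) [Fact ℓ.Prime] (hFin : FA_S28_Target_IndFin ℓ) :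
    FA_S28_Target_IndB ℓ := by
  intro hPHI k _ _ _ hIG p M hp hpℓ hM hℓM
  have hpN : NeZero p := ⟨hp.ne_zero⟩
  obtain ⟨ζ, hζp⟩ := FA_S28_exists_primitiveRoot k ℓ p hp (Fact.out) hpℓ
  have hℓ : ℓ.Prime := Fact.out
  have hσj : qExpandAlgHomC k p (jqModC k) = FA_S28_jd k p := by
    rw [FA_S28_jd_eq]
    rfl
  have hσjd : ∀ d : ℕ, d ≠ 0 → qExpandAlgHomC k p (FA_S28_jd k d) = FA_S28_jd k (p * d) := by
    intro d hd
    have : NeZero d := ⟨hd⟩
    exact FA_S28_qExpand_jd p d
  -- the fields
  have hjC : jqModC k ∈ FA_S28_fld k {d | d ∣ M * p} :=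
    IntermediateField.subset_adjoin k _ (Set.mem_insert _ _)
  have hjdC : ∀ d, d ∣ M * p → FA_S28_jd k d ∈ FA_S28_fld k {d | d ∣ M * p} := fun d hd =>
    IntermediateField.subset_adjoin k _ (Set.mem_insert_of_mem _ ⟨d, hd, rfl⟩)
  have hAC : FA_S28_kappa k ≤ FA_S28_fld k {d | d ∣ M * p} := by
    rw [FA_S28_kappa, IntermediateField.adjoin_le_iff]
    rintro x hx
    rw [Set.mem_singleton_iff] at hx
    subst hx
    exact hjC
  have hAB : FA_S28_kappa k ≤ FA_S28_fld k {d | d ∣ M} := by
    rw [FA_S28_kappa, IntermediateField.adjoin_le_iff]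
    rintro x hx
    rw [Set.mem_singleton_iff] at hx
    subst hx
    exact IntermediateField.subset_adjoin k _ (Set.mem_insert _ _)
  set E : IntermediateField k (LaurentSeries k) :=
    IntermediateField.adjoin k {jqModC k, FA_S28_jd k p} with hE
  have hAE : FA_S28_kappa k ≤ E := by
    rw [FA_S28_kappa, IntermediateField.adjoin_le_iff]
    rintro x hx
    rw [Set.mem_singleton_iff] at hx
    subst hx
    exact IntermediateField.subset_adjoin k _ (Set.mem_insert _ _)
  have hEC : E ≤ FA_S28_fld k {d | d ∣ M * p} := by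
    rw [hE, IntermediateField.adjoin_le_iff]
    rintro x hx
    rcases hx with hx | hx
    · rw [hx]
      exact hjC
    · rw [Set.mem_singleton_iff] at hx
      rw [hx]
      exact hjdC p (Dvd.intro_left M rfl)
  have hjpA' : FA_S28_jd k p ∈ (FA_S28_kappa k).map (qExpandAlgHomC k p) := by
    rw [← hσj]
    exact (IntermediateField.mem_map _).mpr
      ⟨jqModC k, IntermediateField.mem_adjoin_simple_self k _, rfl⟩
  have hA'E : (FA_S28_kappa k).map (qExpandAlgHomC k p) ≤ E := by
    rw [FA_S28_kappa, IntermediateField.adjoin_map, IntermediateField.adjoin_le_iff]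
    rintro x ⟨y, hy, rfl⟩
    rw [Set.mem_singleton_iff] at hy
    subst hy
    rw [hσj]
    exact IntermediateField.subset_adjoin k _ (Set.mem_insert_of_mem _ rfl)
  have hA'B' : (FA_S28_kappa k).map (qExpandAlgHomC k p)
      ≤ (FA_S28_fld k {d | d ∣ M}).map (qExpandAlgHomC k p) :=
    IntermediateField.map_mono _ hAB
  have hB'C : (FA_S28_fld k {d | d ∣ M}).map (qExpandAlgHomC k p)
      ≤ FA_S28_fld k {d | d ∣ M * p} := by
    rw [FA_S28_fld, IntermediateField.adjoin_map, IntermediateField.adjoin_le_iff]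
    rintro x ⟨y, hy, rfl⟩
    rcases hy with hy | ⟨d, hd, rfl⟩
    · rw [hy, hσj]
      exact hjdC p (Dvd.intro_left M rfl)
    · have hd0 : d ≠ 0 := fun h => hM (by
        rw [h] at hd
        exact zero_dvd_iff.mp hd)
      rw [hσjd d hd0]
      exact hjdC (p * d) (by rw [mul_comm]; exact Nat.mul_dvd_mul_right hd p)
  -- finiteness
  have hfinC : IntermediateField.relrank (FA_S28_kappa k) (FA_S28_fld k {d | d ∣ M * p})
      < Cardinal.aleph0 := by
    have hMp : M * p ≠ 0 := Nat.mul_ne_zero hM hp.ne_zero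
    apply FA_S28_indB_relrank_lt (FA_S28_kappa k) _ _ hAC
    · rintro y (hy | ⟨d, hd, rfl⟩)
      · rw [hy]
        exact isIntegral_algebraMap (R := ↥(FA_S28_kappa k))
          (x := ⟨jqModC k, IntermediateField.mem_adjoin_simple_self k _⟩)
      · have hd0 : d ≠ 0 := fun h => hMp (by
          rw [h] at hd
          exact zero_dvd_iff.mp hd)
        have hℓd : ¬ ℓ ∣ d := fun h => by
          rcases (Nat.Prime.dvd_mul hℓ).mp (h.trans hd) with h1 | h1
          · exact hℓM h1
          · exact hpℓ ((Nat.prime_dvd_prime_iff_eq hℓ hp).mp h1).symm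
        exact hFin hPHI k d hd0 hℓd
    · apply Set.Finite.insert
      apply Set.Finite.image
      exact Set.Finite.subset (Set.finite_le_nat (M * p))
        (fun d hd => Nat.le_of_dvd (Nat.pos_of_ne_zero hMp) hd)
  -- the three bounds
  have h3lo : ((p + 1 : ℕ) : Cardinal) ≤ IntermediateField.relrank (FA_S28_kappa k) E :=
    FA_S28_indB_le_relrank (FA_S28_kappa k) E hAE (FA_S28_jd k p)
      (IntermediateField.subset_adjoin k _ (Set.mem_insert_of_mem _ rfl)) (p + 1)
      (fun P hP0 hPx => FA_S28_indIrr ℓ hPHI k p hp hpℓ (FA_S28_kappa k) le_rfl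
        (hIG p hp hpℓ) P hP0 hPx)
  have h3up : IntermediateField.relrank ((FA_S28_kappa k).map (qExpandAlgHomC k p)) E
      ≤ ((p + 1 : ℕ) : Cardinal) := by
    obtain ⟨P, hmonic, hdeg, hroot⟩ := FA_S28_indB_modEq p (hPHI p hp hpℓ) ζ hζp
    have := FA_S28_indB_relrank_le ((FA_S28_kappa k).map (qExpandAlgHomC k p))
      {jqModC k, FA_S28_jd k p} hA'E (jqModC k) (by
        rintro y (hy | hy)
        · exact Or.inr hy
        · rw [Set.mem_singleton_iff] at hy
          rw [hy]
          exact Or.inl hjpA') P hmonic hroot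
    rw [hdeg] at this
    exact this
  have h5 : (p : Cardinal) ≤ IntermediateField.relrank
      ((FA_S28_fld k {d | d ∣ M}).map (qExpandAlgHomC k p)) (FA_S28_fld k {d | d ∣ M * p}) :=
    FA_S28_indB_le_relrank _ _ hB'C (jqModC k) hjC p
      (fun P hP0 hPx => FA_S28_indB_ram p _ P hP0 hPx)
  have h6 : IntermediateField.relrank ((FA_S28_kappa k).map (qExpandAlgHomC k p))
      ((FA_S28_fld k {d | d ∣ M}).map (qExpandAlgHomC k p))
      = IntermediateField.relrank (FA_S28_kappa k) (FA_S28_fld k {d | d ∣ M}) :=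
    IntermediateField.relrank_map_map _ _ (qExpandAlgHomC k p)
  have hcalc : (p : Cardinal) * IntermediateField.relrank (FA_S28_kappa k)
      (FA_S28_fld k {d | d ∣ M})
      ≤ IntermediateField.relrank (FA_S28_kappa k) (FA_S28_fld k {d | d ∣ M * p}) := by
    calc (p : Cardinal) * IntermediateField.relrank (FA_S28_kappa k) (FA_S28_fld k {d | d ∣ M})
        = IntermediateField.relrank ((FA_S28_kappa k).map (qExpandAlgHomC k p))
            ((FA_S28_fld k {d | d ∣ M}).map (qExpandAlgHomC k p)) * p := by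
          rw [h6, mul_comm]
      _ ≤ IntermediateField.relrank ((FA_S28_kappa k).map (qExpandAlgHomC k p))
            ((FA_S28_fld k {d | d ∣ M}).map (qExpandAlgHomC k p)) *
          IntermediateField.relrank ((FA_S28_fld k {d | d ∣ M}).map (qExpandAlgHomC k p))
            (FA_S28_fld k {d | d ∣ M * p}) := mul_le_mul' le_rfl h5
      _ = IntermediateField.relrank ((FA_S28_kappa k).map (qExpandAlgHomC k p))
            (FA_S28_fld k {d | d ∣ M * p}) :=
          IntermediateField.relrank_mul_relrank hA'B' hB'C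
      _ = IntermediateField.relrank ((FA_S28_kappa k).map (qExpandAlgHomC k p)) E *
          IntermediateField.relrank E (FA_S28_fld k {d | d ∣ M * p}) :=
          (IntermediateField.relrank_mul_relrank hA'E hEC).symm
      _ ≤ IntermediateField.relrank (FA_S28_kappa k) E *
          IntermediateField.relrank E (FA_S28_fld k {d | d ∣ M * p}) :=
          mul_le_mul' (h3up.trans h3lo) le_rfl
      _ = IntermediateField.relrank (FA_S28_kappa k) (FA_S28_fld k {d | d ∣ M * p}) :=
          IntermediateField.relrank_mul_relrank hAE hEC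
  have hfinal := Cardinal.toNat_le_toNat hcalc hfinC
  rw [Cardinal.toNat_mul, Cardinal.toNat_natCast] at hfinal
  exact hfinal

end Fermat.Agent.S28
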