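import Mathlib
import Fermat.Prelude.Def_ModularCurve_X0

/-!
# S28, leaf PHI (helper9), part 1: the formal power series identity and its transfer

Over a commutative ring `K` with an element `ζ`:
* `FA_S28_phi_e4 K`, `FA_S28_phi_dl K` : the formal `E₄` and `Δ = q ∏ (1 - q^n)^24`;
* `FA_S28_phi_cj p ζ o` : the `p + 1` "conjugations" `f(X) ↦ f(X^{p²})`, `f(X) ↦ f(ζ^b X)`;
* `FA_S28_phi_Theta K p ζ = ∏_o (E₄³_o - Δ_o Y)`;
* `FA_S28_phi_Ident K p ζ n` : the coefficients of `Θ` are `t_i(X^p)`,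
  `t_i = ∑_c n i c · Δ^c E₄^{3 (p + 1 - c)}`, and the top one is a multiple of `Δ^{p+1}`.

The identity is transported along ring homomorphisms (`FA_S28_phi_Ident_map`) and descends along
injective ones (`FA_S28_phi_Ident_of_injective`).
-/

set_option autoImplicit false

noncomputable section

namespace Fermat.Agent.S28

open ModularCurve Polynomial

/-- The formal `E₄` over `K`. -/
def FA_S28_phi_e4 (K : Type) [CommRing K] : PowerSeries K :=
  PowerSeries.map (Int.castRingHom K) eisenstein4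

/-- The formal `Δ` over `K`. -/
def FA_S28_phi_dl (K : Type) [CommRing K] : PowerSeries K :=
  PowerSeries.map (Int.castRingHom K) (PowerSeries.X * etaProd ^ 24)

/-- The conjugations: `none ↦ (f ↦ f(X^{p²}))`, `some b ↦ (f ↦ f(ζ^b X))`. -/
def FA_S28_phi_cj {K : Type} [CommRing K] (p : ℕ) [NeZero p] (ζ : K) :
    Option (Fin p) → PowerSeries K →+* PowerSeries K
  | none => (PowerSeries.expand (p * p) (mul_ne_zero (NeZero.ne p) (NeZero.ne p))).toRingHom
  | some b => PowerSeries.rescale (ζ ^ (b : ℕ))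

/-- `Θ = ∏_o (E₄³_o - Δ_o Y)`. -/
def FA_S28_phi_Theta (K : Type) [CommRing K] (p : ℕ) [NeZero p] (ζ : K) :
    Polynomial (PowerSeries K) :=
  ∏ o : Option (Fin p), (C (FA_S28_phi_cj p ζ o (FA_S28_phi_e4 K ^ 3))
    - C (FA_S28_phi_cj p ζ o (FA_S28_phi_dl K)) * X)

/-- `∑_{c ≤ m} n c · Δ^c E₄^{3 (m - c)}`. -/
def FA_S28_phi_comb (K : Type) [CommRing K] (m : ℕ) (n : ℕ → K) : PowerSeries K :=
  ∑ c ∈ Finset.range (m + 1), n c • (FA_S28_phi_dl K ^ c * FA_S28_phi_e4 K ^ (3 * (m - c)))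

/-- The power series identity behind the modular equation. -/
def FA_S28_phi_Ident (K : Type) [CommRing K] (p : ℕ) [NeZero p] (ζ : K) (n : ℕ → ℕ → K) : Prop :=
  (∀ i, (FA_S28_phi_Theta K p ζ).coeff i
      = PowerSeries.expand p (NeZero.ne p) (FA_S28_phi_comb K (p + 1) (n i))) ∧
    ∀ c, c < p + 1 → n (p + 1) c = 0

section transfer

variable {K K' : Type} [CommRing K] [CommRing K'] (f : K →+* K')

theorem FA_S28_phi_map_int (g : PowerSeries ℤ) :
    PowerSeries.map f (PowerSeries.map (Int.castRingHom K) g)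
      = PowerSeries.map (Int.castRingHom K') g := by
  ext n
  simp

theorem FA_S28_phi_map_e4 : PowerSeries.map f (FA_S28_phi_e4 K) = FA_S28_phi_e4 K' :=
  FA_S28_phi_map_int f _

theorem FA_S28_phi_map_dl : PowerSeries.map f (FA_S28_phi_dl K) = FA_S28_phi_dl K' :=
  FA_S28_phi_map_int f _

theorem FA_S28_phi_map_cj (p : ℕ) [NeZero p] (ζ : K) (o : Option (Fin p)) (g : PowerSeries K) :
    PowerSeries.map f (FA_S28_phi_cj p ζ o g)
      = FA_S28_phi_cj p (f ζ) o (PowerSeries.map f g) := by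
  rcases o with _ | b
  · exact PowerSeries.map_expand _ _ f g
  · show PowerSeries.map f (PowerSeries.rescale (ζ ^ (b : ℕ)) g)
      = PowerSeries.rescale (f ζ ^ (b : ℕ)) (PowerSeries.map f g)
    rw [← map_pow, PowerSeries.rescale_map]

theorem FA_S28_phi_map_Theta (p : ℕ) [NeZero p] (ζ : K) :
    (FA_S28_phi_Theta K p ζ).map (PowerSeries.map f) = FA_S28_phi_Theta K' p (f ζ) := by
  unfold FA_S28_phi_Theta
  rw [Polynomial.map_prod]
  refine Finset.prod_congr rfl fun o _ => ?_
  rw [Polynomial.map_sub, Polynomial.map_mul, Polynomial.map_C, Polynomial.map_C,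
    Polynomial.map_X, FA_S28_phi_map_cj, FA_S28_phi_map_cj, map_pow, FA_S28_phi_map_e4,
    FA_S28_phi_map_dl]

theorem FA_S28_phi_map_comb (m : ℕ) (n : ℕ → K) :
    PowerSeries.map f (FA_S28_phi_comb K m n) = FA_S28_phi_comb K' m (fun c => f (n c)) := by
  unfold FA_S28_phi_comb
  rw [map_sum]
  refine Finset.sum_congr rfl fun c _ => ?_
  rw [PowerSeries.smul_eq_C_mul, PowerSeries.smul_eq_C_mul, map_mul, map_mul, map_pow, map_pow,
    FA_S28_phi_map_e4, FA_S28_phi_map_dl, PowerSeries.map_C]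

theorem FA_S28_phi_Ident_map (p : ℕ) [NeZero p] (ζ : K) (n : ℕ → ℕ → K)
    (h : FA_S28_phi_Ident K p ζ n) :
    FA_S28_phi_Ident K' p (f ζ) (fun i c => f (n i c)) := by
  refine ⟨fun i => ?_, fun c hc => ?_⟩
  · rw [← FA_S28_phi_map_Theta f, Polynomial.coeff_map, h.1 i, PowerSeries.map_expand,
      FA_S28_phi_map_comb]
  · show f (n (p + 1) c) = 0
    rw [h.2 c hc, map_zero]

theorem FA_S28_phi_Ident_of_injective (hf : Function.Injective f) (p : ℕ) [NeZero p] (ζ : K)
    (n : ℕ → ℕ → K) (h : FA_S28_phi_Ident K' p (f ζ) (fun i c => f (n i c))) :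
    FA_S28_phi_Ident K p ζ n := by
  have hinj : Function.Injective (PowerSeries.map f) := by
    intro a b hab
    ext m
    apply hf
    rw [← PowerSeries.coeff_map, ← PowerSeries.coeff_map, hab]
  refine ⟨fun i => ?_, fun c hc => ?_⟩
  · apply hinj
    rw [← Polynomial.coeff_map, FA_S28_phi_map_Theta f, PowerSeries.map_expand,
      FA_S28_phi_map_comb]
    exact h.1 i
  · apply hf
    rw [map_zero]
    exact h.2 c hc

end transfer

end Fermat.Agent.S28
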