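import Mathlib
import Fermat.Agent.S28.PhiDefs

/-!
# S28, leaf PHI (helper9), part 3: two algebraic tools

* `FA_S28_phi_interp` : interpolation (a polynomial whose values at all constants lie in a
  subspace has its coefficients there);
* `FA_S28_phi_tri` : triangularity of the monomials `Δ^c E₄^{3(m-c)}`.
-/

set_option autoImplicit false

noncomputable section

namespace Fermat.Agent.S28

open ModularCurve Polynomial

/-- Interpolation: a polynomial over a `ℂ`-algebra all of whose values at constants lie in a
subspace has its coefficients in that subspace. -/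
theorem FA_S28_phi_interp {L : Type} [CommRing L] [Algebra ℂ L] (W : Submodule ℂ L)
    (Ψ : Polynomial L) (h : ∀ c : ℂ, Ψ.eval (algebraMap ℂ L c) ∈ W) (i : ℕ) :
    Ψ.coeff i ∈ W := by
  by_contra hx
  obtain ⟨f, hfx, hfW⟩ := Submodule.exists_dual_map_eq_bot_of_notMem hx inferInstance
  have hfW' : ∀ w ∈ W, f w = 0 := by
    intro w hw
    have : f w ∈ Submodule.map f W := Submodule.mem_map_of_mem hw
    rw [hfW] at this
    exact (Submodule.mem_bot ℂ).mp this
  set g : Polynomial ℂ := ∑ j ∈ Finset.range (Ψ.natDegree + 1), C (f (Ψ.coeff j)) * X ^ j with hg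
  have hgeval : ∀ c : ℂ, g.eval c = 0 := by
    intro c
    have h1 : g.eval c = f (Ψ.eval (algebraMap ℂ L c)) := by
      rw [hg, Polynomial.eval_finsetSum, Polynomial.eval_eq_sum_range, map_sum]
      refine Finset.sum_congr rfl fun j _ => ?_
      rw [Polynomial.eval_mul, Polynomial.eval_C, Polynomial.eval_pow, Polynomial.eval_X,
        ← map_pow, mul_comm (Ψ.coeff j), ← Algebra.smul_def, map_smul, smul_eq_mul, mul_comm]
    rw [h1]
    exact hfW' _ (h c)
  have hg0 : g = 0 := Polynomial.funext fun c => by rw [hgeval c, Polynomial.eval_zero]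
  have hgi : g.coeff i = f (Ψ.coeff i) := by
    rw [hg, Polynomial.finsetSum_coeff]
    simp only [Polynomial.coeff_C_mul_X_pow]
    by_cases hi : i ≤ Ψ.natDegree
    · rw [Finset.sum_eq_single i]
      · simp
      · intro j _ hj
        rw [if_neg (fun h => hj h.symm)]
      · intro hi'
        exact absurd (Finset.mem_range.mpr (Nat.lt_succ_of_le hi)) hi'
    · rw [Polynomial.coeff_eq_zero_of_natDegree_lt (not_le.mp hi), map_zero]
      refine Finset.sum_eq_zero fun j hj => ?_
      rw [if_neg]
      intro hij
      have := Finset.mem_range.mp hj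
      omega
  apply hfx
  rw [← hgi, hg0, Polynomial.coeff_zero]

section tri

variable (K : Type) [CommRing K]

theorem FA_S28_phi_dl_eq :
    FA_S28_phi_dl K = PowerSeries.X * PowerSeries.map (Int.castRingHom K) (etaProd ^ 24) := by
  unfold FA_S28_phi_dl
  rw [map_mul, PowerSeries.map_X]

theorem FA_S28_phi_const_e4 : PowerSeries.constantCoeff (FA_S28_phi_e4 K) = 1 := by
  unfold FA_S28_phi_e4
  rw [← PowerSeries.coeff_zero_eq_constantCoeff, PowerSeries.coeff_map,
    PowerSeries.coeff_zero_eq_constantCoeff, constantCoeff_eisenstein4]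
  simp

theorem FA_S28_phi_const_eta :
    PowerSeries.constantCoeff (PowerSeries.map (Int.castRingHom K) (etaProd ^ 24)) = 1 := by
  rw [← PowerSeries.coeff_zero_eq_constantCoeff, PowerSeries.coeff_map,
    PowerSeries.coeff_zero_eq_constantCoeff, map_pow, constantCoeff_etaProd]
  simp

/-- The coefficients of the monomials `Δ^c E₄^{3 d}` up to `q^c`. -/
theorem FA_S28_phi_coeff_mon (c d j : ℕ) (hj : j ≤ c) :
    PowerSeries.coeff j (FA_S28_phi_dl K ^ c * FA_S28_phi_e4 K ^ d)
      = if j = c then 1 else 0 := by
  have hη := FA_S28_phi_const_eta K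
  rw [FA_S28_phi_dl_eq]
  generalize PowerSeries.map (Int.castRingHom K) (etaProd ^ 24) = η at hη ⊢
  rw [mul_pow, mul_assoc, PowerSeries.coeff_X_pow_mul']
  rcases hj.lt_or_eq with h | h
  · rw [if_neg (by omega), if_neg (by omega)]
  · subst h
    rw [if_pos le_rfl, if_pos rfl, Nat.sub_self, PowerSeries.coeff_zero_eq_constantCoeff, map_mul,
      map_pow, map_pow, FA_S28_phi_const_e4, hη]
    simp

/-- Triangularity: if `∑_c n_c Δ^c E₄^{3(m-c)}` vanishes to order `m`, then `n_c = 0`, `c < m`. -/
theorem FA_S28_phi_tri (m : ℕ) (n : ℕ → K)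
    (h : ∀ j, j < m → PowerSeries.coeff j (FA_S28_phi_comb K m n) = 0) :
    ∀ c, c < m → n c = 0 := by
  intro c
  induction c using Nat.strong_induction_on with
  | _ c ih =>
    intro hc
    have h1 := h c hc
    unfold FA_S28_phi_comb at h1
    rw [map_sum, Finset.sum_eq_single c] at h1
    · rw [PowerSeries.coeff_smul, FA_S28_phi_coeff_mon K c _ c le_rfl, if_pos rfl, smul_eq_mul,
        mul_one] at h1
      exact h1
    · intro c' hc' hne
      rw [PowerSeries.coeff_smul]
      rcases lt_or_gt_of_ne hne with hlt | hgt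
      · rw [ih c' hlt (by omega), zero_smul]
      · rw [FA_S28_phi_coeff_mon K c' _ c hgt.le, if_neg (by omega), smul_zero]
    · intro hc'
      exact absurd (Finset.mem_range.mpr (by omega)) hc'

end tri

end Fermat.Agent.S28
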