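import Mathlib
import Fermat.Agent.S28.PhiAlg
import Fermat.Agent.S16.AnSym
import Fermat.Agent.S16.AnRing
import Fermat.Agent.S16.AnL1Int
import Fermat.Agent.S24.CEta
import Fermat.Agent.S24.CQ

/-!
# S28, leaf PHI (helper9), part 4: the analytic identity

For `ζ = exp(2πi/p)` and every subring `A ⊆ ℂ` containing `ζ`: the coefficients of
`Θ = ∏_o (E₄³_o - Δ_o Y)` are `t_i(X^p)` with `t_i` of level one and weight `12 (p + 1)`
(norms of `G(pz)`, `G = E₄³ - c Δ`: `FA_S16_anV_gen`, `FA_S16_anSym`; interpolation in `c`),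
with coordinates in `A` in the triangular basis (`FA_S16_anL1Int`): `FA_S28_phi_an`.
-/

set_option autoImplicit false

noncomputable section

namespace Fermat.Agent.S28

open FA_S16 ModularForm ModularFormClass UpperHalfPlane CongruenceSubgroup MatrixGroups
  EisensteinSeries ModularCurve Polynomial

local notation "Δ" => ModularForm.discriminant

theorem FA_S28_phi_e4_C : FA_S28_phi_e4 ℂ = qExpansion 1 E₄ :=
  Fermat.Agent.S24.FA_S24_qExpansion_E4.symm

theorem FA_S28_phi_dl_C : FA_S28_phi_dl ℂ = qExpansion 1 Δ :=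
  Fermat.Agent.S24.FA_S24_qExpansion_disc.symm

/-- The `q`-expansions of level one forms of weight `k`, as a subspace. -/
def FA_S28_phi_L1 (k : ℤ) : Submodule ℂ (PowerSeries ℂ) where
  carrier := FA_S16_qL1 k
  zero_mem' := ⟨0, qExpansion_zero 1⟩
  add_mem' := by
    rintro _ _ ⟨G, rfl⟩ ⟨G', rfl⟩
    exact ⟨G + G', ModularForm.qExpansion_add one_pos one_mem_strictPeriods_SL G G'⟩
  smul_mem' := by
    rintro c _ ⟨G, rfl⟩
    exact ⟨c • G, ModularForm.qExpansion_smul one_pos one_mem_strictPeriods_SL c G⟩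

theorem FA_S28_phi_mem_L1 (k : ℤ) (s : PowerSeries ℂ) :
    s ∈ FA_S28_phi_L1 k ↔ s ∈ FA_S16_qL1 k := Iff.rfl

/-- `E₄³ ∈ M₁₂`. -/
theorem FA_S28_phi_e4_mem : FA_S28_phi_e4 ℂ ^ 3 ∈ FA_S28_phi_L1 12 := by
  refine ⟨ModularForm.mcast (by decide) (E₄.pow 3), ?_⟩
  rw [FA_S28_phi_e4_C, coe_mcast, ModularForm.qExpansion_pow one_pos one_mem_strictPeriods_SL]

/-- `Δ ∈ M₁₂`. -/
theorem FA_S28_phi_dl_mem : FA_S28_phi_dl ℂ ∈ FA_S28_phi_L1 12 := by
  rw [FA_S28_phi_dl_C]
  exact ⟨CuspForm.discriminant, rfl⟩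

/-- The subspace `{t(X^p) : t ∈ M_k}`. -/
def FA_S28_phi_W (p : ℕ) [NeZero p] (k : ℤ) : Submodule ℂ (PowerSeries ℂ) :=
  (FA_S28_phi_L1 k).map (PowerSeries.expand p (NeZero.ne p)).toLinearMap

theorem FA_S28_phi_cj_C {K : Type} [CommRing K] (p : ℕ) [NeZero p] (ζ : K) (o : Option (Fin p))
    (c : K) : FA_S28_phi_cj p ζ o (PowerSeries.C c) = PowerSeries.C c := by
  rcases o with _ | b
  · exact (PowerSeries.expand (p * p) _).commutes c
  · show PowerSeries.rescale (ζ ^ (b : ℕ)) (PowerSeries.C c) = PowerSeries.C c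
    ext n
    rw [PowerSeries.coeff_rescale, PowerSeries.coeff_C]
    split_ifs with h
    · subst h; simp
    · simp

/-- The value of `Θ` at a constant is a norm. -/
theorem FA_S28_phi_Theta_eval {K : Type} [CommRing K] (p : ℕ) [NeZero p] (ζ : K) (c : K) :
    (FA_S28_phi_Theta K p ζ).eval (PowerSeries.C c)
      = ∏ o : Option (Fin p),
          FA_S28_phi_cj p ζ o (FA_S28_phi_e4 K ^ 3 - c • FA_S28_phi_dl K) := by
  unfold FA_S28_phi_Theta
  rw [Polynomial.eval_prod]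
  refine Finset.prod_congr rfl fun o _ => ?_
  rw [Polynomial.eval_sub, Polynomial.eval_mul, Polynomial.eval_C, Polynomial.eval_C,
    Polynomial.eval_X, PowerSeries.smul_eq_C_mul, map_sub, map_mul, FA_S28_phi_cj_C, mul_comm]


section analytic

variable (p : ℕ) [hp : Fact p.Prime] [NeZero p]

theorem FA_S28_phi_rescale_smul (a c : ℂ) (g : PowerSeries ℂ) :
    PowerSeries.rescale a (c • g) = c • PowerSeries.rescale a g := by
  ext n
  simp only [PowerSeries.coeff_rescale, PowerSeries.coeff_smul, smul_eq_mul]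
  ring

/-- The norm of `G(pz)`, `G` of level one and weight `12`, is `t(X^p)` with `t` of level one and
weight `12 (p + 1)`. -/
theorem FA_S28_phi_norm_mem (g : PowerSeries ℂ) (hg : g ∈ FA_S16_qL1 12) :
    ∏ o : Option (Fin p), FA_S28_phi_cj p (FA_S16_zeta p) o g
      ∈ FA_S28_phi_W p ((12 * (p + 1) : ℕ) : ℤ) := by
  set P : ℂ := (p : ℂ) ^ (12 : ℤ) with hP
  have hP0 : P ≠ 0 := zpow_ne_zero _ (by exact_mod_cast hp.out.ne_zero)
  have hpair : FA_S16_IsPair p ((12 : ℕ) : ℤ) (PowerSeries.expand p (NeZero.ne p) g) (P⁻¹ • g) :=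
    FA_S16_anV_gen p hg
  obtain ⟨s, hs, hcoeff⟩ := FA_S16_anSym p 12 _ _ hpair (p + 1) le_rfl
  rw [FA_S16_Pair.charpoly_coeff p _ _ (p + 1) le_rfl] at hcoeff
  have hcard : (Finset.univ : Finset (Option (Fin p))).card = p + 1 := by simp
  have hps : Finset.powersetCard (p + 1) (Finset.univ : Finset (Option (Fin p)))
      = {Finset.univ} := by
    rw [← hcard]
    exact Finset.powersetCard_self _
  rw [hps, Finset.sum_singleton] at hcoeff
  have hconj : ∏ o : Option (Fin p),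
      FA_S16_conj p (PowerSeries.expand p (NeZero.ne p) g) (P⁻¹ • g) o
      = (-1) ^ (p + 1) * PowerSeries.expand p (NeZero.ne p) s := by
    rw [← hcoeff, ← mul_assoc, ← mul_pow]
    simp
  have hrel : ∏ o : Option (Fin p), FA_S28_phi_cj p (FA_S16_zeta p) o g
      = PowerSeries.C (P ^ p) * ∏ o : Option (Fin p),
          FA_S16_conj p (PowerSeries.expand p (NeZero.ne p) g) (P⁻¹ • g) o := by
    rw [Fintype.prod_option, Fintype.prod_option]
    have h1 : FA_S28_phi_cj p (FA_S16_zeta p) none g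
        = FA_S16_conj p (PowerSeries.expand p (NeZero.ne p) g) (P⁻¹ • g) none :=
      PowerSeries.expand_mul p (NeZero.ne p) p (NeZero.ne p) g
    have h2 : ∀ b : Fin p, FA_S28_phi_cj p (FA_S16_zeta p) (some b) g
        = PowerSeries.C P
          * FA_S16_conj p (PowerSeries.expand p (NeZero.ne p) g) (P⁻¹ • g) (some b) := by
      intro b
      show PowerSeries.rescale (FA_S16_zeta p ^ (b : ℕ)) g
        = PowerSeries.C P * PowerSeries.rescale (FA_S16_zeta p ^ (b : ℕ)) (P⁻¹ • g)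
      rw [FA_S28_phi_rescale_smul, ← PowerSeries.smul_eq_C_mul, smul_smul, mul_inv_cancel₀ hP0,
        one_smul]
    rw [h1, Finset.prod_congr rfl fun b _ => h2 b, Finset.prod_mul_distrib, Finset.prod_const,
      Finset.card_univ, Fintype.card_fin, map_pow]
    ring
  rw [hrel, hconj]
  have e : PowerSeries.C (P ^ p) * ((-1) ^ (p + 1) * PowerSeries.expand p (NeZero.ne p) s)
      = (P ^ p * (-1) ^ (p + 1)) • PowerSeries.expand p (NeZero.ne p) s := by
    rw [PowerSeries.smul_eq_C_mul, map_mul, map_pow, map_pow, map_neg, map_one]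
    ring
  rw [e]
  refine Submodule.smul_mem _ _ (Submodule.mem_map_of_mem ?_)
  exact hs


/-- All values of `Θ` at constants lie in `W`. -/
theorem FA_S28_phi_Theta_eval_mem (c : ℂ) :
    (FA_S28_phi_Theta ℂ p (FA_S16_zeta p)).eval (algebraMap ℂ (PowerSeries ℂ) c)
      ∈ FA_S28_phi_W p ((12 * (p + 1) : ℕ) : ℤ) := by
  have e : algebraMap ℂ (PowerSeries ℂ) c = PowerSeries.C c := rfl
  rw [e, FA_S28_phi_Theta_eval]
  apply FA_S28_phi_norm_mem
  exact (FA_S28_phi_L1 12).sub_mem FA_S28_phi_e4_mem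
    ((FA_S28_phi_L1 12).smul_mem c FA_S28_phi_dl_mem)

/-- The coefficients of `Θ` lie in `W`. -/
theorem FA_S28_phi_Theta_coeff_mem (i : ℕ) :
    (FA_S28_phi_Theta ℂ p (FA_S16_zeta p)).coeff i
      ∈ FA_S28_phi_W p ((12 * (p + 1) : ℕ) : ℤ) :=
  FA_S28_phi_interp _ _ (FA_S28_phi_Theta_eval_mem p) i

omit hp in
/-- The coefficients of `Θ` have their coefficients in every subring containing `ζ`. -/
theorem FA_S28_phi_Theta_coeff_int (A : Subring ℂ) (ζ : ℂ) (hζ : ζ ∈ A) (i n : ℕ) :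
    PowerSeries.coeff n ((FA_S28_phi_Theta ℂ p ζ).coeff i) ∈ A := by
  have h := FA_S28_phi_map_Theta A.subtype p (⟨ζ, hζ⟩ : A)
  have h2 : (FA_S28_phi_Theta ℂ p ζ).coeff i
      = PowerSeries.map A.subtype ((FA_S28_phi_Theta A p ⟨ζ, hζ⟩).coeff i) := by
    rw [← Polynomial.coeff_map, h]
    rfl
  rw [h2, PowerSeries.coeff_map]
  exact Subtype.property _

/-- The triangular basis in weight `12 m`. -/
theorem FA_S28_phi_basis (m c : ℕ) (hc : c ≤ m) :
    FA_S16_basis (12 * m) c = FA_S28_phi_dl ℂ ^ c * FA_S28_phi_e4 ℂ ^ (3 * (m - c)) := by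
  unfold FA_S16_basis
  rw [FA_S28_phi_e4_C, FA_S28_phi_dl_C]
  have h1 : ((12 * m - 12 * c) / 2) % 2 = 0 := by omega
  have h2 : (12 * m - 12 * c - 6 * 0) / 4 = 3 * (m - c) := by omega
  rw [h1, h2, pow_zero, mul_one]

/-- The coordinates of the coefficients of `Θ`. -/
theorem FA_S28_phi_coords (A : Subring ℂ) (hζ : FA_S16_zeta p ∈ A) (i : ℕ) :
    ∃ n : ℕ → ℂ, (∀ c, n c ∈ A) ∧ (FA_S28_phi_Theta ℂ p (FA_S16_zeta p)).coeff i
      = PowerSeries.expand p (NeZero.ne p) (FA_S28_phi_comb ℂ (p + 1) n) := by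
  obtain ⟨t, ht, hte⟩ := FA_S28_phi_Theta_coeff_mem p i
  have hte' : PowerSeries.expand p (NeZero.ne p) t
      = (FA_S28_phi_Theta ℂ p (FA_S16_zeta p)).coeff i := hte
  have hA : ∀ n, PowerSeries.coeff n t ∈ A := by
    intro n
    have h1 := FA_S28_phi_Theta_coeff_int p A _ hζ i (p * n)
    rwa [← hte', PowerSeries.coeff_expand, if_pos (dvd_mul_right _ _),
      Nat.mul_div_cancel_left _ (Nat.pos_of_ne_zero (NeZero.ne p))] at h1
  obtain ⟨n, hnA, -, hn⟩ := FA_S16_anL1Int A (12 * (p + 1)) t ht hA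
  refine ⟨n, hnA, ?_⟩
  rw [← hte', hn]
  congr 1
  unfold FA_S28_phi_comb
  have e : 12 * (p + 1) / 12 + 1 = p + 1 + 1 := by omega
  rw [e]
  refine Finset.sum_congr rfl fun c hc => ?_
  rw [FA_S28_phi_basis (p + 1) c (by have := Finset.mem_range.mp hc; omega)]

omit hp in
/-- The top coefficient of `Θ` vanishes to order `p (p + 1)`. -/
theorem FA_S28_phi_top_dvd {K : Type} [CommRing K] (ζ : K) :
    PowerSeries.X ^ (p * p + p) ∣ (FA_S28_phi_Theta K p ζ).coeff (p + 1) := by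
  have hfac : ∀ o : Option (Fin p),
      (C (FA_S28_phi_cj p ζ o (FA_S28_phi_e4 K ^ 3))
        - C (FA_S28_phi_cj p ζ o (FA_S28_phi_dl K)) * X : Polynomial (PowerSeries K))
      = C (-(FA_S28_phi_cj p ζ o (FA_S28_phi_dl K))) * X
        + C (FA_S28_phi_cj p ζ o (FA_S28_phi_e4 K ^ 3)) := by
    intro o
    rw [map_neg]
    ring
  have hcoef : (FA_S28_phi_Theta K p ζ).coeff (p + 1)
      = ∏ o : Option (Fin p), (-(FA_S28_phi_cj p ζ o (FA_S28_phi_dl K))) := by
    unfold FA_S28_phi_Theta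
    have h := Polynomial.coeff_prod_of_natDegree_le (Finset.univ : Finset (Option (Fin p)))
      (fun o => (C (FA_S28_phi_cj p ζ o (FA_S28_phi_e4 K ^ 3))
        - C (FA_S28_phi_cj p ζ o (FA_S28_phi_dl K)) * X : Polynomial (PowerSeries K))) 1
      (fun o _ => by rw [hfac o]; exact Polynomial.natDegree_linear_le)
    rw [Finset.card_univ, Fintype.card_option, Fintype.card_fin, mul_one] at h
    rw [h]
    refine Finset.prod_congr rfl fun o _ => ?_
    rw [hfac o, Polynomial.coeff_add, Polynomial.coeff_C_mul, Polynomial.coeff_X_one, mul_one,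
      Polynomial.coeff_C, if_neg one_ne_zero, add_zero]
  rw [hcoef]
  have hX : FA_S28_phi_dl K
      = PowerSeries.X * PowerSeries.map (Int.castRingHom K) (etaProd ^ 24) :=
    FA_S28_phi_dl_eq K
  have hnone : PowerSeries.X ^ (p * p) ∣ -(FA_S28_phi_cj p ζ none (FA_S28_phi_dl K)) := by
    rw [dvd_neg, hX, map_mul]
    have hXp : FA_S28_phi_cj p ζ none (PowerSeries.X : PowerSeries K) = PowerSeries.X ^ (p * p) :=
      PowerSeries.expand_X (p * p) _
    rw [hXp]
    exact Dvd.intro _ rfl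
  have hsome : ∀ b : Fin p,
      PowerSeries.X ^ 1 ∣ -(FA_S28_phi_cj p ζ (some b) (FA_S28_phi_dl K)) := by
    intro b
    rw [dvd_neg, hX, map_mul, pow_one]
    have : FA_S28_phi_cj p ζ (some b) PowerSeries.X
        = PowerSeries.C (ζ ^ (b : ℕ)) * PowerSeries.X := PowerSeries.rescale_X _
    rw [this]
    exact ⟨PowerSeries.C (ζ ^ (b : ℕ)) *
      FA_S28_phi_cj p ζ (some b) (PowerSeries.map (Int.castRingHom K) (etaProd ^ 24)), by ring⟩
  rw [Fintype.prod_option, pow_add]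
  refine mul_dvd_mul hnone ?_
  have h2 : (PowerSeries.X : PowerSeries K) ^ p = ∏ _b : Fin p, PowerSeries.X ^ 1 := by
    rw [Finset.prod_const, Finset.card_univ, Fintype.card_fin, pow_one]
  rw [h2]
  exact Finset.prod_dvd_prod_of_dvd _ _ fun b _ => hsome b

omit hp in
/-- The top coefficient is a multiple of `Δ^{p+1}`. -/
theorem FA_S28_phi_top {K : Type} [CommRing K] (ζ : K) (n : ℕ → K)
    (h : (FA_S28_phi_Theta K p ζ).coeff (p + 1)
      = PowerSeries.expand p (NeZero.ne p) (FA_S28_phi_comb K (p + 1) n)) :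
    ∀ c, c < p + 1 → n c = 0 := by
  apply FA_S28_phi_tri K (p + 1) n
  intro j hj
  have hd := FA_S28_phi_top_dvd p ζ
  rw [h, PowerSeries.X_pow_dvd_iff] at hd
  have hp0 : 0 < p := Nat.pos_of_ne_zero (NeZero.ne p)
  have h1 := hd (p * j) (by nlinarith)
  rwa [PowerSeries.coeff_expand, if_pos (dvd_mul_right _ _),
    Nat.mul_div_cancel_left _ hp0] at h1

/-- **The analytic identity**, with coordinates in any subring containing `ζ = exp(2πi/p)`. -/
theorem FA_S28_phi_an (A : Subring ℂ) (hζ : FA_S16_zeta p ∈ A) :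
    ∃ n : ℕ → ℕ → ℂ, (∀ i c, n i c ∈ A) ∧ FA_S28_phi_Ident ℂ p (FA_S16_zeta p) n := by
  choose n hnA hn using FA_S28_phi_coords p A hζ
  exact ⟨n, hnA, hn, FA_S28_phi_top p _ (n (p + 1)) (hn (p + 1))⟩

end analytic

end Fermat.Agent.S28
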