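import Mathlib
import Fermat.Agent.S28.PhiDefs
import Fermat.Agent.S28.IndDefs
import Fermat.Agent.S24.DJQ

/-!
# S28, leaf PHI (helper9), part 2: from the power series identity to the modular equation

Over a field `k` with `ζ ≠ 0`: `FA_S28_phi_Ident k p ζ n` gives `Φ ∈ k[X][Y]`, monic of degree
`p + 1`, with `Φ(j(u^p), Y) = (Y - j(u^{p²})) ∏_b (Y - j(ζ^b u))` (`FA_S28_phi_of_Ident`).
-/

set_option autoImplicit false
set_option linter.unusedVariables false

noncomputable section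

namespace Fermat.Agent.S28

open ModularCurve Polynomial

/-- `ι (f(X^n)) = qExpand n (ι f)`. -/
theorem FA_S28_phi_ofPS_expand (k : Type) [CommRing k] (n : ℕ) [NeZero n] (g : PowerSeries k) :
    HahnSeries.ofPowerSeries ℤ k (PowerSeries.expand n (NeZero.ne n) g)
      = qExpand k n (HahnSeries.ofPowerSeries ℤ k g) := by
  have hn : (0 : ℤ) < n := by exact_mod_cast Nat.pos_of_ne_zero (NeZero.ne n)
  ext m
  rcases le_or_gt 0 m with hm | hm
  · lift m to ℕ using hm
    rw [HahnSeries.ofPowerSeries_apply_coeff, PowerSeries.coeff_expand]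
    by_cases hd : n ∣ m
    · obtain ⟨m', rfl⟩ := hd
      rw [if_pos (dvd_mul_right _ _), Nat.mul_div_cancel_left _ (Nat.pos_of_ne_zero (NeZero.ne n)),
        Nat.cast_mul, qExpand_coeff_mul, HahnSeries.ofPowerSeries_apply_coeff]
    · rw [if_neg hd, qExpand_coeff_of_not_dvd]
      exact fun h => hd (Int.natCast_dvd_natCast.mp h)
  · rw [ofPowerSeries_coeff_of_neg _ hm]
    by_cases hd : (n : ℤ) ∣ m
    · obtain ⟨m', rfl⟩ := hd
      have hm' : m' < 0 := by
        by_contra h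
        have := mul_nonneg hn.le (not_lt.mp h)
        omega
      rw [qExpand_coeff_mul, ofPowerSeries_coeff_of_neg _ hm']
    · rw [qExpand_coeff_of_not_dvd _ _ hd]

/-- `ι (f(a X)) = tw a (ι f)`. -/
theorem FA_S28_phi_ofPS_rescale (k : Type) [Field k] (a : k) (ha : a ≠ 0) (g : PowerSeries k) :
    HahnSeries.ofPowerSeries ℤ k (PowerSeries.rescale a g)
      = FA_S28_tw a ha (HahnSeries.ofPowerSeries ℤ k g) := by
  ext m
  rw [FA_S28_tw_coeff]
  rcases le_or_gt 0 m with hm | hm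
  · lift m to ℕ using hm
    rw [HahnSeries.ofPowerSeries_apply_coeff, HahnSeries.ofPowerSeries_apply_coeff,
      PowerSeries.coeff_rescale, zpow_natCast]
  · rw [ofPowerSeries_coeff_of_neg _ hm, ofPowerSeries_coeff_of_neg _ hm, mul_zero]

/-- `Δ · j = E₄³`, formally, over any commutative ring. -/
theorem FA_S28_phi_dl_mul_j (k : Type) [CommRing k] :
    HahnSeries.ofPowerSeries ℤ k (FA_S28_phi_dl k) * jqModC k
      = HahnSeries.ofPowerSeries ℤ k (FA_S28_phi_e4 k) ^ 3 := by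
  have hA : PowerSeries.map (Int.castRingHom k) jNum *
      PowerSeries.map (Int.castRingHom k) (PowerSeries.X * etaProd ^ 24)
      = PowerSeries.X * PowerSeries.map (Int.castRingHom k) eisenstein4 ^ 3 := by
    rw [← map_mul, Fermat.Agent.S24.FA_S24_JQ_int, map_mul, map_pow, PowerSeries.map_X]
  have h2 : HahnSeries.ofPowerSeries ℤ k (PowerSeries.map (Int.castRingHom k) jNum) *
      HahnSeries.ofPowerSeries ℤ k (PowerSeries.map (Int.castRingHom k)
        (PowerSeries.X * etaProd ^ 24))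
      = HahnSeries.single 1 1 *
        HahnSeries.ofPowerSeries ℤ k (PowerSeries.map (Int.castRingHom k) eisenstein4) ^ 3 := by
    rw [← map_mul, hA, map_mul, map_pow, HahnSeries.ofPowerSeries_X]
  have h1 : (HahnSeries.single (-1 : ℤ) (1 : k)) * HahnSeries.single (1 : ℤ) (1 : k) = 1 := by
    rw [HahnSeries.single_mul_single]
    simp
  unfold FA_S28_phi_dl FA_S28_phi_e4 jqModC
  calc HahnSeries.ofPowerSeries ℤ k (PowerSeries.map (Int.castRingHom k)
          (PowerSeries.X * etaProd ^ 24)) *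
        (HahnSeries.single (-1 : ℤ) 1 *
          HahnSeries.ofPowerSeries ℤ k (PowerSeries.map (Int.castRingHom k) jNum))
      = HahnSeries.single (-1 : ℤ) 1 *
          (HahnSeries.ofPowerSeries ℤ k (PowerSeries.map (Int.castRingHom k) jNum) *
            HahnSeries.ofPowerSeries ℤ k (PowerSeries.map (Int.castRingHom k)
              (PowerSeries.X * etaProd ^ 24))) := by ring
    _ = HahnSeries.single (-1 : ℤ) 1 * (HahnSeries.single 1 1 *
          HahnSeries.ofPowerSeries ℤ k (PowerSeries.map (Int.castRingHom k) eisenstein4) ^ 3) := by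
        rw [h2]
    _ = _ := by rw [← mul_assoc, h1, one_mul]

section main

variable (k : Type) [Field k] (p : ℕ) [NeZero p] (ζ : k) (hζ : ζ ≠ 0)

/-- The conjugations on Laurent series. -/
def FA_S28_phi_Cj : Option (Fin p) → LaurentSeries k →+* LaurentSeries k
  | none => qExpand k (p * p)
  | some b => FA_S28_tw (ζ ^ (b : ℕ)) (pow_ne_zero _ hζ)

theorem FA_S28_phi_ofPS_cj (o : Option (Fin p)) (g : PowerSeries k) :
    HahnSeries.ofPowerSeries ℤ k (FA_S28_phi_cj p ζ o g)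
      = FA_S28_phi_Cj k p ζ hζ o (HahnSeries.ofPowerSeries ℤ k g) := by
  rcases o with _ | b
  · exact FA_S28_phi_ofPS_expand k (p * p) g
  · exact FA_S28_phi_ofPS_rescale k _ (pow_ne_zero _ hζ) g

theorem FA_S28_phi_Cj_injective (o : Option (Fin p)) :
    Function.Injective (FA_S28_phi_Cj k p ζ hζ o) :=
  RingHom.injective _

theorem FA_S28_phi_coeff_dl : PowerSeries.coeff 1 (FA_S28_phi_dl k) = 1 := by
  unfold FA_S28_phi_dl
  rw [PowerSeries.coeff_map, show (1 : ℕ) = 0 + 1 from rfl, PowerSeries.coeff_succ_X_mul,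
    PowerSeries.coeff_zero_eq_constantCoeff, map_pow, constantCoeff_etaProd]
  simp

theorem FA_S28_phi_ofPS_dl_ne : HahnSeries.ofPowerSeries ℤ k (FA_S28_phi_dl k) ≠ 0 := by
  intro h
  have h1 := congrArg (fun x : LaurentSeries k => x.coeff ((1 : ℕ) : ℤ)) h
  simp only [HahnSeries.ofPowerSeries_apply_coeff, FA_S28_phi_coeff_dl, HahnSeries.coeff_zero] at h1
  exact one_ne_zero h1

/-- `ι (E₄³_o) = ι (Δ_o) · j_o`. -/
theorem FA_S28_phi_ofPS_cj_e4 (o : Option (Fin p)) :
    HahnSeries.ofPowerSeries ℤ k (FA_S28_phi_cj p ζ o (FA_S28_phi_e4 k ^ 3))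
      = HahnSeries.ofPowerSeries ℤ k (FA_S28_phi_cj p ζ o (FA_S28_phi_dl k))
        * FA_S28_phi_Cj k p ζ hζ o (jqModC k) := by
  rw [FA_S28_phi_ofPS_cj k p ζ hζ, FA_S28_phi_ofPS_cj k p ζ hζ, ← map_mul, FA_S28_phi_dl_mul_j,
    map_pow]

/-- `Ψ = ∏_o (Y - j_o)`. -/
def FA_S28_phi_Psi : Polynomial (LaurentSeries k) :=
  ∏ o : Option (Fin p), (X - C (FA_S28_phi_Cj k p ζ hζ o (jqModC k)))

theorem FA_S28_phi_Psi_monic : (FA_S28_phi_Psi k p ζ hζ).Monic :=
  Polynomial.monic_prod_of_monic _ _ fun o _ => Polynomial.monic_X_sub_C _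

theorem FA_S28_phi_Psi_natDegree : (FA_S28_phi_Psi k p ζ hζ).natDegree = p + 1 := by
  unfold FA_S28_phi_Psi
  rw [Polynomial.natDegree_prod_of_monic _ _ fun o _ => Polynomial.monic_X_sub_C _]
  simp

/-- `Θ.map ι = C D · (-1)^(p+1) · Ψ`. -/
theorem FA_S28_phi_Theta_map :
    (FA_S28_phi_Theta k p ζ).map (HahnSeries.ofPowerSeries ℤ k)
      = C ((∏ o : Option (Fin p),
            HahnSeries.ofPowerSeries ℤ k (FA_S28_phi_cj p ζ o (FA_S28_phi_dl k)))
          * (-1) ^ (p + 1)) * FA_S28_phi_Psi k p ζ hζ := by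
  unfold FA_S28_phi_Theta FA_S28_phi_Psi
  rw [Polynomial.map_prod, map_mul, map_prod, map_pow, map_neg, map_one]
  have hcard : (-1 : Polynomial (LaurentSeries k)) ^ (p + 1)
      = ∏ _o : Option (Fin p), (-1 : Polynomial (LaurentSeries k)) := by
    rw [Finset.prod_const]
    simp
  rw [hcard, ← Finset.prod_mul_distrib, ← Finset.prod_mul_distrib]
  refine Finset.prod_congr rfl fun o _ => ?_
  rw [Polynomial.map_sub, Polynomial.map_mul, Polynomial.map_C, Polynomial.map_C,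
    Polynomial.map_X, FA_S28_phi_ofPS_cj_e4 k p ζ hζ, map_mul]
  ring


/-- The polynomial `∑_{c ≤ m} n_c X^(m - c)`. -/
def FA_S28_phi_P (m : ℕ) (n : ℕ → k) : Polynomial k :=
  ∑ c ∈ Finset.range (m + 1), C (n c) * X ^ (m - c)

/-- `ι (∑ n_c Δ^c E₄^{3(m-c)}) = (ι Δ)^m · P(j)`. -/
theorem FA_S28_phi_ofPS_comb (m : ℕ) (n : ℕ → k) :
    HahnSeries.ofPowerSeries ℤ k (FA_S28_phi_comb k m n)
      = HahnSeries.ofPowerSeries ℤ k (FA_S28_phi_dl k) ^ m
        * aeval (jqModC k) (FA_S28_phi_P k m n) := by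
  unfold FA_S28_phi_comb FA_S28_phi_P
  rw [map_sum, map_sum, Finset.mul_sum]
  refine Finset.sum_congr rfl fun c hc => ?_
  have hc' : c ≤ m := by
    have := Finset.mem_range.mp hc
    omega
  rw [PowerSeries.smul_eq_C_mul, map_mul, map_mul, map_pow, map_pow, pow_mul,
    ← FA_S28_phi_dl_mul_j, HahnSeries.ofPowerSeries_C, map_mul, aeval_C, map_pow, aeval_X,
    algebraMap_laurentSeries_eq_single, mul_pow]
  have e : HahnSeries.ofPowerSeries ℤ k (FA_S28_phi_dl k) ^ m
      = HahnSeries.ofPowerSeries ℤ k (FA_S28_phi_dl k) ^ c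
        * HahnSeries.ofPowerSeries ℤ k (FA_S28_phi_dl k) ^ (m - c) := by
    rw [← pow_add, Nat.add_sub_cancel' hc']
  rw [e]
  show HahnSeries.single 0 (n c) * _ = _
  ring

/-- `ι (t(X^p)) = (ι Δ (u^p))^m · P(j(u^p))`. -/
theorem FA_S28_phi_ofPS_expand_comb (m : ℕ) (n : ℕ → k) :
    HahnSeries.ofPowerSeries ℤ k (PowerSeries.expand p (NeZero.ne p) (FA_S28_phi_comb k m n))
      = qExpand k p (HahnSeries.ofPowerSeries ℤ k (FA_S28_phi_dl k)) ^ m
        * aeval (jqNModC k p) (FA_S28_phi_P k m n) := by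
  rw [FA_S28_phi_ofPS_expand, FA_S28_phi_ofPS_comb, map_mul, map_pow]
  congr 1
  rw [← qExpandAlgHomC_apply, ← Polynomial.aeval_algHom_apply]
  rfl


/-- The coefficients of `Ψ` in terms of the identity. -/
theorem FA_S28_phi_Psi_coeff (n : ℕ → ℕ → k) (h : FA_S28_phi_Ident k p ζ n) :
    n (p + 1) (p + 1) ≠ 0 ∧ ∀ i, (FA_S28_phi_Psi k p ζ hζ).coeff i
      = aeval (jqNModC k p) (C (n (p + 1) (p + 1))⁻¹ * FA_S28_phi_P k (p + 1) (n i)) := by
  set D : LaurentSeries k := (∏ o : Option (Fin p),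
    HahnSeries.ofPowerSeries ℤ k (FA_S28_phi_cj p ζ o (FA_S28_phi_dl k))) * (-1) ^ (p + 1) with hD
  set E : LaurentSeries k :=
    qExpand k p (HahnSeries.ofPowerSeries ℤ k (FA_S28_phi_dl k)) ^ (p + 1) with hE
  set κ : k := n (p + 1) (p + 1) with hκ
  have hE0 : E ≠ 0 := by
    apply pow_ne_zero
    intro h0
    exact FA_S28_phi_ofPS_dl_ne k ((qExpand_injective (R := k) p) (by rw [h0, map_zero]))
  have hD0 : D ≠ 0 := by
    apply mul_ne_zero
    · rw [Finset.prod_ne_zero_iff]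
      intro o _
      rw [FA_S28_phi_ofPS_cj k p ζ hζ]
      intro h0
      exact FA_S28_phi_ofPS_dl_ne k
        (FA_S28_phi_Cj_injective k p ζ hζ o (by rw [h0, map_zero]))
    · exact pow_ne_zero _ (neg_ne_zero.mpr one_ne_zero)
  -- the two expressions of `ι (Θ.coeff i)`
  have h1 : ∀ i, D * (FA_S28_phi_Psi k p ζ hζ).coeff i
      = E * aeval (jqNModC k p) (FA_S28_phi_P k (p + 1) (n i)) := by
    intro i
    rw [← FA_S28_phi_ofPS_expand_comb, ← h.1 i, ← Polynomial.coeff_C_mul,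
      ← FA_S28_phi_Theta_map k p ζ hζ, Polynomial.coeff_map]
  -- the top coefficient
  have hP : FA_S28_phi_P k (p + 1) (n (p + 1)) = C κ := by
    unfold FA_S28_phi_P
    rw [Finset.sum_range_succ, Finset.sum_eq_zero, zero_add, Nat.sub_self, pow_zero, mul_one]
    intro c hc
    rw [h.2 c (Finset.mem_range.mp hc), map_zero, zero_mul]
  have h2 : D = E * algebraMap k (LaurentSeries k) κ := by
    have := h1 (p + 1)
    rw [hP, aeval_C, ← FA_S28_phi_Psi_natDegree k p ζ hζ,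
      Polynomial.coeff_natDegree, (FA_S28_phi_Psi_monic k p ζ hζ).leadingCoeff, mul_one] at this
    exact this
  have hκ0 : κ ≠ 0 := by
    intro h0
    apply hD0
    rw [h2, h0, map_zero, mul_zero]
  refine ⟨hκ0, fun i => ?_⟩
  have h3 := h1 i
  rw [h2, mul_assoc] at h3
  have h4 := mul_left_cancel₀ hE0 h3
  rw [map_mul, aeval_C, ← h4, ← mul_assoc, ← map_mul, inv_mul_cancel₀ hκ0, map_one, one_mul]

/-- **PHI from the identity.** -/
theorem FA_S28_phi_of_Ident (hζ : ζ ≠ 0) (n : ℕ → ℕ → k) (h : FA_S28_phi_Ident k p ζ n) :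
    ∃ Φ : Polynomial (Polynomial k), Φ.Monic ∧ Φ.natDegree = p + 1 ∧
      ∀ y : Fin p → LaurentSeries k,
        (∀ b : Fin p, FA_S28_IsTwist (ζ ^ (b : ℕ)) (jqModC k) (y b)) →
        Φ.map (Polynomial.aeval (jqNModC k p)).toRingHom
          = (Polynomial.X - Polynomial.C (jqNModC k (p * p)))
              * ∏ b : Fin p, (Polynomial.X - Polynomial.C (y b)) := by
  obtain ⟨hκ0, hco⟩ := FA_S28_phi_Psi_coeff k p ζ hζ n h
  set Q : ℕ → Polynomial k :=
    fun i => C (n (p + 1) (p + 1))⁻¹ * FA_S28_phi_P k (p + 1) (n i) with hQ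
  set T : Polynomial (Polynomial k) := ∑ i ∈ Finset.range (p + 1), C (Q i) * X ^ i with hT
  have hTdeg : T.degree < ((p + 1 : ℕ) : WithBot ℕ) := by
    rw [hT]
    refine lt_of_le_of_lt (Polynomial.degree_sum_le _ _) ?_
    rw [Finset.sup_lt_iff (WithBot.bot_lt_coe _)]
    intro i hi
    refine lt_of_le_of_lt (Polynomial.degree_C_mul_X_pow_le _ _) ?_
    exact_mod_cast Finset.mem_range.mp hi
  have hnat : (X ^ (p + 1) + T : Polynomial (Polynomial k)).natDegree = p + 1 := by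
    rw [Polynomial.natDegree_add_eq_left_of_degree_lt (by rw [Polynomial.degree_X_pow]; exact hTdeg),
      Polynomial.natDegree_X_pow]
  refine ⟨X ^ (p + 1) + T, Polynomial.monic_X_pow_add hTdeg, hnat, fun y hy => ?_⟩
  have hy' : ∀ b : Fin p, y b = FA_S28_phi_Cj k p ζ hζ (some b) (jqModC k) := fun b =>
    (FA_S28_isTwist_iff _ (pow_ne_zero _ hζ) _ _).mp (hy b)
  have hΨ : (Polynomial.X - Polynomial.C (jqNModC k (p * p)))
      * ∏ b : Fin p, (Polynomial.X - Polynomial.C (y b)) = FA_S28_phi_Psi k p ζ hζ := by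
    unfold FA_S28_phi_Psi
    rw [Fintype.prod_option]
    congr 1
    refine Finset.prod_congr rfl fun b _ => ?_
    rw [hy' b]
  rw [hΨ]
  have hmon := (FA_S28_phi_Psi_monic k p ζ hζ).as_sum
  rw [FA_S28_phi_Psi_natDegree] at hmon
  rw [hmon, Polynomial.map_add, Polynomial.map_pow, Polynomial.map_X, hT, Polynomial.map_sum]
  congr 1
  refine Finset.sum_congr rfl fun i _ => ?_
  rw [Polynomial.map_mul, Polynomial.map_pow, Polynomial.map_X, Polynomial.map_C, hco i]
  rfl

end main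

end Fermat.Agent.S28
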