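import Mathlib
import Fermat.Agent.S28.PhiField
import Fermat.Agent.S28.PhiAn

/-!
# S28, leaf PHI (helper9): the modular equation of prime level

`FA_S28_phi : FA_S28_Target_PHI p` for every prime `p`: the analytic identity over `ℤ[ζ_p] ⊆ ℂ`
(`FA_S28_phi_an`) descends to `ℤ[ζ_p]`, is transported to `k` along `ℤ[ζ_p] → k`, `ζ_p ↦ ζ`
(power basis of `ℤ[ζ_p]`), and gives the modular equation over `k` (`FA_S28_phi_of_Ident`).
-/

set_option autoImplicit false

noncomputable section

namespace Fermat.Agent.S28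

open FA_S16 Polynomial ModularCurve

/-- **PHI**: the modular equation of prime level `p` with its `p + 1` roots, over every field
with a primitive `p`-th root of unity. -/
theorem FA_S28_phi (p : ℕ) [hp : Fact p.Prime] [NeZero p] : FA_S28_Target_PHI p := by
  intro k _ ζk hζk
  have hprim : IsPrimitiveRoot (FA_S16_zeta p) p := Complex.isPrimitiveRoot_exp p hp.out.ne_zero
  have hint : IsIntegral ℤ (FA_S16_zeta p) := hprim.isIntegral hp.out.pos
  have hζS : FA_S16_zeta p ∈ Algebra.adjoin ℤ {FA_S16_zeta p} :=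
    Algebra.subset_adjoin (Set.mem_singleton _)
  obtain ⟨n, hnA, hId⟩ := FA_S28_phi_an p (Algebra.adjoin ℤ {FA_S16_zeta p}).toSubring hζS
  have hroot : aeval ζk (minpoly ℤ (Algebra.adjoin.powerBasis' hint).gen) = 0 := by
    rw [← Algebra.adjoin.powerBasis'_minpoly_gen hint,
      ← Polynomial.cyclotomic_eq_minpoly hprim hp.out.pos, Polynomial.aeval_def,
      Polynomial.eval₂_eq_eval_map, algebraMap_int_eq, Polynomial.map_cyclotomic_int]
    exact IsPrimitiveRoot.isRoot_cyclotomic hp.out.pos hζk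
  have hφ : ((Algebra.adjoin.powerBasis' hint).lift ζk hroot)
      ⟨FA_S16_zeta p, hζS⟩ = ζk := by
    have h := (Algebra.adjoin.powerBasis' hint).lift_gen ζk hroot
    rwa [Algebra.adjoin.powerBasis'_gen] at h
  have hIdS : FA_S28_phi_Ident (Algebra.adjoin ℤ {FA_S16_zeta p}) p ⟨FA_S16_zeta p, hζS⟩
      (fun i c => ⟨n i c, hnA i c⟩) :=
    FA_S28_phi_Ident_of_injective (Algebra.adjoin ℤ {FA_S16_zeta p}).val.toRingHom
      Subtype.val_injective p _ _ hId
  have hIdk := FA_S28_phi_Ident_map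
    ((Algebra.adjoin.powerBasis' hint).lift ζk hroot).toRingHom p _ _ hIdS
  have hφ' : ((Algebra.adjoin.powerBasis' hint).lift ζk hroot).toRingHom
      ⟨FA_S16_zeta p, hζS⟩ = ζk := hφ
  rw [hφ'] at hIdk
  exact FA_S28_phi_of_Ident k p ζk (hζk.ne_zero hp.out.ne_zero) _ hIdk

end Fermat.Agent.S28
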