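import Mathlib
import Fermat.Agent.S28.IndInterface
import Fermat.Agent.S24.BIndexPsi

/-!
# S28, leaf IndInduct: the induction on the level
-/

set_option autoImplicit false

noncomputable section

namespace Fermat.Agent.S28

open ModularCurve Polynomial IntermediateField

variable {k : Type} [Field k]

/-- Degree of a simple extension, in terms of `relfinrank`. -/
theorem FA_S28_ii_simple (L : IntermediateField k (LaurentSeries k)) (x : LaurentSeries k)
    (hx : IsIntegral ↥L x) :
    relfinrank L (L ⊔ adjoin k {x}) = (minpoly ↥L x).natDegree := by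
  rw [relfinrank_eq_finrank_of_le le_sup_left]
  have h : extendScalars (le_sup_left : L ≤ L ⊔ adjoin k {x}) = adjoin ↥L {x} := by
    apply restrictScalars_injective k
    rw [extendScalars_restrictScalars, restrictScalars_adjoin_eq_sup]
  rw [h, adjoin.finrank hx]

/-- Monotonicity of `relfinrank` in the top field, in the finite case. -/
theorem FA_S28_ii_mono {A B C : IntermediateField k (LaurentSeries k)} (h1 : A ≤ B) (h2 : B ≤ C)
    (h0 : relfinrank A C ≠ 0) : relfinrank A B ≤ relfinrank A C := by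
  have h := relfinrank_mul_relfinrank h1 h2
  exact Nat.le_of_dvd (Nat.pos_of_ne_zero h0) ⟨_, h.symm⟩

theorem FA_S28_ii_kappa_le (S : Set ℕ) : FA_S28_kappa k ≤ FA_S28_fld k S :=
  adjoin.mono k _ _ (Set.singleton_subset_iff.mpr (Set.mem_insert _ _))

theorem FA_S28_ii_fld_mono {S T : Set ℕ} (h : S ⊆ T) : FA_S28_fld k S ≤ FA_S28_fld k T :=
  adjoin.mono k _ _ (Set.insert_subset_insert (Set.image_mono h))

/-- Finite-dimensionality. -/
theorem FA_S28_ii_ne_zero (S : Set ℕ) (hS : S.Finite)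
    (hint : ∀ d ∈ S, IsIntegral ↥(FA_S28_kappa k) (FA_S28_jd k d)) :
    relfinrank (FA_S28_kappa k) (FA_S28_fld k S) ≠ 0 := by
  rw [relfinrank_eq_finrank_of_le (FA_S28_ii_kappa_le S)]
  have h : extendScalars (FA_S28_ii_kappa_le (k := k) S)
      = adjoin ↥(FA_S28_kappa k) (FA_S28_jd k '' S) := by
    apply restrictScalars_injective k
    rw [extendScalars_restrictScalars, restrictScalars_adjoin_eq_sup]
    show adjoin k (insert (jqModC k) (FA_S28_jd k '' S)) = adjoin k {jqModC k} ⊔ _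
    rw [← adjoin_union, Set.singleton_union]
  rw [h]
  have hfin : Finite (FA_S28_jd k '' S) := (hS.image _).to_subtype
  have : FiniteDimensional ↥(FA_S28_kappa k) ↥(adjoin ↥(FA_S28_kappa k) (FA_S28_jd k '' S)) :=
    finiteDimensional_adjoin (by
      rintro _ ⟨d, hd, rfl⟩
      exact hint d hd)
  exact Module.finrank_pos.ne'

theorem FA_S28_ii_fld_empty : FA_S28_fld k ∅ = FA_S28_kappa k := by
  show adjoin k (insert (jqModC k) (FA_S28_jd k '' ∅)) = adjoin k {jqModC k}
  rw [Set.image_empty, insert_empty_eq]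

theorem FA_S28_ii_fld_union_singleton (S : Set ℕ) (p : ℕ) :
    FA_S28_fld k (S ∪ {p}) = FA_S28_fld k S ⊔ adjoin k {FA_S28_jd k p} := by
  show adjoin k (insert (jqModC k) (FA_S28_jd k '' (S ∪ {p}))) = adjoin k _ ⊔ _
  rw [← adjoin_union, Set.image_union, Set.image_singleton, Set.insert_union]

theorem FA_S28_ii_primes_mul (M p : ℕ) (hp : p.Prime) :
    {r : ℕ | r.Prime ∧ r ∣ M * p} = {r | r.Prime ∧ r ∣ M} ∪ {p} := by
  ext r
  simp only [Set.mem_ofPred_eq, Set.mem_union, Set.mem_singleton_iff]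
  constructor
  · rintro ⟨hr, hd⟩
    rcases (Nat.Prime.dvd_mul hr).mp hd with h | h
    · exact Or.inl ⟨hr, h⟩
    · exact Or.inr ((Nat.prime_dvd_prime_iff_eq hr hp).mp h)
  · rintro (⟨hr, hd⟩ | rfl)
    · exact ⟨hr, dvd_mul_of_dvd_left hd p⟩
    · exact ⟨hp, dvd_mul_left _ _⟩

/-- Part 1: squarefree levels, prime generators. -/
theorem FA_S28_ii_squarefree (ℓ : ℕ) [Fact ℓ.Prime] (hPHI : FA_S28_PHIall ℓ)
    [IsAlgClosed k] [CharP k ℓ] (hIG : FA_S28_IGall k ℓ)
    (hFin : FA_S28_Target_IndFin ℓ) (hIrr : FA_S28_Target_IndIrr ℓ) (hA : FA_S28_Target_IndA ℓ)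
    (N : ℕ) (hN : N ≠ 0) (hsq : Squarefree N) (hℓ : ¬ ℓ ∣ N) :
    dedekindPsi N ≤ relfinrank (FA_S28_kappa k) (FA_S28_fld k {r | r.Prime ∧ r ∣ N}) := by
  induction N using Nat.strong_induction_on with
  | _ N ih =>
    by_cases h1 : N = 1
    · subst h1
      have : {r : ℕ | r.Prime ∧ r ∣ 1} = ∅ := by
        ext r
        simp only [Set.mem_ofPred_eq, Set.mem_empty_iff_false, iff_false, not_and, Nat.dvd_one]
        intro hr h
        exact hr.ne_one h
      rw [this, FA_S28_ii_fld_empty, relfinrank_self, dedekindPsi_one]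
    · have hp : N.minFac.Prime := Nat.minFac_prime h1
      set p := N.minFac with hpdef
      have hdvd : p ∣ N := Nat.minFac_dvd N
      set M := N / p with hMdef
      have hNM : N = M * p := (Nat.div_mul_cancel hdvd).symm
      have hM0 : M ≠ 0 := fun h => hN (by rw [hNM, h, zero_mul])
      have hMlt : M < N := Nat.div_lt_self (Nat.pos_of_ne_zero hN) hp.one_lt
      have hsq' : Squarefree (M * p) := hNM ▸ hsq
      have hcop : Nat.Coprime M p := (Nat.squarefree_mul_iff.mp hsq').1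
      have hMsq : Squarefree M := (Nat.squarefree_mul_iff.mp hsq').2.1
      have hpM : ¬ p ∣ M := fun h => hp.one_lt.ne' (Nat.Coprime.eq_one_of_dvd hcop.symm h)
      have hℓM : ¬ ℓ ∣ M := fun h => hℓ (hNM ▸ dvd_mul_of_dvd_left h p)
      have hpℓ : p ≠ ℓ := fun h => hℓ (h ▸ hdvd)
      have ihM := ih M hMlt hM0 hMsq hℓM
      set L := FA_S28_fld k {r | r.Prime ∧ r ∣ M} with hL
      have hnot : FA_S28_jd k p ∉ L := hA hPHI k hIG p M hp hpℓ hM0 hℓM hpM
      have hκL : FA_S28_kappa k ≤ L := FA_S28_ii_kappa_le _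
      have hintκ : IsIntegral ↥(FA_S28_kappa k) (FA_S28_jd k p) :=
        hFin hPHI k p hp.ne_zero (fun h => hpℓ ((Nat.prime_dvd_prime_iff_eq Fact.out hp).mp h).symm)
      have hintL : IsIntegral ↥L (FA_S28_jd k p) := by
        obtain ⟨P, hPm, hP⟩ := hintκ
        refine ⟨P.map (inclusion hκL).toRingHom, hPm.map _, ?_⟩
        rw [eval₂_map]
        exact hP
      have hdeg : p + 1 ≤ (minpoly ↥L (FA_S28_jd k p)).natDegree :=
        hIrr hPHI k p hp hpℓ L hκL hnot _ (minpoly.ne_zero hintL) (minpoly.aeval _ _)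
      have hstep : relfinrank L (L ⊔ adjoin k {FA_S28_jd k p})
          = (minpoly ↥L (FA_S28_jd k p)).natDegree := FA_S28_ii_simple L _ hintL
      have htower := relfinrank_mul_relfinrank hκL
        (le_sup_left : L ≤ L ⊔ adjoin k {FA_S28_jd k p})
      have hset : FA_S28_fld k {r | r.Prime ∧ r ∣ N} = L ⊔ adjoin k {FA_S28_jd k p} := by
        rw [hNM, FA_S28_ii_primes_mul M p hp, FA_S28_ii_fld_union_singleton]
      rw [hset, ← htower, hstep, hNM,
        Fermat.Agent.S24.FA_S24_psi_mul_prime_of_not_dvd hp (Nat.pos_of_ne_zero hM0) hpM,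
        mul_comm]
      exact Nat.mul_le_mul ihM hdeg

/-- **Leaf IndInduct.** -/
theorem FA_S28_indInduct (ℓ : ℕ) [Fact ℓ.Prime] : FA_S28_Target_IndInduct ℓ := by
  intro hPHI hIGall hFin hIrr hA hB k _ _ _ N hN hℓ
  have hIG : FA_S28_IGall k ℓ := hIGall k
  induction N using Nat.strong_induction_on with
  | _ N ih =>
    by_cases hsq : Squarefree N
    · have h1 := FA_S28_ii_squarefree ℓ hPHI hIG hFin hIrr hA N hN hsq hℓ
      refine h1.trans (FA_S28_ii_mono (FA_S28_ii_kappa_le _)
        (FA_S28_ii_fld_mono fun r hr => hr.2) ?_)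
      refine FA_S28_ii_ne_zero _ ?_ ?_
      · exact (Set.finite_le_nat N).subset fun d hd => Nat.le_of_dvd (Nat.pos_of_ne_zero hN) hd
      · intro d hd
        have hd0 : d ≠ 0 := fun h => hN (by
          rw [h] at hd
          exact Nat.eq_zero_of_zero_dvd hd)
        exact hFin hPHI k d hd0 fun h => hℓ (h.trans hd)
    · rw [Nat.squarefree_iff_prime_squarefree] at hsq
      obtain ⟨p, hp'⟩ := not_forall.mp hsq
      obtain ⟨hp, hpp'⟩ := Classical.not_imp.mp hp'
      have hpp : p * p ∣ N := not_not.mp hpp'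
      have hdvd : p ∣ N := (dvd_mul_left p p).trans hpp
      set M := N / p with hMdef
      have hNM : N = M * p := (Nat.div_mul_cancel hdvd).symm
      have hM0 : M ≠ 0 := fun h => hN (by rw [hNM, h, zero_mul])
      have hMlt : M < N := Nat.div_lt_self (Nat.pos_of_ne_zero hN) hp.one_lt
      have hpM : p ∣ M := by
        have : p * p ∣ M * p := hNM ▸ hpp
        exact (Nat.mul_dvd_mul_iff_right hp.pos).mp this
      have hℓM : ¬ ℓ ∣ M := fun h => hℓ (hNM ▸ dvd_mul_of_dvd_left h p)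
      have hpℓ : p ≠ ℓ := fun h => hℓ (h ▸ hdvd)
      have ihM := ih M hMlt hM0 hℓM
      have hBp := hB hPHI k hIG p M hp hpℓ hM0 hℓM
      rw [hNM, Fermat.Agent.S24.FA_S24_psi_mul_prime_of_dvd hp (Nat.pos_of_ne_zero hM0) hpM]
      exact (Nat.mul_le_mul_left p ihM).trans hBp

end Fermat.Agent.S28
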