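import Mathlib
import Fermat.Agent.S28.IndIrr

/-!
# S28, leaf IND: tools (push-forward of the modular equation, transport of degree bounds)
-/

set_option autoImplicit false

noncomputable section

namespace Fermat.Agent.S28

open ModularCurve Polynomial

variable {k : Type} [Field k]

theorem FA_S28_qExpand_algebraMap (m : ℕ) [NeZero m] (c : k) :
    qExpand k m (algebraMap k (LaurentSeries k) c) = algebraMap k (LaurentSeries k) c := by
  rw [algebraMap_laurentSeries_eq_single, qExpand_single, mul_zero]

theorem FA_S28_qExpand_jq (e : ℕ) [NeZero e] : qExpand k e (jqModC k) = FA_S28_jd k e := by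
  rw [FA_S28_jd_eq]; rfl

/-- The modular equation of level `r`, pushed forward by `u ↦ v^m`, over any intermediate field
containing `j(q)`, `q = v^(m r)`. -/
theorem FA_S28_setup_push (r : ℕ) [NeZero r] (hPHI : FA_S28_Target_PHI r) (ζ : k)
    (hζr : IsPrimitiveRoot ζ r) (hζ : ζ ≠ 0) (m : ℕ) [NeZero m]
    (F' : IntermediateField k (LaurentSeries k)) (hF' : FA_S28_jd k (m * r) ∈ F') :
    ∃ P : Polynomial ↥F', P.Monic ∧ P.natDegree = r + 1 ∧
      P.map (algebraMap ↥F' (LaurentSeries k))
        = (X - C (FA_S28_jd k (m * r * r)))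
            * ∏ b : Fin r, (X - C (qExpand k m (FA_S28_root ζ hζ r b))) := by
  obtain ⟨Φ, hmonic, hdeg, hfac⟩ := hPHI k ζ hζr
  refine ⟨Φ.map (Polynomial.aeval (⟨FA_S28_jd k (m * r), hF'⟩ : ↥F')).toRingHom,
    hmonic.map _, ?_, ?_⟩
  · rw [hmonic.natDegree_map, hdeg]
  · have h1 : (algebraMap ↥F' (LaurentSeries k)).comp
        (Polynomial.aeval (⟨FA_S28_jd k (m * r), hF'⟩ : ↥F')).toRingHom
        = (qExpand k m).comp
            (Polynomial.aeval (R := k) (A := LaurentSeries k) (jqNModC k r)).toRingHom := by
      apply Polynomial.ringHom_ext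
      · intro c
        simp only [RingHom.coe_comp, Function.comp_apply, AlgHom.toRingHom_eq_coe,
          RingHom.coe_coe, aeval_C]
        rw [FA_S28_qExpand_algebraMap]
        rfl
      · simp only [RingHom.coe_comp, Function.comp_apply, AlgHom.toRingHom_eq_coe,
          RingHom.coe_coe, aeval_X]
        rw [← FA_S28_jd_eq r, FA_S28_qExpand_jd]
        rfl
    have h2 : qExpand k m (jqNModC k (r * r)) = FA_S28_jd k (m * r * r) := by
      rw [← FA_S28_jd_eq (r * r), FA_S28_qExpand_jd, mul_assoc]
    rw [Polynomial.map_map, h1, ← Polynomial.map_map, hfac _ (FA_S28_root_isTwist ζ hζ r)]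
    simp only [Polynomial.map_mul, Polynomial.map_sub, Polynomial.map_X, Polynomial.map_C,
      Polynomial.map_prod, h2]

/-- Transport of a degree bound along an algebra homomorphism. -/
theorem FA_S28_transport_deg (f : LaurentSeries k →ₐ[k] LaurentSeries k)
    (κ : IntermediateField k (LaurentSeries k)) (x : LaurentSeries k) (n : ℕ)
    (h : ∀ A : Polynomial ↥κ, A ≠ 0 → Polynomial.aeval x A = 0 → n ≤ A.natDegree)
    (A' : Polynomial ↥(κ.map f)) (hA' : A' ≠ 0) (hroot : Polynomial.aeval (f x) A' = 0) :
    n ≤ A'.natDegree := by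
  let e := IntermediateField.equivMap κ f
  have hinj : Function.Injective (e.symm : ↥(κ.map f) →+* ↥κ) := e.symm.injective
  have hdeg : (A'.map (e.symm : ↥(κ.map f) →+* ↥κ)).natDegree = A'.natDegree :=
    natDegree_map_eq_of_injective hinj A'
  rw [← hdeg]
  apply h
  · exact (Polynomial.map_ne_zero_iff hinj).mpr hA'
  · apply f.injective
    rw [map_zero, ← hroot, Polynomial.aeval_def, Polynomial.aeval_def, eval₂_map,
      Polynomial.hom_eval₂]
    congr 1
    apply RingHom.ext
    intro a
    simp only [RingHom.coe_comp, Function.comp_apply, RingHom.coe_coe]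
    have : (e (e.symm a) : LaurentSeries k) = f (e.symm a) :=
      IntermediateField.coe_equivMap_apply κ f (e.symm a)
    rw [AlgEquiv.apply_symm_apply] at this
    exact this.symm

end Fermat.Agent.S28
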