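import Mathlib
import Fermat.Agent.S28.IndTools

/-!
# S28, leaf IndFin: `j(q^d)` is integral over `κ = k(j)` for `ℓ ∤ d`

The modular equation `Φ_r(j(q^m), j(q^{m r})) = 0` (PHI pushed by `q ↦ q^m`), transitivity of
integrality, induction on `d` via the smallest prime factor.
-/

set_option autoImplicit false

noncomputable section

namespace Fermat.Agent.S28

open ModularCurve Polynomial

variable {k : Type} [Field k]

/-- `qExpand` commutes with the evaluation of a two-variable polynomial. -/
theorem FA_S28_indFin_push (e : ℕ) [NeZero e] (Φ : Polynomial (Polynomial k))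
    (x y : LaurentSeries k) :
    qExpand k e ((Φ.map (Polynomial.aeval x).toRingHom).eval y)
      = (Φ.map (Polynomial.aeval (qExpand k e x)).toRingHom).eval (qExpand k e y) := by
  rw [Polynomial.eval_map, Polynomial.eval_map, Polynomial.hom_eval₂]
  congr 1
  apply Polynomial.ringHom_ext
  · intro c
    simp only [RingHom.coe_comp, Function.comp_apply, AlgHom.toRingHom_eq_coe,
      RingHom.coe_coe, aeval_C]
    exact FA_S28_qExpand_algebraMap e c
  · simp only [RingHom.coe_comp, Function.comp_apply, AlgHom.toRingHom_eq_coe,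
      RingHom.coe_coe, aeval_X]

/-- The modular equation of level `r` between `j(q^m)` and `j(q^{m r})`. -/
theorem FA_S28_indFin_modEq (r : ℕ) [NeZero r] (hPHI : FA_S28_Target_PHI r) (ζ : k)
    (hζr : IsPrimitiveRoot ζ r) :
    ∃ Φ : Polynomial (Polynomial k), Φ.Monic ∧ ∀ (m : ℕ) [NeZero m],
      (Φ.map (Polynomial.aeval (FA_S28_jd k m)).toRingHom).eval (FA_S28_jd k (m * r)) = 0 := by
  have hζ : ζ ≠ 0 := hζr.ne_zero (NeZero.ne r)
  obtain ⟨Φ, hmonic, -, hfac⟩ := hPHI k ζ hζr
  refine ⟨Φ, hmonic, ?_⟩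
  have h1 : (Φ.map (Polynomial.aeval (jqNModC k r)).toRingHom).eval (jqNModC k (r * r)) = 0 := by
    rw [hfac _ (FA_S28_root_isTwist ζ hζ r)]
    simp
  have h2 : (Φ.map (Polynomial.aeval (jqModC k)).toRingHom).eval (jqNModC k r) = 0 := by
    apply qExpand_injective (R := k) r
    rw [FA_S28_indFin_push, map_zero]
    have e1 : qExpand k r (jqModC k) = jqNModC k r := rfl
    have e2 : qExpand k r (jqNModC k r) = jqNModC k (r * r) := by
      rw [jqNModC, jqNModC, qExpand_qExpand]
    rw [e1, e2]
    exact h1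
  intro m _
  have h3 := congrArg (qExpand k m) h2
  rw [FA_S28_indFin_push, map_zero, FA_S28_qExpand_jq, ← FA_S28_jd_eq r, FA_S28_qExpand_jd]
    at h3
  exact h3

/-- Transitivity: a root of a monic two-variable polynomial specialised at an integral element
is integral. -/
theorem FA_S28_indFin_trans (κ : IntermediateField k (LaurentSeries k))
    (Φ : Polynomial (Polynomial k)) (hΦ : Φ.Monic) (x y : LaurentSeries k)
    (hx : IsIntegral ↥κ x)
    (hroot : (Φ.map (Polynomial.aeval x).toRingHom).eval y = 0) : IsIntegral ↥κ y := by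
  let IC := integralClosure ↥κ (LaurentSeries k)
  let f : Polynomial k →+* ↥IC :=
    (Polynomial.aeval (⟨x, hx⟩ : ↥IC)).toRingHom.comp
      (Polynomial.mapRingHom (algebraMap k ↥κ))
  have hf : (algebraMap ↥IC (LaurentSeries k)).comp f
      = (Polynomial.aeval (R := k) (A := LaurentSeries k) x).toRingHom := by
    apply Polynomial.ringHom_ext
    · intro c
      simp only [f, RingHom.coe_comp, Function.comp_apply, AlgHom.toRingHom_eq_coe,
        RingHom.coe_coe, Polynomial.coe_mapRingHom, Polynomial.map_C, aeval_C]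
      rfl
    · simp only [f, RingHom.coe_comp, Function.comp_apply, AlgHom.toRingHom_eq_coe,
        RingHom.coe_coe, Polynomial.coe_mapRingHom, Polynomial.map_X, aeval_X]
      rfl
  have hy : IsIntegral ↥IC y := by
    refine ⟨Φ.map f, hΦ.map f, ?_⟩
    rw [Polynomial.eval₂_map, hf, ← Polynomial.eval_map]
    exact hroot
  exact isIntegral_trans (A := ↥IC) y hy

/-- **Leaf IndFin.** -/
theorem FA_S28_indFin (ℓ : ℕ) [Fact ℓ.Prime] : FA_S28_Target_IndFin ℓ := by
  intro hPHI k _ _ _ d
  have hℓ : ℓ.Prime := Fact.out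
  induction d using Nat.strong_induction_on with
  | _ d ih =>
    intro hd0 hℓd
    by_cases hd1 : d = 1
    · subst hd1
      rw [FA_S28_jd_one]
      exact isIntegral_algebraMap (R := ↥(FA_S28_kappa k))
        (x := ⟨jqModC k, IntermediateField.mem_adjoin_simple_self k _⟩)
    · have hr : (d.minFac).Prime := Nat.minFac_prime hd1
      obtain ⟨m, hm⟩ := Nat.minFac_dvd d
      have hm0 : m ≠ 0 := fun h => hd0 (by rw [hm, h, mul_zero])
      have hmd : m < d := by
        have h2 := hr.two_le
        have hmpos : 0 < m := Nat.pos_of_ne_zero hm0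
        nlinarith
      have hℓm : ¬ ℓ ∣ m := fun h => hℓd (by rw [hm]; exact Dvd.dvd.mul_left h _)
      have hrℓ : d.minFac ≠ ℓ := fun h => hℓd (by rw [← h]; exact Nat.minFac_dvd d)
      have hrN : NeZero d.minFac := ⟨hr.ne_zero⟩
      have hmN : NeZero m := ⟨hm0⟩
      obtain ⟨ζ, hζr⟩ := FA_S28_exists_primitiveRoot k ℓ d.minFac hr hℓ hrℓ
      obtain ⟨Φ, hmonic, hroot⟩ := FA_S28_indFin_modEq d.minFac (hPHI d.minFac hr hrℓ) ζ hζr
      have h1 := ih m hmd hm0 hℓm
      have h2 := FA_S28_indFin_trans (FA_S28_kappa k) Φ hmonic _ _ h1 (hroot m)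
      have e : m * d.minFac = d := by rw [mul_comm]; exact hm.symm
      rw [e] at h2
      exact h2

end Fermat.Agent.S28
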