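import Fermat.Agent.S28.AlgTensor

/-!
# S28, leaf ALG: `FA_S28_Target_Deg N ℓ → FA_S28_Target_Alg N ℓ`

From the degree statement `DEG` (Igusa) the three chart algebras of the Igusa model stay
domains after base change to any field of characteristic `ℓ`.  Elementary: the valuation ring
`W = (F ∩ ℤ((q)))_(ℓ)` of `F`, its reduction map to `𝔽_ℓ((q))`, `W = ∑ R₂ e_i` (from `DEG`),
Gauss' lemma over `ℚ[x]` and over `R₂ = W ∩ ℚ(x)`, and a coefficientwise argument for the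
tensor product.
-/

set_option autoImplicit false

noncomputable section

namespace Fermat.Agent.S28

open ModularCurve ModularCurve.IgusaScheme

/-- **ALG**: `DEG ⇒` the chart algebras stay domains after base change to characteristic `ℓ`. -/
theorem FA_S28_alg (N : ℕ) [NeZero N] (ℓ : ℕ) [Fact ℓ.Prime] (h : FA_S28_Target_Deg N ℓ) :
    FA_S28_Target_Alg N ℓ := by
  intro K _ _ _
  obtain ⟨Φ₁, h₁⟩ := FA_S28_alg_fin N ℓ h
  obtain ⟨Φ₂, h₂⟩ := FA_S28_alg_inf N ℓ h
  obtain ⟨Φ₃, h₃⟩ := FA_S28_alg_mid N ℓ h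
  exact ⟨FA_S28_alg_tensor_isDomain ℓ _ K Φ₁ h₁, FA_S28_alg_tensor_isDomain ℓ _ K Φ₂ h₂,
    FA_S28_alg_tensor_isDomain ℓ _ K Φ₃ h₃⟩

end Fermat.Agent.S28
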