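import Fermat.Agent.S28.AlgInst2
import Fermat.Agent.S28.Interface

/-!
# S28, leaf DEGGLUE: `DegZero N → DegModL N ℓ → FA_S28_Target_Deg N ℓ`

`ψ(N)` elements of `F ∩ ℤ((q))` with independent reductions are independent over `ℚ[j]`;
as `[F : ℚ(j)] ≤ ψ(N)`, they span.
-/

set_option autoImplicit false
set_option linter.unusedSectionVars false
set_option linter.style.haveILetI false

noncomputable section

namespace Fermat.Agent.S28

open ModularCurve ModularCurve.IgusaScheme Polynomial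

/-- Clearing the denominators of finitely many rational polynomials. -/
theorem FA_S28_dg_clear {m : ℕ} (c : Fin m → ℚ[X]) :
    ∃ (b : ℤ) (C : Fin m → ℤ[X]), b ≠ 0 ∧
      ∀ i, (C i).map (Int.castRingHom ℚ) = Polynomial.C (b : ℚ) * c i := by
  have h : ∀ i, ∃ (bi : ℤ) (Pi : ℤ[X]), bi ≠ 0 ∧
      Pi.map (Int.castRingHom ℚ) = Polynomial.C (bi : ℚ) * c i := by
    intro i
    obtain ⟨b, hbM, hb⟩ := IsLocalization.integerNormalization_spec (nonZeroDivisors ℤ) (c i)
    refine ⟨b, IsLocalization.integerNormalization (nonZeroDivisors ℤ) (c i),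
      nonZeroDivisors.ne_zero hbM, ?_⟩
    have : (algebraMap ℤ ℚ) = Int.castRingHom ℚ := RingHom.ext_int _ _
    rw [this] at hb
    rw [hb, zsmul_eq_mul]
    congr 1
  choose bi Pi hbi hPi using h
  refine ⟨∏ j, bi j, fun i => Polynomial.C (∏ j ∈ Finset.univ.erase i, bi j) * Pi i,
    Finset.prod_ne_zero_iff.mpr fun j _ => hbi j, fun i => ?_⟩
  rw [Polynomial.map_mul, hPi, Polynomial.map_C, ← mul_assoc, ← Polynomial.C_mul]
  congr 2
  rw [eq_intCast, ← Int.cast_mul, mul_comm, Finset.mul_prod_erase _ _ (Finset.mem_univ i)]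

theorem FA_S28_dg_aeval_map (x : LaurentSeries ℚ) (C : ℤ[X]) :
    aeval x (C.map (Int.castRingHom ℚ)) = C.eval₂ (Int.castRingHom (LaurentSeries ℚ)) x := by
  rw [aeval_def, eval₂_map]
  congr 1
  exact RingHom.ext_int _ _

theorem FA_S28_dg_iota_eval (C : ℤ[X]) :
    FA_S28_alg_iota (C.eval₂ (Int.castRingHom (LaurentSeries ℤ)) (jqModC ℤ)) =
      C.eval₂ (Int.castRingHom (LaurentSeries ℚ)) jq := by
  rw [Polynomial.hom_eval₂, FA_S28_alg_iota_jq]
  congr 1
  exact RingHom.ext_int _ _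

theorem FA_S28_dg_red_eval (ℓ : ℕ) (C : ℤ[X]) :
    coeffMap (Int.castRingHom (ZMod ℓ)) (C.eval₂ (Int.castRingHom (LaurentSeries ℤ)) (jqModC ℤ)) =
      aeval (jqModC (ZMod ℓ)) (C.map (Int.castRingHom (ZMod ℓ))) := by
  rw [Polynomial.hom_eval₂, coeffMap_jqModC, aeval_def, eval₂_map]
  congr 1
  exact RingHom.ext_int _ _

section

variable (ℓ : ℕ) [Fact ℓ.Prime] {n : ℕ} (e : Fin n → LaurentSeries ℤ)
  (h2 : ∀ c : Fin n → Polynomial (ZMod ℓ),
      (∑ i, Polynomial.aeval (jqModC (ZMod ℓ)) (c i) *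
          coeffMap (Int.castRingHom (ZMod ℓ)) (e i)) = 0 → ∀ i, c i = 0)

include h2

/-- Independence mod `ℓ` implies independence over `ℤ[j]`. -/
theorem FA_S28_dg_indepZ (C : Fin n → ℤ[X])
    (h : (∑ i, (C i).eval₂ (Int.castRingHom (LaurentSeries ℤ)) (jqModC ℤ) * e i) = 0) :
    ∀ i, C i = 0 := by
  have key : ∀ k : ℕ, ∀ C : Fin n → ℤ[X],
      (∑ i, (C i).eval₂ (Int.castRingHom (LaurentSeries ℤ)) (jqModC ℤ) * e i) = 0 →
      ∀ i₀, (C i₀).leadingCoeff.natAbs = k → C i₀ = 0 := by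
    intro k
    induction k using Nat.strong_induction_on with
    | _ k ih =>
      intro C hC i₀ hk
      by_contra hne
      have hred : (∑ i, aeval (jqModC (ZMod ℓ)) ((C i).map (Int.castRingHom (ZMod ℓ))) *
          coeffMap (Int.castRingHom (ZMod ℓ)) (e i)) = 0 := by
        have := congrArg (coeffMap (Int.castRingHom (ZMod ℓ))) hC
        rw [map_sum, map_zero] at this
        rw [← this]
        refine Finset.sum_congr rfl fun i _ => ?_
        rw [map_mul, FA_S28_dg_red_eval]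
      have hz := h2 _ hred
      choose C' hC' using fun i => FA_S28_alg_pbar_eq_zero ℓ (C i) (hz i)
      have hℓ : (ℓ : ℤ) ≠ 0 := by exact_mod_cast (Fact.out : ℓ.Prime).ne_zero
      have hC'0 : C' i₀ ≠ 0 := by
        intro h0
        apply hne
        rw [hC' i₀, h0, mul_zero]
      have hsum : (∑ i, (C' i).eval₂ (Int.castRingHom (LaurentSeries ℤ)) (jqModC ℤ) * e i) = 0 := by
        have h1 : ((ℓ : ℤ) : LaurentSeries ℤ) *
            (∑ i, (C' i).eval₂ (Int.castRingHom (LaurentSeries ℤ)) (jqModC ℤ) * e i) = 0 := by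
          rw [← hC, Finset.mul_sum]
          refine Finset.sum_congr rfl fun i _ => ?_
          conv_rhs => rw [hC' i]
          rw [eval₂_mul, eval₂_C]
          simp only [eq_intCast]
          ring
        rcases mul_eq_zero.mp h1 with h | h
        · exfalso
          have h3 := congrArg FA_S28_alg_iota h
          rw [map_intCast, map_zero] at h3
          haveI : CharZero (LaurentSeries ℚ) := algebraRat.charZero _
          have h4 : ((ℓ : ℤ) : LaurentSeries ℚ) ≠ 0 := by
            exact_mod_cast (Fact.out : ℓ.Prime).ne_zero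
          exact h4 h3
        · exact h
      have hlt : (C' i₀).leadingCoeff.natAbs < k := by
        rw [← hk, hC' i₀, leadingCoeff_mul, leadingCoeff_C, Int.natAbs_mul, Int.natAbs_natCast]
        have h1 : 0 < (C' i₀).leadingCoeff.natAbs :=
          Int.natAbs_pos.mpr (leadingCoeff_ne_zero.mpr hC'0)
        have h2 : 2 ≤ ℓ := (Fact.out : ℓ.Prime).two_le
        nlinarith
      exact hC'0 (ih _ hlt C' hsum i₀ rfl)
  intro i
  exact key _ C h i rfl

/-- Independence mod `ℓ` implies independence over `ℚ[j]`. -/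
theorem FA_S28_dg_indepQ (c : Fin n → ℚ[X])
    (h : (∑ i, aeval jq (c i) * FA_S28_alg_iota (e i)) = 0) : ∀ i, c i = 0 := by
  obtain ⟨b, C, hb, hC⟩ := FA_S28_dg_clear c
  have hsum : (∑ i, (C i).eval₂ (Int.castRingHom (LaurentSeries ℤ)) (jqModC ℤ) * e i) = 0 := by
    apply FA_S28_alg_iota_injective
    rw [map_sum, map_zero]
    have : (∑ i, FA_S28_alg_iota
        ((C i).eval₂ (Int.castRingHom (LaurentSeries ℤ)) (jqModC ℤ) * e i)) =
        algebraMap ℚ (LaurentSeries ℚ) (b : ℚ) * ∑ i, aeval jq (c i) * FA_S28_alg_iota (e i) := by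
      rw [Finset.mul_sum]
      refine Finset.sum_congr rfl fun i _ => ?_
      rw [map_mul, FA_S28_dg_iota_eval, ← FA_S28_dg_aeval_map, hC, map_mul, aeval_C]
      ring
    rw [this, h, mul_zero]
  have hz := FA_S28_dg_indepZ ℓ e h2 C hsum
  intro i
  have := hC i
  rw [hz i, Polynomial.map_zero] at this
  rcases mul_eq_zero.mp this.symm with h0 | h0
  · exfalso
    rw [Polynomial.C_eq_zero] at h0
    exact hb (by exact_mod_cast h0)
  · exact h0

end

/-- **DEGGLUE**. -/
theorem FA_S28_degGlue (N : ℕ) [NeZero N] (ℓ : ℕ) [Fact ℓ.Prime]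
    (h0 : FA_S28_Target_DegZero N) (hℓ : FA_S28_Target_DegModL N ℓ) :
    FA_S28_Target_Deg N ℓ := by
  obtain ⟨e, h1, h2⟩ := hℓ
  refine ⟨dedekindPsi N, e, h1, h2, ?_⟩
  intro y hy
  -- the family `(e_0, …, e_{ψ-1}, y)` is dependent over `ℚ[j]`
  set v : Fin (dedekindPsi N + 1) → LaurentSeries ℚ :=
    Fin.snoc (fun i => FA_S28_alg_iota (e i)) y with hv
  have hvmem : ∀ i, v i ∈ modularFunctionFieldFull N := by
    intro i
    refine Fin.lastCases ?_ (fun i => ?_) i
    · rw [hv, Fin.snoc_last]; exact hy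
    · rw [hv, Fin.snoc_castSucc]; exact h1 i
  have hdep : ¬ (∀ c : Fin (dedekindPsi N + 1) → Polynomial ℚ,
      (∑ i, Polynomial.aeval jq (c i) * v i) = 0 → ∀ i, c i = 0) := by
    intro hind
    have := h0 _ v hvmem hind
    omega
  simp only [not_forall] at hdep
  obtain ⟨c, hc, i₁, hi₁⟩ := hdep
  rw [Fin.sum_univ_castSucc] at hc
  simp only [hv, Fin.snoc_last, Fin.snoc_castSucc] at hc
  have hlast : c (Fin.last _) ≠ 0 := by
    intro hl
    rw [hl, map_zero, zero_mul, add_zero] at hc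
    have hz := FA_S28_dg_indepQ ℓ e h2 (fun i => c (Fin.castSucc i)) hc
    revert hi₁
    refine Fin.lastCases ?_ (fun i => ?_) i₁
    · exact fun h => h hl
    · exact fun h => h (hz i)
  -- clear denominators
  obtain ⟨b, C, hb, hC⟩ := FA_S28_dg_clear c
  refine ⟨C (Fin.last _), fun i => - C (Fin.castSucc i), ?_, ?_⟩
  · intro h
    have := hC (Fin.last _)
    rw [h, Polynomial.map_zero] at this
    rcases mul_eq_zero.mp this.symm with h0 | h0
    · rw [Polynomial.C_eq_zero] at h0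
      exact hb (by exact_mod_cast h0)
    · exact hlast h0
  · have hC' : ∀ i, aeval jq (C i) = algebraMap ℚ (LaurentSeries ℚ) (b : ℚ) * aeval jq (c i) := by
      intro i
      rw [FA_S28_alg_aeval_int, ← FA_S28_dg_aeval_map, hC, map_mul, aeval_C]
    have hneg : ∀ i, aeval jq (- C i) = - aeval jq (C i) := fun i => map_neg _ _
    simp only [hneg, hC', neg_mul]
    have e1 : (∑ i : Fin (dedekindPsi N), -(algebraMap ℚ (LaurentSeries ℚ) (b : ℚ) *
        aeval jq (c (Fin.castSucc i)) * coeffMap (Int.castRingHom ℚ) (e i))) =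
        -(algebraMap ℚ (LaurentSeries ℚ) (b : ℚ) *
          ∑ i : Fin (dedekindPsi N), aeval jq (c (Fin.castSucc i)) * FA_S28_alg_iota (e i)) := by
      rw [Finset.mul_sum, ← Finset.sum_neg_distrib]
      refine Finset.sum_congr rfl fun i _ => ?_
      rw [mul_assoc]
    rw [e1]
    linear_combination (algebraMap ℚ (LaurentSeries ℚ) (b : ℚ)) * hc
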