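import Mathlib
import Fermat.Agent.S28.Interface

/-!
# S28, leaf IGALG, part 1: `θ = q d/dq` is a derivation of `R((q))`

`FA_S28_ig_theta_mul` (Leibniz), `FA_S28_ig_theta_qExpand` (`θ(f(q^p)) = p · (θ f)(q^p)`),
`FA_S28_ig_theta_coeffMap`, `FA_S28_ig_theta_inv`.
-/

set_option autoImplicit false

noncomputable section

namespace Fermat.Agent.S28

open ModularCurve

variable {R : Type} [CommRing R]

theorem FA_S28_ig_theta_support (f : LaurentSeries R) :
    (FA_S28_theta f).support ⊆ f.support := by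
  intro n hn
  rw [HahnSeries.mem_support] at hn ⊢
  intro h0
  apply hn
  rw [FA_S28_theta_coeff, h0, mul_zero]

theorem FA_S28_ig_theta_zero : FA_S28_theta (0 : LaurentSeries R) = 0 := by
  ext n
  rw [FA_S28_theta_coeff]
  simp

theorem FA_S28_ig_theta_add (f g : LaurentSeries R) :
    FA_S28_theta (f + g) = FA_S28_theta f + FA_S28_theta g := by
  ext n
  rw [HahnSeries.coeff_add, FA_S28_theta_coeff, FA_S28_theta_coeff, FA_S28_theta_coeff,
    HahnSeries.coeff_add, mul_add]

theorem FA_S28_ig_theta_neg (f : LaurentSeries R) :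
    FA_S28_theta (-f) = -FA_S28_theta f := by
  ext n
  rw [HahnSeries.coeff_neg, FA_S28_theta_coeff, FA_S28_theta_coeff, HahnSeries.coeff_neg, mul_neg]

theorem FA_S28_ig_theta_sub (f g : LaurentSeries R) :
    FA_S28_theta (f - g) = FA_S28_theta f - FA_S28_theta g := by
  rw [sub_eq_add_neg, FA_S28_ig_theta_add, FA_S28_ig_theta_neg, ← sub_eq_add_neg]

/-- **Leibniz rule**. -/
theorem FA_S28_ig_theta_mul (f g : LaurentSeries R) :
    FA_S28_theta (f * g) = FA_S28_theta f * g + f * FA_S28_theta g := by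
  ext n
  rw [HahnSeries.coeff_add, FA_S28_theta_coeff, HahnSeries.coeff_mul,
    HahnSeries.coeff_mul_left' f.isPWO_support (FA_S28_ig_theta_support f),
    HahnSeries.coeff_mul_right' g.isPWO_support (FA_S28_ig_theta_support g),
    Finset.mul_sum, ← Finset.sum_add_distrib]
  refine Finset.sum_congr rfl fun ij hij => ?_
  rw [Finset.mem_antidiagonal] at hij
  rw [FA_S28_theta_coeff, FA_S28_theta_coeff, ← hij.2.2]
  push_cast
  ring

theorem FA_S28_ig_theta_single_zero (r : R) :
    FA_S28_theta (HahnSeries.single (0 : ℤ) r) = 0 := by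
  ext n
  rw [FA_S28_theta_coeff, HahnSeries.coeff_zero]
  rcases eq_or_ne n 0 with rfl | hn
  · simp
  · rw [HahnSeries.coeff_single_of_ne hn, mul_zero]

theorem FA_S28_ig_theta_one : FA_S28_theta (1 : LaurentSeries R) = 0 :=
  FA_S28_ig_theta_single_zero 1

theorem FA_S28_ig_theta_pow (f : LaurentSeries R) (n : ℕ) :
    FA_S28_theta (f ^ (n + 1)) = ((n + 1 : ℕ) : LaurentSeries R) * f ^ n * FA_S28_theta f := by
  induction n with
  | zero => simp
  | succ n ih =>
    rw [pow_succ, FA_S28_ig_theta_mul, ih]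
    push_cast
    ring

/-- `θ (f(q^p)) = p · (θ f)(q^p)`. -/
theorem FA_S28_ig_theta_qExpand (p : ℕ) [NeZero p] (f : LaurentSeries R) :
    FA_S28_theta (qExpand R p f)
      = HahnSeries.single (0 : ℤ) (p : R) * qExpand R p (FA_S28_theta f) := by
  ext n
  rw [FA_S28_theta_coeff, HahnSeries.coeff_single_mul, sub_zero]
  by_cases hn : (p : ℤ) ∣ n
  · obtain ⟨m, rfl⟩ := hn
    rw [qExpand_coeff_mul, qExpand_coeff_mul, FA_S28_theta_coeff]
    push_cast
    ring
  · rw [qExpand_coeff_of_not_dvd p f hn, qExpand_coeff_of_not_dvd p _ hn, mul_zero, mul_zero]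

theorem FA_S28_ig_theta_coeffMap {S : Type} [CommRing S] (φ : R →+* S) (f : LaurentSeries R) :
    FA_S28_theta (coeffMap φ f) = coeffMap φ (FA_S28_theta f) := by
  ext n
  rw [FA_S28_theta_coeff, coeffMap_coeff, coeffMap_coeff, FA_S28_theta_coeff, map_mul,
    map_intCast]

theorem FA_S28_ig_coeffMap_delta {S : Type} [CommRing S] (φ : R →+* S) :
    coeffMap φ (FA_S28_delta R) = FA_S28_delta S := by
  rw [FA_S28_delta, map_mul, coeffMap_single, map_one, coeffMap_ofPowerSeries, FA_S28_delta]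
  congr 2
  ext n
  simp

/-- `θ (x⁻¹) = - θ x · x⁻¹ ^ 2` over a field. -/
theorem FA_S28_ig_theta_inv {k : Type} [Field k] (x : LaurentSeries k) (hx : x ≠ 0) :
    FA_S28_theta x⁻¹ = -(FA_S28_theta x * x⁻¹ ^ 2) := by
  have h := FA_S28_ig_theta_mul x x⁻¹
  rw [mul_inv_cancel₀ hx, FA_S28_ig_theta_one] at h
  have h2 : x * FA_S28_theta x⁻¹ = -(FA_S28_theta x * x⁻¹) := by
    linear_combination -h
  apply mul_left_cancel₀ hx
  rw [h2]
  field_simp

end Fermat.Agent.S28
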