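import Mathlib
import Fermat.Agent.S24.CD
import Fermat.Agent.S24.CEta

/-!
# S28, leaf THETA (analytic part): the power series identity
`(X N' - N)^6 = N^4 (N - 1728 X)^3 U` in `ℤ⟦X⟧`, `N = jNum`, `U = dedekindEtaUnit`

From `D j · Δ = c E₄² E₆` (S24 layer C), `E₄³ - E₆² = 1728 Δ` (Mathlib) and
`qExpansion (D f) = X · d/dX (qExpansion f)`.
-/

set_option autoImplicit false

noncomputable section

open UpperHalfPlane hiding I
open ModularForm EisensteinSeries Complex MatrixGroups Filter Derivative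
open scoped Manifold Topology Real Derivative

namespace Fermat.Agent.S28

open Fermat.Agent.S24

local notation "Δ" => ModularForm.discriminant
local notation "𝕢" => Function.Periodic.qParam

/-- The cusp function of `D f` is `q ↦ q · F'(q)` near `0`. -/
theorem FA_S28_th_cusp_D {f : ℍ → ℂ} (hper : Function.Periodic (f ∘ ofComplex) 1)
    (hhol : MDiff f) (hbdd : IsBoundedAtImInfty f) :
    cuspFunction 1 (D f) =ᶠ[𝓝 0] fun q => q * deriv (cuspFunction 1 f) q := by
  filter_upwards [Metric.ball_mem_nhds (0 : ℂ) one_pos] with q hq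
  have hq1 : ‖q‖ < 1 := by simpa using hq
  by_cases hq0 : q = 0
  · subst hq0
    rw [zero_mul]
    have hz : IsZeroAtImInfty (D f) := FA_S24_D_tendsto_zero hper hhol hbdd
    exact Function.Periodic.cuspFunction_zero_of_zero_at_inf one_pos hz.zero_at_infty_comp_ofComplex
  · have him : 0 < (Function.Periodic.invQParam 1 q).im :=
      Function.Periodic.im_invQParam_pos_of_norm_lt_one one_pos hq1 hq0
    have h1 : cuspFunction 1 (D f) q = (D f ∘ ofComplex) (Function.Periodic.invQParam 1 q) :=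
      Function.Periodic.cuspFunction_eq_of_nonzero 1 _ hq0
    rw [h1, Function.comp_apply, ofComplex_apply_of_im_pos him,
      FA_S24_D_eq_q_mul_deriv hper hhol hbdd]
    have h2 : 𝕢 1 ((⟨Function.Periodic.invQParam 1 q, him⟩ : ℍ) : ℂ) = q :=
      Function.Periodic.qParam_right_inv one_ne_zero hq0
    rw [h2]

theorem FA_S28_th_taylor_deriv {g : ℂ → ℂ} :
    FA_S24_taylor (deriv g) = PowerSeries.derivative ℂ (FA_S24_taylor g) := by
  ext m
  rw [FA_S24_taylor_coeff, PowerSeries.coeff_derivative, FA_S24_taylor_coeff,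
    ← iteratedDeriv_succ', Nat.factorial_succ]
  have hm : (m.factorial : ℂ) ≠ 0 := by exact_mod_cast Nat.factorial_ne_zero m
  have hm1 : ((m : ℂ) + 1) ≠ 0 := by exact_mod_cast Nat.succ_ne_zero m
  push_cast
  field_simp

/-- `q`-expansion of `D f`: `θ = X · d/dX`. -/
theorem FA_S28_th_qExpansion_D {f : ℍ → ℂ} (hper : Function.Periodic (f ∘ ofComplex) 1)
    (hhol : MDiff f) (hbdd : IsBoundedAtImInfty f) :
    qExpansion 1 (D f) = PowerSeries.X * PowerSeries.derivative ℂ (qExpansion 1 f) := by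
  have han : AnalyticAt ℂ (cuspFunction 1 f) 0 :=
    analyticAt_cuspFunction_zero one_pos hper hhol hbdd
  have h1 : qExpansion 1 (D f) = FA_S24_taylor (cuspFunction 1 (D f)) := rfl
  have h2 : qExpansion 1 f = FA_S24_taylor (cuspFunction 1 f) := rfl
  have h3 : (fun q : ℂ => q * deriv (cuspFunction 1 f) q)
      = (fun q : ℂ => q) * deriv (cuspFunction 1 f) := rfl
  have hid : AnalyticAt ℂ (fun q : ℂ => q) 0 := analyticAt_id
  rw [h1, FA_S24_taylor_congr (FA_S28_th_cusp_D hper hhol hbdd), h3,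
    FA_S24_taylor_mul hid han.deriv, FA_S24_taylor_id, FA_S28_th_taylor_deriv, ← h2]

/-- The cusp function of `D f` is analytic at `0`. -/
theorem FA_S28_th_analytic_D {f : ℍ → ℂ} (hper : Function.Periodic (f ∘ ofComplex) 1)
    (hhol : MDiff f) (hbdd : IsBoundedAtImInfty f) :
    AnalyticAt ℂ (cuspFunction 1 (D f)) 0 := by
  have han : AnalyticAt ℂ (cuspFunction 1 f) 0 :=
    analyticAt_cuspFunction_zero one_pos hper hhol hbdd
  have hid : AnalyticAt ℂ (fun q : ℂ => q) 0 := analyticAt_id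
  have h : AnalyticAt ℂ (fun q : ℂ => q * deriv (cuspFunction 1 f) q) 0 :=
    hid.mul han.deriv
  exact h.congr (FA_S28_th_cusp_D hper hhol hbdd).symm


/-! ### Analyticity of cusp functions -/

/-- the cusp function of `f` is analytic at `0`. -/
def FA_S28_th_An (f : ℍ → ℂ) : Prop := AnalyticAt ℂ (cuspFunction 1 f) 0

theorem FA_S28_th_An_mul {f g : ℍ → ℂ} (hf : FA_S28_th_An f) (hg : FA_S28_th_An g) :
    FA_S28_th_An (f * g) := by
  unfold FA_S28_th_An at *
  rw [cuspFunction_mul hf.continuousAt hg.continuousAt]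
  exact hf.mul hg

theorem FA_S28_th_An_sub {f g : ℍ → ℂ} (hf : FA_S28_th_An f) (hg : FA_S28_th_An g) :
    FA_S28_th_An (f - g) := by
  unfold FA_S28_th_An at *
  rw [cuspFunction_sub hf.continuousAt hg.continuousAt]
  exact hf.sub hg

theorem FA_S28_th_An_smul {f : ℍ → ℂ} (hf : FA_S28_th_An f) (c : ℂ) :
    FA_S28_th_An (c • f) := by
  unfold FA_S28_th_An at *
  rw [cuspFunction_smul hf.continuousAt]
  exact hf.const_smul

theorem FA_S28_th_An_one : FA_S28_th_An (1 : ℍ → ℂ) := by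
  unfold FA_S28_th_An
  have h1 : cuspFunction 1 (1 : ℍ → ℂ) = 1 := by
    ext q
    rcases eq_or_ne q 0 with rfl | hq
    · simpa [cuspFunction, Function.Periodic.cuspFunction] using! tendsto_const_nhds.limUnder_eq
    · simp [cuspFunction, Function.Periodic.cuspFunction, hq]
  rw [h1]
  exact analyticAt_const

theorem FA_S28_th_An_pow {f : ℍ → ℂ} (hf : FA_S28_th_An f) (n : ℕ) :
    FA_S28_th_An (f ^ n) := by
  induction n with
  | zero => rw [pow_zero]; exact FA_S28_th_An_one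
  | succ n ih => rw [pow_succ]; exact FA_S28_th_An_mul ih hf

theorem FA_S28_th_qExp_pow {f : ℍ → ℂ} (hf : FA_S28_th_An f) (n : ℕ) :
    qExpansion 1 (f ^ n) = qExpansion 1 f ^ n := by
  induction n with
  | zero => rw [pow_zero, pow_zero]; exact qExpansion_one 1
  | succ n ih =>
    rw [pow_succ, pow_succ, qExpansion_mul (FA_S28_th_An_pow hf n) hf, ih]

theorem FA_S28_th_An_modform {k : ℤ} (f : ModularForm 𝒮ℒ k) : FA_S28_th_An (f : ℍ → ℂ) :=
  ModularFormClass.analyticAt_cuspFunction_zero f one_pos one_mem_strictPeriods_SL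

theorem FA_S28_th_An_disc : FA_S28_th_An Δ :=
  ModularFormClass.analyticAt_cuspFunction_zero CuspForm.discriminant one_pos
    one_mem_strictPeriods_SL

theorem FA_S28_th_An_D {f : ℍ → ℂ} (hper : Function.Periodic (f ∘ ofComplex) 1)
    (hhol : MDiff f) (hbdd : IsBoundedAtImInfty f) : FA_S28_th_An (D f) :=
  FA_S28_th_analytic_D hper hhol hbdd

/-! ### The function identity -/

theorem FA_S28_th_fun_identity : ∃ c : ℂ,
    D ((E₄ : ℍ → ℂ) ^ 3) * Δ - (E₄ : ℍ → ℂ) ^ 3 * D Δ
      = c • ((E₄ : ℍ → ℂ) ^ 2 * (E₆ : ℍ → ℂ) * Δ) := by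
  obtain ⟨c, hc⟩ := FA_S24_exists_D_j
  refine ⟨c, ?_⟩
  funext z
  have hΔ := discriminant_ne_zero z
  have hprod : FA_S24_j * Δ = (E₄ : ℍ → ℂ) ^ 3 := by
    funext w
    simp only [Pi.mul_apply, Pi.pow_apply, FA_S24_j]
    field_simp [discriminant_ne_zero w]
  have h1 := congrFun (normalizedDerivOfComplex_mul FA_S24_j Δ FA_S24_j_mdiff
    CuspForm.discriminant.holo') z
  rw [hprod] at h1
  simp only [Pi.mul_apply, Pi.add_apply] at h1
  have hj : FA_S24_j z * Δ z = E₄ z ^ 3 := by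
    have := congrFun hprod z
    simpa using this
  simp only [Pi.sub_apply, Pi.mul_apply, Pi.smul_apply, Pi.pow_apply, smul_eq_mul]
  rw [h1]
  have h2 := hc z
  linear_combination (Δ z) * h2 + (D Δ z) * hj


/-! ### The power series identity over `ℂ` -/

theorem FA_S28_th_E4cube_good :
    Function.Periodic (((E₄ : ℍ → ℂ) ^ 3) ∘ ofComplex) 1 ∧ MDiff ((E₄ : ℍ → ℂ) ^ 3) ∧
      IsBoundedAtImInfty ((E₄ : ℍ → ℂ) ^ 3) := by
  have hA : (((E₄.mul E₄).mul E₄ : ModularForm 𝒮ℒ (4 + 4 + 4)) : ℍ → ℂ) = (E₄ : ℍ → ℂ) ^ 3 := by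
    funext z
    simp only [ModularForm.coe_mul, Pi.mul_apply, Pi.pow_apply]
    ring
  rw [← hA]
  exact ⟨SlashInvariantFormClass.periodic_comp_ofComplex _ one_mem_strictPeriods_SL,
    ((E₄.mul E₄).mul E₄).holo', ModularFormClass.bdd_at_infty _⟩

theorem FA_S28_th_disc_good :
    Function.Periodic ((Δ : ℍ → ℂ) ∘ ofComplex) 1 ∧ MDiff (Δ : ℍ → ℂ) ∧
      IsBoundedAtImInfty (Δ : ℍ → ℂ) :=
  ⟨SlashInvariantFormClass.periodic_comp_ofComplex CuspForm.discriminant one_mem_strictPeriods_SL,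
    CuspForm.discriminant.holo', ModularFormClass.bdd_at_infty CuspForm.discriminant⟩

theorem FA_S28_th_ps_identity : ∃ c : ℂ,
    (PowerSeries.X * PowerSeries.derivative ℂ (qExpansion 1 E₄ ^ 3)) * qExpansion 1 Δ
        - qExpansion 1 E₄ ^ 3 * (PowerSeries.X * PowerSeries.derivative ℂ (qExpansion 1 Δ))
      = c • (qExpansion 1 E₄ ^ 2 * qExpansion 1 E₆ * qExpansion 1 Δ) := by
  obtain ⟨c, hc⟩ := FA_S28_th_fun_identity
  refine ⟨c, ?_⟩
  obtain ⟨hp4, hh4, hb4⟩ := FA_S28_th_E4cube_good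
  obtain ⟨hpd, hhd, hbd⟩ := FA_S28_th_disc_good
  have a4 : FA_S28_th_An (E₄ : ℍ → ℂ) := FA_S28_th_An_modform E₄
  have a6 : FA_S28_th_An (E₆ : ℍ → ℂ) := FA_S28_th_An_modform E₆
  have ad : FA_S28_th_An Δ := FA_S28_th_An_disc
  have aD4 : FA_S28_th_An (D ((E₄ : ℍ → ℂ) ^ 3)) := FA_S28_th_An_D hp4 hh4 hb4
  have aDd : FA_S28_th_An (D Δ) := FA_S28_th_An_D hpd hhd hbd
  have a43 : FA_S28_th_An ((E₄ : ℍ → ℂ) ^ 3) := FA_S28_th_An_pow a4 3
  have a42 : FA_S28_th_An ((E₄ : ℍ → ℂ) ^ 2) := FA_S28_th_An_pow a4 2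
  have h := congrArg (qExpansion 1) hc
  rw [qExpansion_sub (FA_S28_th_An_mul aD4 ad) (FA_S28_th_An_mul a43 aDd),
    qExpansion_mul aD4 ad, qExpansion_mul a43 aDd,
    qExpansion_smul (FA_S28_th_An_mul (FA_S28_th_An_mul a42 a6) ad),
    qExpansion_mul (FA_S28_th_An_mul a42 a6) ad, qExpansion_mul a42 a6,
    FA_S28_th_qExpansion_D hp4 hh4 hb4, FA_S28_th_qExpansion_D hpd hhd hbd,
    FA_S28_th_qExp_pow a4 3, FA_S28_th_qExp_pow a4 2] at h
  exact h

theorem FA_S28_th_ps_E4E6 :
    qExpansion 1 E₄ ^ 3 - qExpansion 1 E₆ ^ 2 = (1728 : ℂ) • qExpansion 1 Δ := by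
  have a4 : FA_S28_th_An (E₄ : ℍ → ℂ) := FA_S28_th_An_modform E₄
  have a6 : FA_S28_th_An (E₆ : ℍ → ℂ) := FA_S28_th_An_modform E₆
  have ad : FA_S28_th_An Δ := FA_S28_th_An_disc
  have hfun : (E₄ : ℍ → ℂ) ^ 3 - (E₆ : ℍ → ℂ) ^ 2 = (1728 : ℂ) • (Δ : ℍ → ℂ) := by
    funext z
    have h := discriminant_eq_E₄_cube_sub_E₆_sq z
    simp only [Pi.sub_apply, Pi.pow_apply, Pi.smul_apply, smul_eq_mul]
    rw [h]
    ring
  have h := congrArg (qExpansion 1) hfun
  rw [qExpansion_sub (FA_S28_th_An_pow a4 3) (FA_S28_th_An_pow a6 2), qExpansion_smul ad,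
    FA_S28_th_qExp_pow a4 3, FA_S28_th_qExp_pow a6 2] at h
  exact h


/-! ### Power series algebra -/

theorem FA_S28_th_alg_C (E e6 U V N : PowerSeries ℂ) (c : ℂ)
    (hUV : U * V = 1) (hN : N = E ^ 3 * V)
    (hI : (PowerSeries.X * PowerSeries.derivative ℂ (E ^ 3)) * (PowerSeries.X * U)
        - E ^ 3 * (PowerSeries.X * PowerSeries.derivative ℂ (PowerSeries.X * U))
      = c • (E ^ 2 * e6 * (PowerSeries.X * U)))
    (hB : E ^ 3 - e6 ^ 2 = (1728 : ℂ) • (PowerSeries.X * U))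
    (hE0 : PowerSeries.constantCoeff E = 1) (h60 : PowerSeries.constantCoeff e6 = 1)
    (hU0 : PowerSeries.constantCoeff U = 1) :
    (PowerSeries.X * PowerSeries.derivative ℂ N - N) ^ 6
      = N ^ 4 * (N - 1728 * PowerSeries.X) ^ 3 * U := by
  have hNU : N * U = E ^ 3 := by
    rw [hN, mul_assoc, mul_comm V U, hUV, mul_one]
  have hV0 : PowerSeries.constantCoeff V = 1 := by
    have := congrArg PowerSeries.constantCoeff hUV
    rwa [map_mul, hU0, one_mul, map_one] at this
  have hN0 : PowerSeries.constantCoeff N = 1 := by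
    rw [hN, map_mul, map_pow, hE0, hV0, one_pow, one_mul]
  have hUne : U ≠ 0 := by
    intro h
    rw [h, map_zero] at hU0
    exact zero_ne_one hU0
  have hXU : (PowerSeries.X : PowerSeries ℂ) * U ≠ 0 := mul_ne_zero PowerSeries.X_ne_zero hUne
  set N' := PowerSeries.derivative ℂ N with hN'
  set U' := PowerSeries.derivative ℂ U with hU'
  have hd1 : PowerSeries.derivative ℂ (E ^ 3) = N * U' + U * N' := by
    rw [← hNU, Derivation.leibniz, smul_eq_mul, smul_eq_mul]
  have hd2 : PowerSeries.derivative ℂ (PowerSeries.X * U) = PowerSeries.X * U' + U := by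
    rw [Derivation.leibniz, PowerSeries.derivative_X, smul_eq_mul, smul_eq_mul, mul_one]
  rw [hd1, hd2, ← hNU] at hI
  have hsm : c • (E ^ 2 * e6 * (PowerSeries.X * U))
      = (PowerSeries.X * U) * (PowerSeries.C c * (E ^ 2 * e6)) := by
    rw [PowerSeries.smul_eq_C_mul]
    ring
  have hA : U * (PowerSeries.X * N' - N) = PowerSeries.C c * (E ^ 2 * e6) := by
    apply mul_left_cancel₀ hXU
    rw [← hsm, ← hI]
    ring
  have hc : c = -1 := by
    have h := congrArg PowerSeries.constantCoeff hA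
    simp only [map_mul, map_sub, map_pow, PowerSeries.constantCoeff_X, zero_mul, hU0, hN0, hE0,
      h60, PowerSeries.constantCoeff_C, one_pow, mul_one, one_mul, zero_sub] at h
    exact h.symm
  rw [hc] at hA
  have hB' : e6 ^ 2 = E ^ 3 - 1728 * (PowerSeries.X * U) := by
    have h1728 : (1728 : ℂ) • (PowerSeries.X * U) = 1728 * (PowerSeries.X * U) := by
      rw [PowerSeries.smul_eq_C_mul, map_ofNat (PowerSeries.C (R := ℂ)) 1728]
    rw [h1728] at hB
    linear_combination -hB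
  apply mul_left_cancel₀ (pow_ne_zero 6 hUne)
  have h1 : U ^ 6 * (PowerSeries.X * N' - N) ^ 6 = (E ^ 2 * e6) ^ 6 := by
    rw [← mul_pow, hA]
    simp only [map_neg, map_one]
    ring
  have h2 : (E ^ 2 * e6) ^ 6 = (E ^ 3) ^ 4 * (e6 ^ 2) ^ 3 := by ring
  rw [h1, h2, hB', ← hNU]
  ring


/-! ### The identity over `ℂ` and over `ℤ` -/

theorem FA_S28_th_constantCoeff_map (p : PowerSeries ℤ) :
    PowerSeries.constantCoeff (PowerSeries.map (Int.castRingHom ℂ) p)
      = ((PowerSeries.constantCoeff p : ℤ) : ℂ) := by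
  rw [← PowerSeries.coeff_zero_eq_constantCoeff_apply, PowerSeries.coeff_map,
    PowerSeries.coeff_zero_eq_constantCoeff_apply]
  rfl

theorem FA_S28_th_map_derivative (p : PowerSeries ℤ) :
    PowerSeries.map (Int.castRingHom ℂ) (PowerSeries.derivative ℤ p)
      = PowerSeries.derivative ℂ (PowerSeries.map (Int.castRingHom ℂ) p) := by
  ext n
  rw [PowerSeries.coeff_map, PowerSeries.coeff_derivative, PowerSeries.coeff_derivative,
    PowerSeries.coeff_map]
  simp

theorem FA_S28_th_map_injective :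
    Function.Injective (PowerSeries.map (Int.castRingHom ℂ)) := by
  intro p q h
  ext n
  have h1 := congrArg (PowerSeries.coeff n) h
  rw [PowerSeries.coeff_map, PowerSeries.coeff_map] at h1
  exact Int.cast_injective h1

theorem FA_S28_th_C :
    (PowerSeries.X * PowerSeries.derivative ℂ (PowerSeries.map (Int.castRingHom ℂ) ModularCurve.jNum)
        - PowerSeries.map (Int.castRingHom ℂ) ModularCurve.jNum) ^ 6
      = PowerSeries.map (Int.castRingHom ℂ) ModularCurve.jNum ^ 4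
        * (PowerSeries.map (Int.castRingHom ℂ) ModularCurve.jNum - 1728 * PowerSeries.X) ^ 3
        * PowerSeries.map (Int.castRingHom ℂ) ModularCurve.dedekindEtaUnit := by
  obtain ⟨c, hc⟩ := FA_S28_th_ps_identity
  have hB := FA_S28_th_ps_E4E6
  have hd : qExpansion 1 Δ
      = PowerSeries.X * PowerSeries.map (Int.castRingHom ℂ) ModularCurve.dedekindEtaUnit := by
    rw [FA_S24_qExpansion_disc, map_mul, PowerSeries.map_X]
    rfl
  rw [FA_S24_qExpansion_E4, hd] at hc hB
  refine FA_S28_th_alg_C (PowerSeries.map (Int.castRingHom ℂ) ModularCurve.eisenstein4)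
    (qExpansion 1 E₆) (PowerSeries.map (Int.castRingHom ℂ) ModularCurve.dedekindEtaUnit)
    (PowerSeries.map (Int.castRingHom ℂ) ModularCurve.dedekindEtaUnitInv)
    (PowerSeries.map (Int.castRingHom ℂ) ModularCurve.jNum) c ?_ ?_ hc hB ?_ ?_ ?_
  · rw [← map_mul, ModularCurve.dedekindEtaUnit_mul_inv, map_one]
  · rw [ModularCurve.jNum, map_mul, map_pow]
  · rw [FA_S28_th_constantCoeff_map, ModularCurve.constantCoeff_eisenstein4, Int.cast_one]
  · rw [← PowerSeries.coeff_zero_eq_constantCoeff_apply]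
    exact E_qExpansion_coeff_zero _ ⟨3, rfl⟩
  · rw [FA_S28_th_constantCoeff_map, ModularCurve.constantCoeff_dedekindEtaUnit, Int.cast_one]

/-- **The power series form of THETA** over `ℤ`. -/
theorem FA_S28_th_Z :
    (PowerSeries.X * PowerSeries.derivative ℤ ModularCurve.jNum - ModularCurve.jNum) ^ 6
      = ModularCurve.jNum ^ 4 * (ModularCurve.jNum - 1728 * PowerSeries.X) ^ 3
        * ModularCurve.dedekindEtaUnit := by
  apply FA_S28_th_map_injective
  have h := FA_S28_th_C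
  rw [map_pow, map_sub, map_mul, PowerSeries.map_X, FA_S28_th_map_derivative, map_mul, map_mul,
    map_pow, map_pow, map_sub, map_mul, PowerSeries.map_X, map_ofNat]
  exact h

end Fermat.Agent.S28
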