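import Mathlib
import Fermat.Agent.S28.Interface
import Fermat.Agent.S28.ThetaAn

/-!
# S28, leaf THETA: `(θ j)^6 = j^4 (j - 1728)^3 Δ` in `ℤ((q))`

The power series identity `FA_S28_th_Z` (S28/ThetaAn.lean, from the analytic identities
`D j · Δ = - E₄² E₆`, `E₄³ - E₆² = 1728 Δ`) transported to Laurent series.
-/

set_option autoImplicit false

noncomputable section

namespace Fermat.Agent.S28

open ModularCurve

/-- coefficients of `X · f'`. -/
theorem FA_S28_theta_ps_coeff {R : Type} [CommRing R] (f : PowerSeries R) (m : ℕ) :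
    PowerSeries.coeff m (PowerSeries.X * PowerSeries.derivative R f)
      = (m : R) * PowerSeries.coeff m f := by
  cases m with
  | zero => simp
  | succ k =>
    rw [PowerSeries.coeff_succ_X_mul, PowerSeries.coeff_derivative]
    push_cast
    ring

/-- `θ (q⁻¹ · f) = q⁻¹ · (X f' - f)` for a power series `f`. -/
theorem FA_S28_theta_single_mul {R : Type} [CommRing R] (f : PowerSeries R) :
    FA_S28_theta (HahnSeries.single (-1 : ℤ) (1 : R) * HahnSeries.ofPowerSeries ℤ R f)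
      = HahnSeries.single (-1 : ℤ) (1 : R) *
          HahnSeries.ofPowerSeries ℤ R (PowerSeries.X * PowerSeries.derivative R f - f) := by
  ext n
  rw [FA_S28_theta_coeff, HahnSeries.coeff_single_mul, HahnSeries.coeff_single_mul, one_mul,
    one_mul, sub_neg_eq_add]
  rcases lt_or_ge (n + 1) 0 with h | h
  · rw [ofPowerSeries_coeff_of_neg _ h, ofPowerSeries_coeff_of_neg _ h, mul_zero]
  · obtain ⟨m, hm⟩ := Int.eq_ofNat_of_zero_le h
    rw [hm, HahnSeries.ofPowerSeries_apply_coeff, HahnSeries.ofPowerSeries_apply_coeff, map_sub,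
      FA_S28_theta_ps_coeff]
    have hn : (n : R) = (m : R) - 1 := by
      have : n = (m : ℤ) - 1 := by omega
      rw [this]
      push_cast
      ring
    rw [hn]
    ring

theorem FA_S28_theta_map_id (f : PowerSeries ℤ) :
    PowerSeries.map (Int.castRingHom ℤ) f = f := by
  ext n
  rw [PowerSeries.coeff_map]
  rfl

/-- **THETA**. -/
theorem FA_S28_theta_main : FA_S28_Target_THETA := by
  unfold FA_S28_Target_THETA
  have hj : jqModC ℤ = HahnSeries.single (-1 : ℤ) (1 : ℤ) * HahnSeries.ofPowerSeries ℤ ℤ jNum := by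
    rw [jqModC, FA_S28_theta_map_id]
  have hd : FA_S28_delta ℤ
      = HahnSeries.single (1 : ℤ) (1 : ℤ) * HahnSeries.ofPowerSeries ℤ ℤ dedekindEtaUnit := by
    rw [FA_S28_delta, FA_S28_theta_map_id]
  rw [hj, hd, FA_S28_theta_single_mul]
  have hst : HahnSeries.single (-1 : ℤ) (1 : ℤ) * HahnSeries.single (1 : ℤ) (1 : ℤ) = 1 := by
    rw [HahnSeries.single_mul_single]
    simp
  have hX : HahnSeries.ofPowerSeries ℤ ℤ (PowerSeries.X : PowerSeries ℤ)
      = HahnSeries.single (1 : ℤ) (1 : ℤ) := HahnSeries.ofPowerSeries_X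
  have hPS0 := congrArg (HahnSeries.ofPowerSeries ℤ ℤ) FA_S28_th_Z
  have e1 : HahnSeries.ofPowerSeries ℤ ℤ
      ((PowerSeries.X * PowerSeries.derivative ℤ jNum - jNum) ^ 6)
      = HahnSeries.ofPowerSeries ℤ ℤ (PowerSeries.X * PowerSeries.derivative ℤ jNum - jNum) ^ 6 :=
    map_pow _ _ _
  have e3 : HahnSeries.ofPowerSeries ℤ ℤ (1728 : PowerSeries ℤ) = 1728 :=
    map_ofNat (HahnSeries.ofPowerSeries ℤ ℤ) 1728
  have e2 : HahnSeries.ofPowerSeries ℤ ℤ
      (jNum ^ 4 * (jNum - 1728 * PowerSeries.X) ^ 3 * dedekindEtaUnit)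
      = HahnSeries.ofPowerSeries ℤ ℤ jNum ^ 4
        * (HahnSeries.ofPowerSeries ℤ ℤ jNum - 1728 * HahnSeries.single (1 : ℤ) (1 : ℤ)) ^ 3
        * HahnSeries.ofPowerSeries ℤ ℤ dedekindEtaUnit := by
    rw [map_mul, map_mul, map_pow, map_pow, map_sub, map_mul, hX, e3]
  have hPS := e1.symm.trans (hPS0.trans e2)
  clear hPS0 e1 e2 e3 hX
  generalize HahnSeries.ofPowerSeries ℤ ℤ
    (PowerSeries.X * PowerSeries.derivative ℤ jNum - jNum) = m at hPS ⊢
  generalize HahnSeries.ofPowerSeries ℤ ℤ jNum = n at hPS ⊢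
  generalize HahnSeries.ofPowerSeries ℤ ℤ dedekindEtaUnit = u at hPS ⊢
  generalize HahnSeries.single (-1 : ℤ) (1 : ℤ) = s at hst hPS ⊢
  generalize HahnSeries.single (1 : ℤ) (1 : ℤ) = t at hst hPS ⊢
  have h1 : s * n - 1728 = s * (n - 1728 * t) := by
    linear_combination (1728 : LaurentSeries ℤ) * hst
  have h2 : s ^ 7 * t = s ^ 6 := by
    linear_combination s ^ 6 * hst
  rw [h1]
  linear_combination s ^ 6 * hPS - n ^ 4 * (n - 1728 * t) ^ 3 * u * h2

end Fermat.Agent.S28
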