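import Mathlib
import Fermat.Agent.S28.Interface
import Fermat.Agent.S28.Theta
import Fermat.Agent.S28.IgTheta

/-!
# S28, leaf IGALG: THETA + UNIT ⟹ IG (the `Δ`-unit argument)

If `j̄(q^p) = R(j̄)` then applying `θ = q d/dq` and `(θ j)^6 = j^4 (j - 1728)^3 Δ` gives
`Δ̄(q^p)/Δ̄(q) ∈ k(j̄)` (for `p ≠ 0` in `k`), contradicting UNIT.
-/

set_option autoImplicit false

noncomputable section

namespace Fermat.Agent.S28

open ModularCurve

/-- chain rule: `θ` maps `k(x)` into `k(x) · θ x`. -/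
theorem FA_S28_ig_chain {k : Type} [Field k] (x : LaurentSeries k) {f : LaurentSeries k}
    (hf : f ∈ IntermediateField.adjoin k {x}) :
    ∃ y ∈ IntermediateField.adjoin k {x}, FA_S28_theta f = y * FA_S28_theta x := by
  induction hf using IntermediateField.adjoin_induction with
  | mem z hz =>
    rw [Set.mem_singleton_iff] at hz
    subst hz
    exact ⟨1, one_mem _, (one_mul _).symm⟩
  | algebraMap c =>
    refine ⟨0, zero_mem _, ?_⟩
    rw [algebraMap_laurentSeries_eq_single, FA_S28_ig_theta_single_zero, zero_mul]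
  | add a b ha hb iha ihb =>
    obtain ⟨ya, hya, ea⟩ := iha
    obtain ⟨yb, hyb, eb⟩ := ihb
    refine ⟨ya + yb, add_mem hya hyb, ?_⟩
    rw [FA_S28_ig_theta_add, ea, eb, add_mul]
  | inv a ha iha =>
    obtain ⟨ya, hya, ea⟩ := iha
    rcases eq_or_ne a 0 with rfl | h0
    · refine ⟨0, zero_mem _, ?_⟩
      rw [inv_zero, FA_S28_ig_theta_zero, zero_mul]
    · refine ⟨-(ya * a⁻¹ ^ 2), neg_mem (mul_mem hya (pow_mem (inv_mem ha) 2)), ?_⟩
      rw [FA_S28_ig_theta_inv a h0, ea]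
      ring
  | mul a b ha hb iha ihb =>
    obtain ⟨ya, hya, ea⟩ := iha
    obtain ⟨yb, hyb, eb⟩ := ihb
    refine ⟨ya * b + a * yb, add_mem (mul_mem hya hb) (mul_mem ha hyb), ?_⟩
    rw [FA_S28_ig_theta_mul, ea, eb]
    ring

/-- THETA over any commutative ring. -/
theorem FA_S28_ig_theta_identity (R : Type) [CommRing R] :
    FA_S28_theta (jqModC R) ^ 6 = jqModC R ^ 4 * (jqModC R - 1728) ^ 3 * FA_S28_delta R := by
  have h := congrArg (coeffMap (Int.castRingHom R)) FA_S28_theta_main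
  rw [map_pow, map_mul, map_mul, map_pow, map_pow, map_sub, ← FA_S28_ig_theta_coeffMap,
    coeffMap_jqModC, FA_S28_ig_coeffMap_delta,
    map_ofNat (coeffMap (Int.castRingHom R)) 1728] at h
  exact h

theorem FA_S28_ig_delta_ne_zero (R : Type) [CommRing R] [Nontrivial R] : FA_S28_delta R ≠ 0 := by
  intro h
  have h1 : (FA_S28_delta R).coeff 1 = 1 := by
    rw [FA_S28_delta, HahnSeries.coeff_single_mul, one_mul, sub_self,
      show (0 : ℤ) = ((0 : ℕ) : ℤ) from rfl, HahnSeries.ofPowerSeries_apply_coeff,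
      PowerSeries.coeff_map, PowerSeries.coeff_zero_eq_constantCoeff_apply,
      constantCoeff_dedekindEtaUnit, map_one]
  rw [h, HahnSeries.coeff_zero] at h1
  exact zero_ne_one h1

theorem FA_S28_ig_jq_sub_ne_zero (R : Type) [CommRing R] [Nontrivial R] :
    jqModC R - 1728 ≠ 0 := by
  intro h
  have h1 : (jqModC R - 1728).coeff (-1) = 1 := by
    rw [HahnSeries.coeff_sub, coeff_jqModC_neg_one]
    have : ((1728 : LaurentSeries R)).coeff (-1) = 0 := by
      have e : (1728 : LaurentSeries R) = HahnSeries.single (0 : ℤ) (1728 : R) := by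
        rw [← HahnSeries.C_apply]
        exact (map_ofNat (HahnSeries.C (Γ := ℤ) (R := R)) 1728).symm
      rw [e, HahnSeries.coeff_single_of_ne (by decide)]
    rw [this, sub_zero]
  rw [h, HahnSeries.coeff_zero] at h1
  exact zero_ne_one h1

/-- **IGALG**: for `ℓ ∤ p`, UNIT implies IG. -/
theorem FA_S28_ig_of_unit (p : ℕ) [NeZero p] (ℓ : ℕ) [Fact ℓ.Prime] (hpl : ¬ ℓ ∣ p)
    (hU : FA_S28_Target_UNIT p ℓ) : FA_S28_Target_IG p ℓ := by
  intro hmem
  apply hU
  set k := ZMod ℓ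
  set K := IntermediateField.adjoin k {jqModC k} with hK
  have hjK : jqModC k ∈ K := IntermediateField.subset_adjoin _ _ (Set.mem_singleton _)
  obtain ⟨y, hyK, hy⟩ := FA_S28_ig_chain (jqModC k) hmem
  -- θ (j(q^p)) = p (θ j)(q^p)
  have h1 : FA_S28_theta (jqNModC k p)
      = HahnSeries.single (0 : ℤ) (p : k) * qExpand k p (FA_S28_theta (jqModC k)) :=
    FA_S28_ig_theta_qExpand p (jqModC k)
  have hT := FA_S28_ig_theta_identity k
  have hTp := congrArg (qExpand k p) hT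
  rw [map_pow, map_mul, map_mul, map_pow, map_pow, map_sub,
    map_ofNat (qExpand k p) 1728] at hTp
  have hjp : qExpand k p (jqModC k) = jqNModC k p := rfl
  rw [hjp] at hTp
  -- notation
  set jp := jqNModC k p with hjpdef
  set j := jqModC k with hjdef
  set Δp := qExpand k p (FA_S28_delta k) with hΔp
  set Δ1 := FA_S28_delta k with hΔ1
  set c := HahnSeries.single (0 : ℤ) (p : k) with hc
  have hp0 : (p : k) ≠ 0 := by
    intro h0
    exact hpl ((ZMod.natCast_eq_zero_iff p ℓ).mp h0)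
  have hcK : c ∈ K := by
    rw [hc, ← algebraMap_laurentSeries_eq_single]
    exact K.algebraMap_mem _
  have hc0 : c ≠ 0 := by
    rw [hc]
    exact HahnSeries.single_ne_zero hp0
  have hj0 : j ≠ 0 := jqModC_ne_zero_of_nontrivial k
  have hj1 : j - 1728 ≠ 0 := FA_S28_ig_jq_sub_ne_zero k
  have hΔ0 : Δ1 ≠ 0 := FA_S28_ig_delta_ne_zero k
  have hjp0 : jp ≠ 0 := by
    intro h0
    apply hj0
    apply qExpand_injective (R := k) p
    rw [map_zero]
    exact h0
  have hjp1 : jp - 1728 ≠ 0 := by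
    intro h0
    apply hj1
    apply qExpand_injective (R := k) p
    rw [map_zero, map_sub, map_ofNat (qExpand k p) 1728]
    exact h0
  -- the key identity
  have key : c ^ 6 * (jp ^ 4 * (jp - 1728) ^ 3 * Δp) = y ^ 6 * (j ^ 4 * (j - 1728) ^ 3 * Δ1) := by
    rw [← hTp, ← hT, ← mul_pow, ← mul_pow, ← h1, hy]
  have hD : jp ^ 4 * (jp - 1728) ^ 3 ≠ 0 := mul_ne_zero (pow_ne_zero 4 hjp0) (pow_ne_zero 3 hjp1)
  have hval : Δp * Δ1⁻¹
      = y ^ 6 * (j ^ 4 * (j - 1728) ^ 3) * (c ^ 6 * (jp ^ 4 * (jp - 1728) ^ 3))⁻¹ := by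
    have hcD : c ^ 6 * (jp ^ 4 * (jp - 1728) ^ 3) ≠ 0 := mul_ne_zero (pow_ne_zero 6 hc0) hD
    field_simp
    linear_combination key
  rw [hval]
  have h1728 : (1728 : LaurentSeries k) ∈ K := by
    have e : (1728 : LaurentSeries k) = algebraMap k (LaurentSeries k) 1728 :=
      (map_ofNat (algebraMap k (LaurentSeries k)) 1728).symm
    rw [e]
    exact K.algebraMap_mem _
  exact mul_mem (mul_mem (pow_mem hyK 6)
      (mul_mem (pow_mem hjK 4) (pow_mem (sub_mem hjK h1728) 3)))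
    (inv_mem (mul_mem (pow_mem hcK 6)
      (mul_mem (pow_mem hmem 4) (pow_mem (sub_mem hmem h1728) 3))))

/-- **IGALG** in the form used by `FA_S28_Target_IGk`. -/
theorem FA_S28_ig_alg (p : ℕ) [NeZero p] (ℓ : ℕ) [Fact ℓ.Prime] (hp : p.Prime) (hpl : p ≠ ℓ)
    (_hT : FA_S28_Target_THETA) (hU : FA_S28_Target_UNIT p ℓ) : FA_S28_Target_IG p ℓ := by
  refine FA_S28_ig_of_unit p ℓ ?_ hU
  intro hdvd
  have hℓ : ℓ.Prime := Fact.out
  exact hpl ((Nat.prime_dvd_prime_iff_eq hℓ hp).mp hdvd).symm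

end Fermat.Agent.S28
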