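import Mathlib
import Fermat.Agent.S28.IndTools

/-!
# S28, leaf IndA: a new prime gives a new generator

If `p ∤ M` then `j(q^p) ∉ k(j, j(q^r) : r ∣ M prime)`: the minimal polynomials over `k(j)` of the
generators split in `k((q^{1/M}))`, that of `j(q^p)` has the root `j(q^{1/p}) ∉ k((q^{1/M}))`.
-/

set_option autoImplicit false

noncomputable section

namespace Fermat.Agent.S28

open ModularCurve Polynomial

variable {k : Type} [Field k]

/-- Elements of `k((v^p))` have no coefficients at exponents prime to `p`. -/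
theorem FA_S28_indA_not_range (p M : ℕ) [NeZero p] [NeZero M] (hpM : ¬ p ∣ M)
    (g : LaurentSeries k) : qExpand k p g ≠ FA_S28_jd k M := by
  intro h
  have h1 := congrArg (fun f : LaurentSeries k => f.coeff (-(M : ℤ))) h
  simp only [FA_S28_coeff_jd_neg] at h1
  rw [qExpand_coeff_of_not_dvd] at h1
  · exact zero_ne_one h1
  · rw [Int.dvd_neg]
    exact fun hd => hpM (by exact_mod_cast hd)

/-- A product of linear factors with roots in an intermediate field splits there. -/
theorem FA_S28_indA_splits {F : Type} [Field F] {Ω : Type} [Field Ω] [Algebra F Ω]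
    (E : IntermediateField F Ω) (P : Polynomial F) {ι : Type} [Fintype ι] (a : Ω) (y : ι → Ω)
    (ha : a ∈ E) (hy : ∀ i, y i ∈ E)
    (hP : P.map (algebraMap F Ω) = (X - C a) * ∏ i, (X - C (y i))) :
    (P.map (algebraMap F ↥E)).Splits := by
  have h : P.map (algebraMap F ↥E)
      = (X - C (⟨a, ha⟩ : ↥E)) * ∏ i, (X - C (⟨y i, hy i⟩ : ↥E)) := by
    apply Polynomial.map_injective (algebraMap ↥E Ω) (algebraMap ↥E Ω).injective
    rw [Polynomial.map_map, ← IsScalarTower.algebraMap_eq, hP]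
    simp only [Polynomial.map_mul, Polynomial.map_sub, Polynomial.map_X, Polynomial.map_C,
      Polynomial.map_prod]
    rfl
  rw [h]
  exact (Splits.X_sub_C _).mul (Splits.prod fun i _ => Splits.X_sub_C _)

/-- The generators: integrality and splitting. -/
theorem FA_S28_indA_gen (ℓ : ℕ) [Fact ℓ.Prime] (hPHI : FA_S28_PHIall ℓ)
    [IsAlgClosed k] [CharP k ℓ] (p M r : ℕ) [NeZero p] [NeZero M] (hr : r.Prime) (hrℓ : r ≠ ℓ)
    (hrM : r ∣ M)
    (F' : IntermediateField k (LaurentSeries k)) (hF' : FA_S28_jd k (M * p) ∈ F')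
    (hFE : F' ≤ (qExpandAlgHomC k p).fieldRange) :
    IsIntegral ↥F' (FA_S28_jd k (M * p * r)) ∧
      ((minpoly ↥F' (FA_S28_jd k (M * p * r))).map
        (algebraMap ↥F' ↥(IntermediateField.extendScalars hFE))).Splits := by
  have hrN : NeZero r := ⟨hr.ne_zero⟩
  obtain ⟨ζ, hζr⟩ := FA_S28_exists_primitiveRoot k ℓ r hr (Fact.out) hrℓ
  have hζ : ζ ≠ 0 := hζr.ne_zero hr.ne_zero
  obtain ⟨M', rfl⟩ := hrM
  have hM' : M' ≠ 0 := fun h => NeZero.ne (r * M') (by rw [h, mul_zero])
  have hM'N : NeZero M' := ⟨hM'⟩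
  have hm : r * M' * p = M' * p * r := by ring
  have hmN : NeZero (M' * p) := ⟨mul_ne_zero hM' (NeZero.ne p)⟩
  obtain ⟨P, hPmonic, hPdeg, hPfac⟩ := FA_S28_setup_push r (hPHI r hr hrℓ) ζ hζr hζ (M' * p) F'
    (by rw [← hm]; exact hF')
  rw [hm]
  have hroot : Polynomial.aeval (FA_S28_jd k (M' * p * r * r)) P = 0 := by
    rw [Polynomial.aeval_def, ← Polynomial.eval_map, hPfac]
    simp
  have hint : IsIntegral ↥F' (FA_S28_jd k (M' * p * r * r)) := ⟨P, hPmonic, hroot⟩
  refine ⟨hint, ?_⟩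
  have hsp := FA_S28_indA_splits (IntermediateField.extendScalars hFE) P
    (FA_S28_jd k (M' * p * r * r)) (fun b => qExpand k (M' * p) (FA_S28_root ζ hζ r b))
    (by
      rw [IntermediateField.mem_extendScalars]
      refine ⟨FA_S28_jd k (M' * r * r), ?_⟩
      show qExpand k p (FA_S28_jd k (M' * r * r)) = _
      rw [FA_S28_qExpand_jd]
      congr 1
      ring)
    (fun b => by
      rw [IntermediateField.mem_extendScalars]
      refine ⟨qExpand k M' (FA_S28_root ζ hζ r b), ?_⟩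
      show qExpand k p (qExpand k M' (FA_S28_root ζ hζ r b)) = _
      rw [qExpand_qExpand]
      exact qExpand_congr (mul_comm p M') _) hPfac
  exact hsp.of_dvd (Polynomial.map_ne_zero hPmonic.ne_zero)
    (Polynomial.map_dvd _ (minpoly.dvd _ _ hroot))

/-- **Leaf IndA.** -/
theorem FA_S28_indA (ℓ : ℕ) [Fact ℓ.Prime] : FA_S28_Target_IndA ℓ := by
  intro hPHI k _ _ _ hIG p M hp hpℓ hM hℓM hpM hmem
  have hpN : NeZero p := ⟨hp.ne_zero⟩
  have hMN : NeZero M := ⟨hM⟩
  have heN : NeZero (M * p) := ⟨mul_ne_zero hM hp.ne_zero⟩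
  let f : LaurentSeries k →ₐ[k] LaurentSeries k := qExpandAlgHomC k (M * p)
  have hf : ∀ x, f x = qExpand k (M * p) x := fun x => rfl
  let F' : IntermediateField k (LaurentSeries k) := (FA_S28_kappa k).map f
  have hF'eq : F' = IntermediateField.adjoin k {FA_S28_jd k (M * p)} := by
    show (IntermediateField.adjoin k {jqModC k}).map f = _
    rw [IntermediateField.adjoin_map, Set.image_singleton, hf, FA_S28_qExpand_jq]
  have hjF' : FA_S28_jd k (M * p) ∈ F' := by
    rw [hF'eq]
    exact IntermediateField.mem_adjoin_simple_self k _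
  have hFE : F' ≤ (qExpandAlgHomC k p).fieldRange := by
    rw [hF'eq, IntermediateField.adjoin_le_iff, Set.singleton_subset_iff]
    refine ⟨FA_S28_jd k M, ?_⟩
    show qExpand k p (FA_S28_jd k M) = _
    rw [FA_S28_qExpand_jd, mul_comm]
  -- the generators
  let S : Set (LaurentSeries k) := (fun r => FA_S28_jd k (M * p * r)) '' {r | r.Prime ∧ r ∣ M}
  have hS : ∀ s ∈ S, IsIntegral ↥F' s ∧
      ((minpoly ↥F' s).map (algebraMap ↥F' ↥(IntermediateField.extendScalars hFE))).Splits := by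
    rintro s ⟨r, ⟨hr, hrM⟩, rfl⟩
    have hrℓ : r ≠ ℓ := fun h => hℓM (h ▸ hrM)
    exact FA_S28_indA_gen ℓ hPHI p M r hr hrℓ hrM F' hjF' hFE
  -- `x = j(q^p)` in the new variable
  have hx : FA_S28_jd k (M * p * p) ∈ IntermediateField.adjoin ↥F' S := by
    have h1 : f (FA_S28_jd k p) ∈ (FA_S28_fld k {r | r.Prime ∧ r ∣ M}).map f :=
      ⟨_, hmem, rfl⟩
    rw [hf, FA_S28_qExpand_jd] at h1
    have h2 : (FA_S28_fld k {r | r.Prime ∧ r ∣ M}).map f
        ≤ (IntermediateField.adjoin ↥F' S).restrictScalars k := by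
      show (IntermediateField.adjoin k _).map f ≤ _
      rw [IntermediateField.adjoin_map, IntermediateField.adjoin_le_iff]
      rintro _ ⟨y, hy, rfl⟩
      rw [SetLike.mem_coe, IntermediateField.mem_restrictScalars]
      rcases hy with rfl | ⟨r, ⟨hr, hrM⟩, rfl⟩
      · rw [hf, FA_S28_qExpand_jq]
        exact IntermediateField.algebraMap_mem _ (⟨_, hjF'⟩ : ↥F')
      · have hrN : NeZero r := ⟨hr.ne_zero⟩
        rw [hf, FA_S28_qExpand_jd]
        exact IntermediateField.subset_adjoin _ _ ⟨r, ⟨hr, hrM⟩, rfl⟩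
    exact h2 h1
  have hsplit := IntermediateField.splits_of_mem_adjoin (↥F') (LaurentSeries k) hS hx
  -- the minimal polynomial of `x` is the modular equation
  obtain ⟨ζ, hζp⟩ := FA_S28_exists_primitiveRoot k ℓ p hp (Fact.out) hpℓ
  have hζ : ζ ≠ 0 := hζp.ne_zero hp.ne_zero
  obtain ⟨P, hPmonic, hPdeg, hPfac⟩ := FA_S28_setup_push p (hPHI p hp hpℓ) ζ hζp hζ M F' hjF'
  have hroot : Polynomial.aeval (FA_S28_jd k (M * p * p)) P = 0 := by
    rw [Polynomial.aeval_def, ← Polynomial.eval_map, hPfac]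
    simp
  have hint : IsIntegral ↥F' (FA_S28_jd k (M * p * p)) := ⟨P, hPmonic, hroot⟩
  have hdvd : minpoly ↥F' (FA_S28_jd k (M * p * p)) ∣ P := minpoly.dvd _ _ hroot
  have hirr := FA_S28_indIrr ℓ hPHI k p hp hpℓ (FA_S28_kappa k) le_rfl (hIG p hp hpℓ)
  have hdeg : p + 1 ≤ (minpoly ↥F' (FA_S28_jd k (M * p * p))).natDegree := by
    have hx' : f (FA_S28_jd k p) = FA_S28_jd k (M * p * p) := by
      rw [hf, FA_S28_qExpand_jd]
    refine FA_S28_transport_deg f (FA_S28_kappa k) (FA_S28_jd k p) (p + 1) hirr _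
      (minpoly.ne_zero hint) ?_
    rw [hx']
    exact minpoly.aeval _ _
  have hmin : P = minpoly ↥F' (FA_S28_jd k (M * p * p)) :=
    Polynomial.eq_of_monic_of_dvd_of_natDegree_le (minpoly.monic hint) hPmonic hdvd
      (by rw [hPdeg]; exact hdeg)
  -- the root `j(q^{1/p})`
  have hroot0 : ((minpoly ↥F' (FA_S28_jd k (M * p * p))).map
      (algebraMap ↥F' (LaurentSeries k))).IsRoot (FA_S28_jd k M) := by
    rw [← hmin, hPfac, IsRoot.def, eval_mul]
    apply mul_eq_zero_of_right
    rw [eval_prod]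
    apply Finset.prod_eq_zero (Finset.mem_univ (⟨0, hp.pos⟩ : Fin p))
    rw [eval_sub, eval_X, eval_C, sub_eq_zero]
    have : FA_S28_root ζ hζ p ⟨0, hp.pos⟩ = jqModC k := by
      ext n
      rw [FA_S28_root_coeff]
      simp
    rw [this, FA_S28_qExpand_jq]
  have hrange := hsplit.mem_range_of_isRoot
    (Polynomial.map_ne_zero (minpoly.ne_zero hint))
    (i := algebraMap ↥(IntermediateField.extendScalars hFE) (LaurentSeries k))
    (x := FA_S28_jd k M) (by
      rw [Polynomial.map_map, ← IsScalarTower.algebraMap_eq]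
      exact hroot0)
  obtain ⟨⟨a, ha⟩, ha'⟩ := hrange
  rw [IntermediateField.mem_extendScalars] at ha
  obtain ⟨g, hg⟩ := ha
  have hga : qExpand k p g = FA_S28_jd k M := by
    rw [← ha']
    exact hg
  exact FA_S28_indA_not_range p M hpM g hga

end Fermat.Agent.S28
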