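import Fermat.Agent.S28.AlgInst1

/-!
# S28, leaf ALG, instantiation 2: `j`, `1/j`, and the abstract hypotheses from `DEG`
-/

set_option autoImplicit false
set_option linter.unusedSectionVars false
set_option linter.style.haveILetI false

noncomputable section

namespace Fermat.Agent.S28

open ModularCurve ModularCurve.IgusaScheme Polynomial

theorem FA_S28_alg_iota_jq : FA_S28_alg_iota (jqModC ℤ) = jq := by
  rw [FA_S28_alg_iota, coeffMap_jqModC, jqModC_rat]

/-- `1/j` as an integral Laurent series. -/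
def FA_S28_alg_jinvZ : LaurentSeries ℤ :=
  HahnSeries.single (1 : ℤ) 1 * HahnSeries.ofPowerSeries ℤ ℤ (PowerSeries.invOfUnit jNum 1)

theorem FA_S28_alg_jq_mul_jinvZ : jqModC ℤ * FA_S28_alg_jinvZ = 1 := by
  have h1 : jNum.map (Int.castRingHom ℤ) = jNum := by
    ext n
    simp
  have h2 : jNum * PowerSeries.invOfUnit jNum 1 = 1 :=
    PowerSeries.mul_invOfUnit jNum 1 (by simp)
  rw [jqModC, FA_S28_alg_jinvZ, h1]
  calc HahnSeries.single (-1 : ℤ) (1 : ℤ) * HahnSeries.ofPowerSeries ℤ ℤ jNum *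
        (HahnSeries.single (1 : ℤ) 1 *
          HahnSeries.ofPowerSeries ℤ ℤ (PowerSeries.invOfUnit jNum 1))
      = (HahnSeries.single (-1 : ℤ) (1 : ℤ) * HahnSeries.single (1 : ℤ) 1) *
          (HahnSeries.ofPowerSeries ℤ ℤ jNum *
            HahnSeries.ofPowerSeries ℤ ℤ (PowerSeries.invOfUnit jNum 1)) := by ring
    _ = 1 := by
        have hA : HahnSeries.ofPowerSeries ℤ ℤ jNum *
            HahnSeries.ofPowerSeries ℤ ℤ (PowerSeries.invOfUnit jNum 1) = 1 := by
          rw [← map_mul, h2, map_one]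
        have hB : HahnSeries.single (-1 : ℤ) (1 : ℤ) * HahnSeries.single (1 : ℤ) 1 = 1 := by
          rw [HahnSeries.single_mul_single]
          simp
        rw [hA, hB, mul_one]

theorem FA_S28_alg_aeval_int {A : Type*} [CommRing A] (inst : Algebra ℤ A) (x : A) (p : ℤ[X]) :
    @aeval ℤ A _ _ inst x p = p.eval₂ (Int.castRingHom A) x := by
  rw [aeval_def]
  congr 1
  exact RingHom.ext_int _ _

theorem FA_S28_alg_algebraMap_single (k : Type*) [CommRing k] (c : k) :
    algebraMap k (LaurentSeries k) c = HahnSeries.single 0 c := by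
  have h1 : algebraMap k (PowerSeries k) c = PowerSeries.C c := by simp
  rw [HahnSeries.algebraMap_apply', h1, HahnSeries.ofPowerSeries_C]
  rfl

theorem FA_S28_alg_jqbar_mul (R : Type*) [CommRing R] :
    jqModC R * coeffMap (Int.castRingHom R) FA_S28_alg_jinvZ = 1 := by
  rw [← coeffMap_jqModC (Int.castRingHom R), ← map_mul, FA_S28_alg_jq_mul_jinvZ, map_one]

section

variable (N : ℕ) [NeZero N] (ℓ : ℕ) [Fact ℓ.Prime]

theorem FA_S28_alg_jq_mem_full : jq ∈ modularFunctionFieldFull N :=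
  modularFunctionField_le_full N (jq_mem N)

/-- `j` as an element of `S`. -/
def FA_S28_alg_xj : FA_S28_alg_S N :=
  FA_S28_alg_mkS N (jqModC ℤ) (by rw [FA_S28_alg_iota_jq]; exact FA_S28_alg_jq_mem_full N)

theorem FA_S28_alg_coe_xj : ((FA_S28_alg_xj N : FA_S28_alg_S N) : ↥(modularFunctionFieldFull N))
    = jFull N := by
  apply Subtype.ext
  show FA_S28_alg_iota (jqModC ℤ) = jq
  exact FA_S28_alg_iota_jq

theorem FA_S28_alg_red_xj : FA_S28_alg_red N ℓ (FA_S28_alg_xj N) = jqModC (ZMod ℓ) := by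
  rw [FA_S28_alg_xj, FA_S28_alg_red_mkS, coeffMap_jqModC]

theorem FA_S28_alg_iota_jinvZ : FA_S28_alg_iota FA_S28_alg_jinvZ = jq⁻¹ := by
  have h := FA_S28_alg_jqbar_mul ℚ
  rw [jqModC_rat] at h
  exact eq_inv_of_mul_eq_one_right h

/-- `1/j` as an element of `S`. -/
def FA_S28_alg_xinv : FA_S28_alg_S N :=
  FA_S28_alg_mkS N FA_S28_alg_jinvZ (by
    rw [FA_S28_alg_iota_jinvZ]; exact inv_mem (FA_S28_alg_jq_mem_full N))

theorem FA_S28_alg_coe_xinv :
    ((FA_S28_alg_xinv N : FA_S28_alg_S N) : ↥(modularFunctionFieldFull N)) = (jFull N)⁻¹ := by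
  apply Subtype.ext
  show FA_S28_alg_iota FA_S28_alg_jinvZ = _
  rw [FA_S28_alg_iota_jinvZ]
  rfl

theorem FA_S28_alg_xj_mul_xinv : FA_S28_alg_xj N * FA_S28_alg_xinv N = 1 := by
  apply FA_S28_alg_lift_injective
  rw [map_mul, map_one, FA_S28_alg_xj, FA_S28_alg_xinv, FA_S28_alg_lift_mkS,
    FA_S28_alg_lift_mkS, FA_S28_alg_jq_mul_jinvZ]

theorem FA_S28_alg_charP : CharP (LaurentSeries (ZMod ℓ)) ℓ :=
  charP_of_injective_algebraMap (algebraMap (ZMod ℓ) (LaurentSeries (ZMod ℓ))).injective ℓ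

theorem FA_S28_alg_charZero : CharZero ↥(modularFunctionFieldFull N) :=
  algebraRat.charZero _

/-- `j̄` is transcendental over `𝔽_ℓ`. -/
theorem FA_S28_alg_htr (k : Type*) [Field k] (P : k[X]) (h : aeval (jqModC k) P = 0) : P = 0 := by
  by_contra hP
  have h1 := congrArg (fun s : LaurentSeries k => s.coeff (-(P.natDegree : ℤ))) h
  simp only [HahnSeries.coeff_zero] at h1
  rw [aeval_def, eval₂_eq_sum_range, HahnSeries.coeff_sum] at h1
  rw [Finset.sum_eq_single_of_mem P.natDegree (Finset.self_mem_range_succ _)] at h1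
  · rw [FA_S28_alg_algebraMap_single, HahnSeries.coeff_single_zero_mul,
      coeff_jqModC_pow_self, mul_one] at h1
    exact hP (leadingCoeff_eq_zero.mp h1)
  · intro i hi hne
    rw [FA_S28_alg_algebraMap_single, HahnSeries.coeff_single_zero_mul,
      coeff_jqModC_pow_of_lt, mul_zero]
    have : i < P.natDegree := lt_of_le_of_ne (Nat.lt_succ_iff.mp (Finset.mem_range.mp hi)) hne
    omega

/-- The abstract hypotheses for `x = j`, from `DEG`. -/
theorem FA_S28_alg_hyp_j {n : ℕ} (e : Fin n → LaurentSeries ℤ)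
    (h1 : ∀ i, coeffMap (Int.castRingHom ℚ) (e i) ∈ modularFunctionFieldFull N)
    (h2 : ∀ c : Fin n → Polynomial (ZMod ℓ),
      (∑ i, Polynomial.aeval (jqModC (ZMod ℓ)) (c i) *
          coeffMap (Int.castRingHom (ZMod ℓ)) (e i)) = 0 → ∀ i, c i = 0)
    (h3 : ∀ y ∈ modularFunctionFieldFull N, ∃ (Q : Polynomial ℤ) (P : Fin n → Polynomial ℤ),
      Q ≠ 0 ∧
      Polynomial.aeval jq Q * y =
        ∑ i, Polynomial.aeval jq (P i) * coeffMap (Int.castRingHom ℚ) (e i)) :
    haveI := FA_S28_alg_charP ℓ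
    haveI := FA_S28_alg_charZero N
    FA_S28_alg_Hyp ℓ (FA_S28_alg_S N) (FA_S28_alg_red N ℓ) (FA_S28_alg_xj N)
      (fun i => FA_S28_alg_mkS N (e i) (h1 i)) := by
  haveI := FA_S28_alg_charP ℓ
  haveI := FA_S28_alg_charZero N
  refine ⟨FA_S28_alg_hker N ℓ, FA_S28_alg_hsep N ℓ, ?_, ?_, ?_⟩
  · intro P hP
    rw [FA_S28_alg_red_xj] at hP
    exact FA_S28_alg_htr (ZMod ℓ) P hP
  · intro c hc
    apply h2 c
    rw [← hc]
    refine Finset.sum_congr rfl fun i _ => ?_
    rw [FA_S28_alg_red_xj, FA_S28_alg_red_mkS]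
  · intro y
    obtain ⟨Q, P, hQ, h⟩ := h3 y y.2
    refine ⟨Q, P, hQ, ?_⟩
    apply Subtype.ext
    have hcoe : ∀ R : ℤ[X],
        ((aeval ((FA_S28_alg_xj N : FA_S28_alg_S N) : ↥(modularFunctionFieldFull N)) R :
          ↥(modularFunctionFieldFull N)) : LaurentSeries ℚ) = aeval jq R := by
      intro R
      rw [FA_S28_alg_aeval_int, FA_S28_alg_aeval_int, FA_S28_alg_coe_xj]
      have := Polynomial.hom_eval₂ R (Int.castRingHom ↥(modularFunctionFieldFull N))
        (algebraMap ↥(modularFunctionFieldFull N) (LaurentSeries ℚ)) (jFull N)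
      rw [RingHom.ext_int ((algebraMap ↥(modularFunctionFieldFull N) (LaurentSeries ℚ)).comp
        (Int.castRingHom ↥(modularFunctionFieldFull N))) (Int.castRingHom (LaurentSeries ℚ))] at this
      exact this
    push_cast
    rw [hcoe, h]
    refine Finset.sum_congr rfl fun i _ => ?_
    rw [hcoe]
    rfl

end

end Fermat.Agent.S28
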