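import Mathlib
import Fermat.Agent.S28.IndInterface
import Fermat.Agent.S28.LD
import Fermat.Agent.S28.AlgInst2

/-!
# S28, leaf IGk: IG over `𝔽_ℓ` gives IG over every field of characteristic `ℓ`

If `j(q^p) = A(j)/B(j)` over `k`, then `B(j) · j(q^p) − A(j) · 1 = 0` is a nontrivial relation over
`k[j]` between the coefficient extensions of `j̄(q^p), 1 ∈ 𝔽_ℓ((q))`; by LD there is a nontrivial
relation over `𝔽_ℓ[j̄]`, i.e. `j̄(q^p) ∈ 𝔽_ℓ(j̄)`.
-/

set_option autoImplicit false
set_option linter.unusedSectionVars false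
set_option linter.style.haveILetI false

noncomputable section

namespace Fermat.Agent.S28

open ModularCurve Polynomial IntermediateField

/-- `x ∉ k(j)` gives the independence of `x, 1` over `k[j]`. -/
theorem FA_S28_igk_indep (k : Type) [Field k] (x : LaurentSeries k)
    (hx : x ∉ IntermediateField.adjoin k {jqModC k}) (c : Fin 2 → k[X])
    (hc : (∑ i, aeval (jqModC k) (c i) * ![x, 1] i) = 0) : ∀ i, c i = 0 := by
  rw [Fin.sum_univ_two] at hc
  simp only [Matrix.cons_val_zero, Matrix.cons_val_one, mul_one] at hc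
  have h0 : c 0 = 0 := by
    by_contra h0
    have hne : aeval (jqModC k) (c 0) ≠ 0 := fun h => h0 (FA_S28_alg_htr k _ h)
    apply hx
    rw [IntermediateField.mem_adjoin_simple_iff]
    refine ⟨-c 1, c 0, ?_⟩
    rw [eq_div_iff hne, map_neg]
    linear_combination hc
  have h1 : c 1 = 0 := by
    rw [h0, map_zero, zero_mul, zero_add] at hc
    exact FA_S28_alg_htr k _ hc
  intro i
  fin_cases i
  · exact h0
  · exact h1

theorem FA_S28_igk (ℓ : ℕ) [Fact ℓ.Prime] : FA_S28_Target_IGk ℓ := by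
  intro hIG k _ _ p hp hpℓ hmem
  haveI : NeZero p := ⟨hp.ne_zero⟩
  letI : Algebra (ZMod ℓ) k := ZMod.algebra k ℓ
  have hig := hIG p hp hpℓ
  rw [FA_S28_kappa, IntermediateField.mem_adjoin_simple_iff] at hmem
  obtain ⟨A, B, hAB⟩ := hmem
  have hB : B ≠ 0 := by
    rintro rfl
    rw [map_zero, div_zero, FA_S28_jd_eq] at hAB
    have h1 : (jqNModC k p).coeff (-(p : ℤ)) = 1 := by
      rw [← FA_S28_jd_eq]
      exact FA_S28_coeff_jd_neg p
    rw [hAB, HahnSeries.coeff_zero] at h1
    exact zero_ne_one h1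
  have hBne : aeval (jqModC k) B ≠ 0 := fun h => hB (FA_S28_alg_htr k _ h)
  rw [eq_div_iff hBne, FA_S28_jd_eq] at hAB
  have hld := FA_S28_ld (ZMod ℓ) k (jqModC (ZMod ℓ)) 2 ![jqNModC (ZMod ℓ) p, 1]
    (FA_S28_igk_indep (ZMod ℓ) _ hig) ![B, -A] (by
      rw [Fin.sum_univ_two]
      simp only [Matrix.cons_val_zero, Matrix.cons_val_one, map_one, mul_one,
        coeffMap_jqModC, coeffMap_jqNModC, map_neg]
      linear_combination hAB)
  exact hB (hld 0)

end Fermat.Agent.S28
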