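import Mathlib
import Fermat.Agent.S28.IndInterface
import Fermat.Agent.S28.AlgInst2

/-!
# S28, leaf IndMain, part 1: monomials span `k(j, j(q^d) : d ∈ S)` over `κ = k(j)`

If all `j(q^d)`, `d ∈ S`, are integral over `κ`, then `k(j, j(q^d) : d ∈ S)` is the `κ`-span of
the monomials in the `j(q^d)`; hence any `n ≤ [k(j, j(q^d)) : κ]` admits `n` monomials that are
linearly independent over `κ`.
-/

set_option autoImplicit false
set_option linter.unusedSectionVars false
set_option linter.style.haveILetI false

noncomputable section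

namespace Fermat.Agent.S28

open ModularCurve Polynomial IntermediateField

/-- A spanning set of a space of dimension `≥ n` contains `n` linearly independent elements. -/
theorem FA_S28_indMain_extract {K M : Type*} [Field K] [AddCommGroup M] [Module K M] (s : Set M)
    (n : ℕ) (hn : n ≤ Module.finrank K (Submodule.span K s)) :
    ∃ f : Fin n → M, (∀ i, f i ∈ s) ∧ LinearIndependent K f := by
  rcases Nat.eq_zero_or_pos n with h0 | hpos
  · subst h0
    exact ⟨fun i => i.elim0, fun i => i.elim0, linearIndependent_empty_type⟩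
  haveI : Module.Finite K ↥(Submodule.span K s) :=
    Module.finite_of_finrank_pos (lt_of_lt_of_le hpos hn)
  obtain ⟨f, hf, -, hli⟩ := Submodule.exists_fun_fin_finrank_span_eq K s
  exact ⟨f ∘ Fin.castLE hn, fun i => hf _, hli.comp _ (Fin.castLE_injective hn)⟩

variable (k : Type) [Field k]

theorem FA_S28_indMain_kappa_le (S : Set ℕ) : FA_S28_kappa k ≤ FA_S28_fld k S := by
  rw [FA_S28_kappa, FA_S28_fld]
  exact IntermediateField.adjoin.mono _ _ _ (Set.singleton_subset_iff.mpr (Set.mem_insert _ _))

/-- `k(j, j(q^d) : d ∈ S)` as an extension of `κ` is `κ(j(q^d) : d ∈ S)`. -/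
theorem FA_S28_indMain_ext_eq (S : Set ℕ) :
    IntermediateField.extendScalars (FA_S28_indMain_kappa_le k S)
      = IntermediateField.adjoin ↥(FA_S28_kappa k) (FA_S28_jd k '' S) := by
  apply IntermediateField.restrictScalars_injective k
  rw [IntermediateField.extendScalars_restrictScalars, FA_S28_kappa,
    IntermediateField.adjoin_adjoin_left, FA_S28_fld, Set.singleton_union]

/-- Monomials: `n ≤ [k(j, j(q^d) : d ∈ S) : κ]` gives `n` monomials in the `j(q^d)` that are
linearly independent over `κ`. -/
theorem FA_S28_indMain_abs (S : Set ℕ)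
    (hint : ∀ d ∈ S, IsIntegral ↥(FA_S28_kappa k) (FA_S28_jd k d)) (n : ℕ)
    (hn : n ≤ IntermediateField.relfinrank (FA_S28_kappa k) (FA_S28_fld k S)) :
    ∃ f : Fin n → LaurentSeries k,
      (∀ i, f i ∈ Submonoid.closure (FA_S28_jd k '' S)) ∧
      LinearIndependent ↥(FA_S28_kappa k) f := by
  rw [IntermediateField.relfinrank_eq_finrank_of_le (FA_S28_indMain_kappa_le k S),
    FA_S28_indMain_ext_eq] at hn
  have halg : ∀ x ∈ FA_S28_jd k '' S, IsAlgebraic ↥(FA_S28_kappa k) x := by
    rintro x ⟨d, hd, rfl⟩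
    exact (hint d hd).isAlgebraic
  have h1 : (IntermediateField.adjoin ↥(FA_S28_kappa k) (FA_S28_jd k '' S)).toSubalgebra
      = Algebra.adjoin ↥(FA_S28_kappa k) (FA_S28_jd k '' S) :=
    IntermediateField.adjoin_toSubalgebra_of_isAlgebraic halg
  have h2 : Subalgebra.toSubmodule
      (IntermediateField.adjoin ↥(FA_S28_kappa k) (FA_S28_jd k '' S)).toSubalgebra
      = Submodule.span ↥(FA_S28_kappa k) (Submonoid.closure (FA_S28_jd k '' S) : Set (LaurentSeries k)) := by
    rw [h1, Algebra.adjoin_eq_span]
  have h3 : Module.finrank ↥(FA_S28_kappa k)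
      ↥(IntermediateField.adjoin ↥(FA_S28_kappa k) (FA_S28_jd k '' S))
      = Module.finrank ↥(FA_S28_kappa k)
        ↥(Submodule.span ↥(FA_S28_kappa k) (Submonoid.closure (FA_S28_jd k '' S) : Set (LaurentSeries k))) := by
    rw [← h2]
    rfl
  rw [h3] at hn
  exact FA_S28_indMain_extract _ n hn

end Fermat.Agent.S28
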