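import Mathlib
import Fermat.Agent.S28.IndMain1

/-!
# S28, leaf IndMain: `IndFin` + `IndDeg` give `DegModL`

Over `k = AlgebraicClosure (ZMod ℓ)` the field `k(j, j(q^d) : d ∣ N)` has degree `≥ ψ(N)` over
`κ = k(j)` and is spanned by the monomials in the `j(q^d)`; so there are `ψ(N)` monomials that are
linearly independent over `κ`.  Monomials are defined over `ℤ`; their reductions mod `ℓ` are
linearly independent over `𝔽_ℓ[j̄]`.
-/

set_option autoImplicit false
set_option linter.unusedSectionVars false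
set_option linter.style.haveILetI false

noncomputable section

namespace Fermat.Agent.S28

open ModularCurve Polynomial IntermediateField

/-- `j(q^d)` over `ℤ` as a total function of `d`. -/
def FA_S28_indMain_jdZ (d : ℕ) : LaurentSeries ℤ :=
  if h : d = 0 then 0 else
    haveI : NeZero d := ⟨h⟩
    jqNModC ℤ d

theorem FA_S28_indMain_coeffMap_jdZ (k : Type) [Field k] (d : ℕ) :
    coeffMap (Int.castRingHom k) (FA_S28_indMain_jdZ d) = FA_S28_jd k d := by
  rw [FA_S28_indMain_jdZ, FA_S28_jd]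
  split_ifs with h
  · exact map_zero _
  · haveI : NeZero d := ⟨h⟩
    exact coeffMap_jqNModC _ d

/-- Monomials over `k` are images of monomials over `ℤ`. -/
theorem FA_S28_indMain_lift (k : Type) [Field k] (S : Set ℕ) (x : LaurentSeries k)
    (hx : x ∈ Submonoid.closure (FA_S28_jd k '' S)) :
    ∃ e ∈ Submonoid.closure (FA_S28_indMain_jdZ '' S),
      coeffMap (Int.castRingHom k) e = x := by
  have h : Submonoid.closure (FA_S28_jd k '' S)
      = (Submonoid.closure (FA_S28_indMain_jdZ '' S)).map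
          (coeffMap (Int.castRingHom k) : LaurentSeries ℤ →* LaurentSeries k) := by
    rw [MonoidHom.map_mclosure, Set.image_image]
    congr 1
    apply Set.image_congr
    intro d _
    exact (FA_S28_indMain_coeffMap_jdZ k d).symm
  rw [h] at hx
  exact hx

/-- Monomials over `ℤ` in the `j(q^d)`, `d ∣ N`, lie in `F = ℚ(j(q^d) : d ∣ N)`. -/
theorem FA_S28_indMain_mem (N : ℕ) [NeZero N] (e : LaurentSeries ℤ)
    (he : e ∈ Submonoid.closure (FA_S28_indMain_jdZ '' {d | d ∣ N})) :
    coeffMap (Int.castRingHom ℚ) e ∈ modularFunctionFieldFull N := by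
  induction he using Submonoid.closure_induction with
  | mem x hx =>
    obtain ⟨d, hd, rfl⟩ := hx
    have hd0 : d ≠ 0 := fun h => NeZero.ne N (by
      have : d ∣ N := hd
      rw [h] at this
      exact zero_dvd_iff.mp this)
    haveI : NeZero d := ⟨hd0⟩
    rw [FA_S28_indMain_jdZ, dif_neg hd0, coeffMap_jqNModC]
    exact jqd_mem_full N hd
  | one => rw [map_one]; exact one_mem _
  | mul x y _ _ hx hy => rw [map_mul]; exact mul_mem hx hy

theorem FA_S28_indMain_coeffMap_aeval {k k' : Type} [Field k] [Field k'] [Algebra k k']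
    (x : LaurentSeries k) (c : k[X]) :
    coeffMap (algebraMap k k') (aeval x c)
      = aeval (coeffMap (algebraMap k k') x) (c.map (algebraMap k k')) := by
  rw [aeval_def, Polynomial.hom_eval₂, aeval_def, eval₂_map]
  congr 1
  ext a n
  simp only [RingHom.comp_apply, FA_S28_alg_algebraMap_single, coeffMap_single]

theorem FA_S28_indMain_aeval_mem (k : Type) [Field k] (P : k[X]) :
    aeval (jqModC k) P ∈ FA_S28_kappa k := by
  rw [FA_S28_kappa]
  exact IntermediateField.algebra_adjoin_le_adjoin k _ (Polynomial.aeval_mem_adjoin_singleton _ _)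

theorem FA_S28_indMain : ∀ (ℓ : ℕ) [Fact ℓ.Prime], FA_S28_Target_IndMain ℓ := by
  intro ℓ _ hFin hPHI hDeg N _ hN
  haveI : CharP (AlgebraicClosure (ZMod ℓ)) ℓ :=
    charP_of_injective_algebraMap (algebraMap (ZMod ℓ) (AlgebraicClosure (ZMod ℓ))).injective ℓ
  have hdeg := hDeg (AlgebraicClosure (ZMod ℓ)) N (NeZero.ne N) hN
  have hint : ∀ d ∈ {d : ℕ | d ∣ N},
      IsIntegral ↥(FA_S28_kappa (AlgebraicClosure (ZMod ℓ)))
        (FA_S28_jd (AlgebraicClosure (ZMod ℓ)) d) := by
    intro d hd
    have hd' : d ∣ N := hd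
    refine hFin hPHI (AlgebraicClosure (ZMod ℓ)) d ?_ ?_
    · rintro rfl
      exact NeZero.ne N (zero_dvd_iff.mp hd')
    · exact fun h => hN (h.trans hd')
  obtain ⟨f, hf, hli⟩ := FA_S28_indMain_abs (AlgebraicClosure (ZMod ℓ)) {d | d ∣ N} hint
    (dedekindPsi N) hdeg
  choose e he hef using fun i => FA_S28_indMain_lift (AlgebraicClosure (ZMod ℓ)) _ (f i) (hf i)
  refine ⟨e, fun i => FA_S28_indMain_mem N (e i) (he i), ?_⟩
  intro c hc i
  have h1 := congrArg (coeffMap (algebraMap (ZMod ℓ) (AlgebraicClosure (ZMod ℓ)))) hc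
  rw [map_sum, map_zero] at h1
  have h2 : ∀ i, coeffMap (algebraMap (ZMod ℓ) (AlgebraicClosure (ZMod ℓ)))
      (aeval (jqModC (ZMod ℓ)) (c i) * coeffMap (Int.castRingHom (ZMod ℓ)) (e i))
      = (⟨aeval (jqModC (AlgebraicClosure (ZMod ℓ)))
            ((c i).map (algebraMap (ZMod ℓ) (AlgebraicClosure (ZMod ℓ)))),
          FA_S28_indMain_aeval_mem _ _⟩ : ↥(FA_S28_kappa (AlgebraicClosure (ZMod ℓ)))) • f i := by
    intro i
    rw [map_mul, FA_S28_indMain_coeffMap_aeval, coeffMap_jqModC, coeffMap_coeffMap, ← hef i,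
      Algebra.smul_def]
    have hr : (algebraMap (ZMod ℓ) (AlgebraicClosure (ZMod ℓ))).comp (Int.castRingHom (ZMod ℓ))
        = Int.castRingHom (AlgebraicClosure (ZMod ℓ)) := RingHom.ext_int _ _
    rw [hr]
    rfl
  simp only [h2] at h1
  have h3 := Fintype.linearIndependent_iff.mp hli _ h1 i
  have h4 : aeval (jqModC (AlgebraicClosure (ZMod ℓ)))
      ((c i).map (algebraMap (ZMod ℓ) (AlgebraicClosure (ZMod ℓ)))) = 0 :=
    congrArg Subtype.val h3
  have h5 := FA_S28_alg_htr _ _ h4
  exact Polynomial.map_injective _ (algebraMap (ZMod ℓ) (AlgebraicClosure (ZMod ℓ))).injective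
    (by rw [h5, Polynomial.map_zero])

end Fermat.Agent.S28
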