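import Mathlib
import Fermat.Prelude.Def_ModularCurve_IgusaScheme
import Fermat.Prelude.Def_ModularCurve_X0ModL
import Fermat.Agent.S28.AlgTarget

/-!
# S28, leaf W: the scheme wrapper

`FA_S28_Target_Alg N ℓ` (the three chart algebras stay domains after base change to a field of
characteristic `ℓ`) implies that the fibre of the Igusa model is integral.
-/

set_option autoImplicit false

open AlgebraicGeometry CategoryTheory CategoryTheory.Limits ModularCurve ModularCurve.IgusaScheme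
open scoped TensorProduct

noncomputable section

namespace Fermat.Agent.S28

/-- A space covered by irreducible open subsets which meet pairwise is irreducible. -/
theorem FA_S28_wrap_irreducible {X : Type*} [TopologicalSpace X] {ι : Type*} [Nonempty ι]
    (U : ι → Set X) (hU : ∀ i, IsOpen (U i)) (hirr : ∀ i, IsIrreducible (U i))
    (hcov : ∀ x, ∃ i, x ∈ U i) (hint : ∀ i j, (U i ∩ U j).Nonempty) : IrreducibleSpace X := by
  obtain ⟨i₀⟩ := ‹Nonempty ι›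
  have hne : Nonempty X := ⟨(hirr i₀).1.some⟩
  refine { toPreirreducibleSpace := ⟨?_⟩, toNonempty := hne }
  rintro V W hV hW ⟨x, -, hx⟩ ⟨y, -, hy⟩
  obtain ⟨i, hi⟩ := hcov x
  obtain ⟨j, hj⟩ := hcov y
  obtain ⟨z, hzi, hzV, hzj⟩ := (hirr i).2 V (U j) hV (hU j) ⟨x, hi, hx⟩ (hint i j)
  obtain ⟨w, -, hwV, hwW⟩ := (hirr j).2 V W hV hW ⟨z, hzj, hzV⟩ ⟨y, hj, hy⟩
  exact ⟨w, Set.mem_univ _, hwV, hwW⟩

section

variable (ℓ : ℕ) (K : Type) [Field K] [Algebra ↥(GaloisRep.ratLocalizedAt ℓ) K]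

/-- One chart of the fibre is integral. -/
theorem FA_S28_wrap_piece {X : Scheme.{0}}
    (f : X ⟶ Spec (CommRingCat.of ↥(GaloisRep.ratLocalizedAt ℓ)))
    (A : Type) [CommRing A] [Algebra ↥(GaloisRep.ratLocalizedAt ℓ) A]
    (ι : Spec (CommRingCat.of A) ⟶ X)
    (h : ι ≫ f = Spec.map (CommRingCat.ofHom (algebraMap ↥(GaloisRep.ratLocalizedAt ℓ) A)))
    (hdom : IsDomain (A ⊗[↥(GaloisRep.ratLocalizedAt ℓ)] K)) :
    IsIntegral (pullback (ι ≫ f)
      (Spec.map (CommRingCat.ofHom (algebraMap ↥(GaloisRep.ratLocalizedAt ℓ) K)))) := by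
  have hdom' : IsDomain ↑(CommRingCat.of (A ⊗[↥(GaloisRep.ratLocalizedAt ℓ)] K)) := hdom
  have hint : IsIntegral (Spec (CommRingCat.of (A ⊗[↥(GaloisRep.ratLocalizedAt ℓ)] K))) :=
    inferInstance
  let e := pullback.congrHom h
      (rfl : Spec.map (CommRingCat.ofHom (algebraMap ↥(GaloisRep.ratLocalizedAt ℓ) K)) = _) ≪≫
    pullbackSpecIso ↥(GaloisRep.ratLocalizedAt ℓ) A K
  exact IsIntegral.of_isIso e.inv

end

variable (N : ℕ) [NeZero N] (ℓ : ℕ) [Fact ℓ.Prime]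

/-- The open cover of the Igusa model by its charts. -/
def FA_S28_wrap_cover : (ModularCurve.IgusaScheme N ℓ).OpenCover :=
  Scheme.IsLocallyDirected.openCover (span (fFin N ℓ) (fInf N ℓ))

theorem FA_S28_wrap_cover_left : (FA_S28_wrap_cover N ℓ).f WalkingSpan.left = ιFin N ℓ := rfl

theorem FA_S28_wrap_cover_right : (FA_S28_wrap_cover N ℓ).f WalkingSpan.right = ιInf N ℓ := rfl

theorem FA_S28_wrap_cover_zero :
    (FA_S28_wrap_cover N ℓ).f WalkingSpan.zero = fFin N ℓ ≫ ιFin N ℓ :=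
  (colimit.w (span (fFin N ℓ) (fInf N ℓ)) WalkingSpan.Hom.fst).symm

theorem FA_S28_wrap_cover_zero' :
    (FA_S28_wrap_cover N ℓ).f WalkingSpan.zero = fInf N ℓ ≫ ιInf N ℓ :=
  (colimit.w (span (fFin N ℓ) (fInf N ℓ)) WalkingSpan.Hom.snd).symm

theorem FA_S28_wrap_mid_igusaTo :
    (fFin N ℓ ≫ ιFin N ℓ) ≫ igusaTo N ℓ =
      Spec.map (CommRingCat.ofHom
        (algebraMap ↥(GaloisRep.ratLocalizedAt ℓ) ↥(chartAlgMid N ℓ))) := by
  rw [Category.assoc, ιFin_igusaTo, ← Spec.map_comp, ← CommRingCat.ofHom_comp]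
  congr 2

/-- **Leaf W**: the wrapper. -/
theorem FA_S28_wrap (h : FA_S28_Target_Alg N ℓ)
    (K : Type) [Field K] [CharP K ℓ] [Algebra ↥(GaloisRep.ratLocalizedAt ℓ) K] :
    IsIntegral ↑(pullback (igusaTo N ℓ)
      (Spec.map (CommRingCat.ofHom (algebraMap ↥(GaloisRep.ratLocalizedAt ℓ) K)))) := by
  obtain ⟨h1, h2, h3⟩ := h K
  set g := Spec.map (CommRingCat.ofHom (algebraMap ↥(GaloisRep.ratLocalizedAt ℓ) K)) with hg
  let 𝒰 := FA_S28_wrap_cover N ℓ
  let 𝒱 := Scheme.Pullback.openCoverOfLeft 𝒰 (igusaTo N ℓ) g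
  have hint : ∀ i, IsIntegral (𝒱.X i) := by
    intro i
    rcases i with (_ | _ | _)
    · show IsIntegral (pullback (𝒰.f WalkingSpan.zero ≫ igusaTo N ℓ) g)
      exact FA_S28_wrap_piece ℓ K (igusaTo N ℓ) ↥(chartAlgMid N ℓ) (𝒰.f WalkingSpan.zero)
        (by rw [show 𝒰.f WalkingSpan.zero = fFin N ℓ ≫ ιFin N ℓ from FA_S28_wrap_cover_zero N ℓ]
            exact FA_S28_wrap_mid_igusaTo N ℓ) h3
    · show IsIntegral (pullback (𝒰.f WalkingSpan.left ≫ igusaTo N ℓ) g)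
      exact FA_S28_wrap_piece ℓ K (igusaTo N ℓ) ↥(chartAlgFin N ℓ) (𝒰.f WalkingSpan.left)
        (ιFin_igusaTo N ℓ) h1
    · show IsIntegral (pullback (𝒰.f WalkingSpan.right ≫ igusaTo N ℓ) g)
      exact FA_S28_wrap_piece ℓ K (igusaTo N ℓ) ↥(chartAlgInf N ℓ) (𝒰.f WalkingSpan.right)
        (ιInf_igusaTo N ℓ) h2
  have hred : IsReduced (pullback (igusaTo N ℓ) g) := by
    have : ∀ i, IsReduced (𝒱.X i) := fun i => by
      have := hint i
      infer_instance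
    exact IsReduced.of_openCover _ 𝒱
  have hrange : ∀ i, Set.range ⇑(𝒱.f i) = ⇑(pullback.fst (igusaTo N ℓ) g) ⁻¹' Set.range ⇑(𝒰.f i) := by
    intro i
    have := Scheme.Pullback.range_map (𝒰.f i ≫ igusaTo N ℓ) g (igusaTo N ℓ) g (𝒰.f i) (𝟙 _) (𝟙 _)
      (by simp) (by simp)
    refine Eq.trans this ?_
    simp
  have hsub : ∀ i, Set.range ⇑(𝒰.f WalkingSpan.zero) ⊆ Set.range ⇑(𝒰.f i) := by
    intro i
    rcases i with (_ | _ | _)
    · exact subset_rfl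
    · rw [show 𝒰.f WalkingSpan.zero = fFin N ℓ ≫ ιFin N ℓ from FA_S28_wrap_cover_zero N ℓ]
      rintro _ ⟨x, rfl⟩
      exact ⟨fFin N ℓ x, rfl⟩
    · rw [show 𝒰.f WalkingSpan.zero = fInf N ℓ ≫ ιInf N ℓ from FA_S28_wrap_cover_zero' N ℓ]
      rintro _ ⟨x, rfl⟩
      exact ⟨fInf N ℓ x, rfl⟩
  have hirr : IrreducibleSpace ↑(pullback (igusaTo N ℓ) g) := by
    have : Nonempty 𝒱.I₀ := ⟨WalkingSpan.zero⟩
    refine FA_S28_wrap_irreducible (fun i => Set.range ⇑(𝒱.f i)) (fun i => (𝒱.f i).isOpenEmbedding.isOpen_range)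
      (fun i => ?_) (fun x => ?_) (fun i j => ?_)
    · have := hint i
      rw [← Set.image_univ]
      exact (IrreducibleSpace.isIrreducible_univ _).image _ (𝒱.f i).continuous.continuousOn
    · obtain ⟨i, y, hy⟩ := 𝒱.exists_eq x
      exact ⟨i, y, hy⟩
    · have := hint WalkingSpan.zero
      obtain ⟨x⟩ : Nonempty (𝒱.X WalkingSpan.zero) := inferInstance
      refine ⟨𝒱.f WalkingSpan.zero x, ?_, ?_⟩
      · have hx : 𝒱.f WalkingSpan.zero x ∈ Set.range ⇑(𝒱.f WalkingSpan.zero) := ⟨x, rfl⟩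
        rw [hrange] at hx ⊢
        exact hsub i hx
      · have hx : 𝒱.f WalkingSpan.zero x ∈ Set.range ⇑(𝒱.f WalkingSpan.zero) := ⟨x, rfl⟩
        rw [hrange] at hx ⊢
        exact hsub j hx
  exact isIntegral_of_irreducibleSpace_of_isReduced _

end Fermat.Agent.S28
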