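import Mathlib
import Fermat.Agent.S28.Wrap
import Fermat.Agent.S28.Alg
import Fermat.Agent.S28.DegGlue
import Fermat.Agent.S28.DegZero
import Fermat.Agent.S28.IndMain
import Fermat.Agent.S28.IndInduct
import Fermat.Agent.S28.IndIrr
import Fermat.Agent.S28.IndA
import Fermat.Agent.S28.IndB
import Fermat.Agent.S28.IndIGk
import Fermat.Agent.S28.IgAlg
import Fermat.Agent.S28.Theta

/-!
# S28: assembly of the leaves (see `NOTES/plan/S28.md`)

`FA_S28_assemble` : PHI (all primes `≠ ℓ`) + UNIT (all primes `≠ ℓ`) + IndFin give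
`FA_S28_Target_Alg N ℓ`, hence (by `FA_S28_wrap`) the statement S28.
-/

set_option autoImplicit false

namespace Fermat.Agent.S28

open ModularCurve ModularCurve.IgusaScheme

theorem FA_S28_assemble (N : ℕ) [NeZero N] (ℓ : ℕ) [Fact ℓ.Prime] (hℓN : ¬ ℓ ∣ N)
    (hPHI : FA_S28_PHIall ℓ)
    (hUNIT : ∀ (p : ℕ) [NeZero p], p.Prime → p ≠ ℓ → FA_S28_Target_UNIT p ℓ)
    (hFin : FA_S28_Target_IndFin ℓ) : FA_S28_Target_Alg N ℓ := by
  have hIG : ∀ (p : ℕ) [NeZero p], p.Prime → p ≠ ℓ → FA_S28_Target_IG p ℓ :=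
    fun p _ hp hpl => FA_S28_ig_alg p ℓ hp hpl FA_S28_theta_main (hUNIT p hp hpl)
  have hIGall : ∀ (k : Type) [Field k] [CharP k ℓ], FA_S28_IGall k ℓ := FA_S28_igk ℓ hIG
  have hDeg : FA_S28_Target_IndDeg ℓ :=
    FA_S28_indInduct ℓ hPHI hIGall hFin (FA_S28_indIrr ℓ) (FA_S28_indA ℓ) (FA_S28_indB ℓ hFin)
  have hModL : FA_S28_Target_DegModL N ℓ := FA_S28_indMain ℓ hFin hPHI hDeg N hℓN
  exact FA_S28_alg N ℓ (FA_S28_degGlue N ℓ (FA_S28_degZero N) hModL)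

end Fermat.Agent.S28
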