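import Mathlib
import Fermat.Agent.S28.Assemble
import Fermat.Agent.S28.Phi
import Fermat.Agent.S28.IndFin

/-!
# S28: everything except the leaf UNIT

`FA_S28_final_of_unit` : UNIT (for all primes `p ≠ ℓ`) gives the statement S28.
-/

set_option autoImplicit false

namespace Fermat.Agent.S28

open AlgebraicGeometry CategoryTheory CategoryTheory.Limits ModularCurve ModularCurve.IgusaScheme

/-- PHI for all primes. -/
theorem FA_S28_phiAll (ℓ : ℕ) : FA_S28_PHIall ℓ := by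
  intro p _ hp _
  have : Fact p.Prime := ⟨hp⟩
  exact FA_S28_phi p

/-- **S28** from the leaf UNIT. -/
theorem FA_S28_final_of_unit (N : ℕ) [NeZero N] (ℓ : ℕ) [Fact ℓ.Prime] (hℓN : ¬ ℓ ∣ N)
    (hUNIT : ∀ (p : ℕ) [NeZero p], p.Prime → p ≠ ℓ → FA_S28_Target_UNIT p ℓ)
    (K : Type) [Field K] [CharP K ℓ] [Algebra ↥(GaloisRep.ratLocalizedAt ℓ) K] :
    IsIntegral ↑(pullback (igusaTo N ℓ)
      (Spec.map (CommRingCat.ofHom (algebraMap ↥(GaloisRep.ratLocalizedAt ℓ) K)))) :=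
  FA_S28_wrap N ℓ (FA_S28_assemble N ℓ hℓN (FA_S28_phiAll ℓ) hUNIT (FA_S28_indFin ℓ)) K

end Fermat.Agent.S28
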