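import Mathlib
import Fermat.Agent.S16.UInterface
import Fermat.Agent.S24.CQ
import Fermat.Agent.S24.CEta
import Fermat.Agent.S28.Interface

/-!
# S28, leaf UNIT: `Δ̄(q^p)/Δ̄(q) ∉ 𝔽_ℓ(j̄)` from S16's ALG-UNIT
-/

set_option autoImplicit false

noncomputable section

namespace Fermat.Agent.S28

open ModularCurve

/-- `Δ` as an integer power series. -/
def FA_S28_unit_dZ : PowerSeries ℤ := PowerSeries.X * etaProd ^ 24

/-- The form `∑ B_c E₄^{3(m-c)} Δ^c` over `ℤ`. -/
def FA_S28_unit_form (m : ℕ) (B : Fin (m + 1) → ℤ) : PowerSeries ℤ :=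
  ∑ c : Fin (m + 1), B c • (eisenstein4 ^ (3 * (m - (c : ℕ))) * FA_S28_unit_dZ ^ (c : ℕ))

theorem FA_S28_unit_map_form (m : ℕ) (B : Fin (m + 1) → ℤ) :
    PowerSeries.map (Int.castRingHom ℂ) (FA_S28_unit_form m B)
      = ∑ c : Fin (m + 1), (B c : ℂ) •
          (PowerSeries.map (Int.castRingHom ℂ) eisenstein4 ^ (3 * (m - (c : ℕ)))
            * PowerSeries.map (Int.castRingHom ℂ) FA_S28_unit_dZ ^ (c : ℕ)) := by
  rw [FA_S28_unit_form, map_sum]
  refine Finset.sum_congr rfl fun c _ => ?_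
  rw [map_zsmul, map_mul, map_pow, map_pow, Int.cast_smul_eq_zsmul]

/-- S16's ALG-UNIT in integer form. -/
theorem FA_S28_unit_int (hAn : FA_S16.FA_S16_An) (hAU : FA_S16.FA_S16_Target_AlgUnit)
    (p ℓ : ℕ) [Fact p.Prime] (hℓ : ℓ.Prime) (hne : ℓ ≠ p) (m : ℕ) (A B : Fin (m + 1) → ℤ)
    (hB : ∃ c, ¬ (ℓ : ℤ) ∣ B c) :
    ¬ ∀ n : ℕ, (ℓ : ℤ) ∣ PowerSeries.coeff n
      (FA_S28_unit_form m B * PowerSeries.expand p (Nat.Prime.ne_zero Fact.out) FA_S28_unit_dZ
        - FA_S28_unit_form m A * FA_S28_unit_dZ) := by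
  intro h
  apply hAU hAn p ℓ hℓ hne m A B hB
  intro n
  obtain ⟨y, hy⟩ := h n
  refine ⟨y, ?_⟩
  have hd : UpperHalfPlane.qExpansion 1 ModularForm.discriminant
      = PowerSeries.map (Int.castRingHom ℂ) FA_S28_unit_dZ :=
    Fermat.Agent.S24.FA_S24_qExpansion_disc
  rw [Fermat.Agent.S24.FA_S24_qExpansion_E4, hd, ← FA_S28_unit_map_form, ← FA_S28_unit_map_form,
    ← PowerSeries.map_expand, ← map_mul, ← map_mul, ← map_sub, PowerSeries.coeff_map, hy]
  simp


/-! ### Formal side -/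

section Formal

variable (R : Type) [CommRing R]

theorem FA_S28_unit_delta_eq :
    FA_S28_delta R
      = HahnSeries.ofPowerSeries ℤ R (PowerSeries.map (Int.castRingHom R) FA_S28_unit_dZ) := by
  rw [FA_S28_delta, FA_S28_unit_dZ, map_mul, PowerSeries.map_X, map_mul,
    HahnSeries.ofPowerSeries_X]
  rfl

theorem FA_S28_unit_j_mul_delta :
    jqModC R * FA_S28_delta R
      = HahnSeries.ofPowerSeries ℤ R (PowerSeries.map (Int.castRingHom R) eisenstein4) ^ 3 := by
  have hst : HahnSeries.single (-1 : ℤ) (1 : R) * HahnSeries.single (1 : ℤ) (1 : R) = 1 := by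
    rw [HahnSeries.single_mul_single]
    simp
  have h1 : HahnSeries.ofPowerSeries ℤ R (PowerSeries.map (Int.castRingHom R) jNum)
      * HahnSeries.ofPowerSeries ℤ R (PowerSeries.map (Int.castRingHom R) dedekindEtaUnit)
      = HahnSeries.ofPowerSeries ℤ R (PowerSeries.map (Int.castRingHom R) eisenstein4) ^ 3 := by
    rw [← map_mul, ← map_mul, ← map_pow, ← map_pow, jNum, mul_assoc,
      mul_comm dedekindEtaUnitInv, dedekindEtaUnit_mul_inv, mul_one]
  rw [jqModC, FA_S28_delta, ← h1]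
  linear_combination
    (HahnSeries.ofPowerSeries ℤ R (PowerSeries.map (Int.castRingHom R) jNum)
      * HahnSeries.ofPowerSeries ℤ R (PowerSeries.map (Int.castRingHom R) dedekindEtaUnit)) * hst

theorem FA_S28_unit_qExpand_ofPowerSeries (p : ℕ) [NeZero p] (f : PowerSeries R) :
    qExpand R p (HahnSeries.ofPowerSeries ℤ R f)
      = HahnSeries.ofPowerSeries ℤ R (PowerSeries.expand p (NeZero.ne p) f) := by
  ext n
  by_cases hn : (p : ℤ) ∣ n
  · obtain ⟨t, rfl⟩ := hn
    rw [qExpand_coeff_mul]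
    rcases lt_or_ge t 0 with ht | ht
    · have hp : (0 : ℤ) < p := by exact_mod_cast Nat.pos_of_ne_zero (NeZero.ne p)
      rw [ofPowerSeries_coeff_of_neg _ ht, ofPowerSeries_coeff_of_neg _ (mul_neg_of_pos_of_neg hp ht)]
    · obtain ⟨u, rfl⟩ := Int.eq_ofNat_of_zero_le ht
      rw [HahnSeries.ofPowerSeries_apply_coeff,
        show ((p : ℤ) * (u : ℤ)) = ((p * u : ℕ) : ℤ) by push_cast; rfl,
        HahnSeries.ofPowerSeries_apply_coeff, PowerSeries.coeff_expand_mul]
  · rw [qExpand_coeff_of_not_dvd p _ hn]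
    rcases lt_or_ge n 0 with ht | ht
    · rw [ofPowerSeries_coeff_of_neg _ ht]
    · obtain ⟨u, rfl⟩ := Int.eq_ofNat_of_zero_le ht
      rw [HahnSeries.ofPowerSeries_apply_coeff, PowerSeries.coeff_expand_of_not_dvd]
      intro hd
      exact hn (by exact_mod_cast hd)

end Formal


section Field

variable (k : Type) [Field k]

/-- `E₄` as a Laurent series over `k`. -/
def FA_S28_unit_E : LaurentSeries k :=
  HahnSeries.ofPowerSeries ℤ k (PowerSeries.map (Int.castRingHom k) eisenstein4)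

/-- clearing denominators: `Δ^m · f(j) = ∑_c f_{m-c} E₄^{3(m-c)} Δ^c`. -/
theorem FA_S28_unit_clear (m : ℕ) (f : Polynomial k) (hf : f.natDegree ≤ m) :
    FA_S28_delta k ^ m * Polynomial.aeval (jqModC k) f
      = ∑ c : Fin (m + 1), algebraMap k (LaurentSeries k) (f.coeff (m - (c : ℕ))) *
          (FA_S28_unit_E k ^ (3 * (m - (c : ℕ))) * FA_S28_delta k ^ (c : ℕ)) := by
  have hJD := FA_S28_unit_j_mul_delta k
  rw [Polynomial.aeval_eq_sum_range' (Nat.lt_succ_of_le hf), Finset.mul_sum,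
    ← Finset.sum_range (fun c => algebraMap k (LaurentSeries k) (f.coeff (m - c)) *
          (FA_S28_unit_E k ^ (3 * (m - c)) * FA_S28_delta k ^ c)),
    ← Finset.sum_range_reflect]
  refine Finset.sum_congr rfl fun i hi => ?_
  rw [Finset.mem_range] at hi
  have hi' : i ≤ m := Nat.lt_succ_iff.mp hi
  have e1 : m + 1 - 1 - i = m - i := by omega
  rw [e1, Algebra.smul_def, pow_mul, FA_S28_unit_E, ← hJD]
  have e3 : FA_S28_delta k ^ m = FA_S28_delta k ^ (m - i) * FA_S28_delta k ^ i := by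
    rw [← pow_add]
    congr 1
    omega
  rw [e3]
  ring

theorem FA_S28_unit_form_map (m : ℕ) (B : Fin (m + 1) → ℤ) :
    HahnSeries.ofPowerSeries ℤ k (PowerSeries.map (Int.castRingHom k) (FA_S28_unit_form m B))
      = ∑ c : Fin (m + 1), algebraMap k (LaurentSeries k) ((B c : ℤ) : k) *
          (FA_S28_unit_E k ^ (3 * (m - (c : ℕ))) * FA_S28_delta k ^ (c : ℕ)) := by
  rw [FA_S28_unit_form, map_sum, map_sum]
  refine Finset.sum_congr rfl fun c _ => ?_
  rw [zsmul_eq_mul, map_mul, map_mul, map_mul, map_mul, map_pow, map_pow, map_pow, map_pow,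
    ← FA_S28_unit_delta_eq, map_intCast, map_intCast, map_intCast]
  rfl

end Field

/-- **UNIT** from S16's ALG-UNIT. -/
theorem FA_S28_unit_of (hAn : FA_S16.FA_S16_An) (hAU : FA_S16.FA_S16_Target_AlgUnit)
    (p : ℕ) [NeZero p] (ℓ : ℕ) [Fact ℓ.Prime] (hp : p.Prime) (hpl : p ≠ ℓ) :
    FA_S28_Target_UNIT p ℓ := by
  intro hmem
  have : Fact p.Prime := ⟨hp⟩
  have hℓ : ℓ.Prime := Fact.out
  obtain ⟨a, b, hab⟩ := (IntermediateField.mem_adjoin_simple_iff (ZMod ℓ) _).mp hmem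
  have hΔ0 : FA_S28_delta (ZMod ℓ) ≠ 0 := by
    intro h
    have h1 : (FA_S28_delta (ZMod ℓ)).coeff 1 = 1 := by
      rw [FA_S28_delta, HahnSeries.coeff_single_mul, one_mul, sub_self,
        show (0 : ℤ) = ((0 : ℕ) : ℤ) from rfl, HahnSeries.ofPowerSeries_apply_coeff,
        PowerSeries.coeff_map, PowerSeries.coeff_zero_eq_constantCoeff_apply,
        constantCoeff_dedekindEtaUnit, map_one]
    rw [h, HahnSeries.coeff_zero] at h1
    exact zero_ne_one h1
  have hΔp0 : qExpand (ZMod ℓ) p (FA_S28_delta (ZMod ℓ)) ≠ 0 := by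
    intro h
    apply hΔ0
    apply qExpand_injective (R := ZMod ℓ) p
    rw [map_zero]
    exact h
  have hx0 : qExpand (ZMod ℓ) p (FA_S28_delta (ZMod ℓ)) * (FA_S28_delta (ZMod ℓ))⁻¹ ≠ 0 :=
    mul_ne_zero hΔp0 (inv_ne_zero hΔ0)
  have hb0 : Polynomial.aeval (jqModC (ZMod ℓ)) b ≠ 0 := by
    intro h
    rw [h, div_zero] at hab
    exact hx0 hab
  have hrel : Polynomial.aeval (jqModC (ZMod ℓ)) b * qExpand (ZMod ℓ) p (FA_S28_delta (ZMod ℓ))
      = Polynomial.aeval (jqModC (ZMod ℓ)) a * FA_S28_delta (ZMod ℓ) := by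
    field_simp at hab
    linear_combination hab
  set m := max a.natDegree b.natDegree with hm
  set A : Fin (m + 1) → ℤ := fun c => (((a.coeff (m - (c : ℕ))).val : ℕ) : ℤ) with hA
  set B : Fin (m + 1) → ℤ := fun c => (((b.coeff (m - (c : ℕ))).val : ℕ) : ℤ) with hB
  have hAc : ∀ c, ((A c : ℤ) : ZMod ℓ) = a.coeff (m - (c : ℕ)) := by
    intro c
    simp [hA]
  have hBc : ∀ c, ((B c : ℤ) : ZMod ℓ) = b.coeff (m - (c : ℕ)) := by
    intro c
    simp [hB]
  refine FA_S28_unit_int hAn hAU p ℓ hℓ hpl.symm m A B ?_ ?_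
  · -- some coefficient of `b` is nonzero
    have hbne : b ≠ 0 := by
      intro h
      rw [h, map_zero] at hb0
      exact hb0 rfl
    have hlc : b.coeff b.natDegree ≠ 0 := by
      rw [Polynomial.coeff_natDegree]
      exact Polynomial.leadingCoeff_ne_zero.mpr hbne
    have hle : b.natDegree ≤ m := le_max_right _ _
    refine ⟨⟨m - b.natDegree, by omega⟩, ?_⟩
    intro hd
    apply hlc
    have h1 := hBc ⟨m - b.natDegree, by omega⟩
    have e : m - (m - b.natDegree) = b.natDegree := by omega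
    simp only [e] at h1
    rw [← h1]
    exact (ZMod.intCast_zmod_eq_zero_iff_dvd _ ℓ).mpr hd
  · -- the relation mod `ℓ`
    have hzero : HahnSeries.ofPowerSeries ℤ (ZMod ℓ) (PowerSeries.map (Int.castRingHom (ZMod ℓ))
        (FA_S28_unit_form m B * PowerSeries.expand p (Nat.Prime.ne_zero Fact.out) FA_S28_unit_dZ
          - FA_S28_unit_form m A * FA_S28_unit_dZ)) = 0 := by
      rw [map_sub, map_mul, map_mul, map_sub, map_mul, map_mul, FA_S28_unit_form_map,
        FA_S28_unit_form_map, PowerSeries.map_expand, ← FA_S28_unit_qExpand_ofPowerSeries,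
        ← FA_S28_unit_delta_eq]
      simp only [hAc, hBc]
      rw [← FA_S28_unit_clear (ZMod ℓ) m b (le_max_right _ _),
        ← FA_S28_unit_clear (ZMod ℓ) m a (le_max_left _ _)]
      linear_combination (FA_S28_delta (ZMod ℓ) ^ m) * hrel
    have hinj : Function.Injective (HahnSeries.ofPowerSeries ℤ (ZMod ℓ)) :=
      HahnSeries.ofPowerSeries_injective
    have hz2 := hinj (hzero.trans (map_zero _).symm)
    intro n
    have h3 := congrArg (PowerSeries.coeff n) hz2
    rw [PowerSeries.coeff_map, map_zero] at h3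
    exact (ZMod.intCast_zmod_eq_zero_iff_dvd _ ℓ).mp h3

end Fermat.Agent.S28
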