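import Mathlib
import Fermat.Agent.S28.Unit
import Fermat.Agent.S28.IgAlg
import Fermat.Agent.S16.AlgUnit
import Fermat.Agent.S16.AnSym
import Fermat.Agent.S16.AnT1
import Fermat.Agent.S16.AnRing
import Fermat.Agent.S16.AnL1
import Fermat.Agent.S16.AnQ

/-!
# S28, leaves UNIT and IG, closed

`FA_S28_unit : FA_S28_Target_UNIT p ℓ` and `FA_S28_ig : FA_S28_Target_IG p ℓ` for primes `p ≠ ℓ`.
-/

set_option autoImplicit false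

namespace Fermat.Agent.S28

/-- **UNIT**: `Δ̄(q^p)/Δ̄(q) ∉ 𝔽_ℓ(j̄)` for primes `p ≠ ℓ`. -/
theorem FA_S28_unit (p : ℕ) [NeZero p] (ℓ : ℕ) [Fact ℓ.Prime] (hp : p.Prime) (hpl : p ≠ ℓ) :
    FA_S28_Target_UNIT p ℓ :=
  FA_S28_unit_of
    ⟨_root_.FA_S16_anSym, _root_.FA_S16_anT1, FA_S16.FA_S16_anRing, FA_S16.FA_S16_anL1,
      FA_S16.FA_S16_anQ⟩
    FA_S16.FA_S16_algUnit p ℓ hp hpl

/-- **IG**: `j̄(q^p) ∉ 𝔽_ℓ(j̄)` for primes `p ≠ ℓ`. -/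
theorem FA_S28_ig (p : ℕ) [NeZero p] (ℓ : ℕ) [Fact ℓ.Prime] (hp : p.Prime) (hpl : p ≠ ℓ) :
    FA_S28_Target_IG p ℓ :=
  FA_S28_ig_alg p ℓ hp hpl FA_S28_theta_main (FA_S28_unit p ℓ hp hpl)

end Fermat.Agent.S28
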