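import Mathlib

/-!
# S28, leaf ALG, abstract part 1: localisation of a subring at the complement of a prime kernel

`F` a field of characteristic `0`, `S ⊆ F` a subring, `red : S →+* Ω` a ring hom into a field of
characteristic `ℓ` with `ker red = ℓ S`, `S` being `ℓ`-adically separated and `F = Frac S`.
Then `W = {s / t : red t ≠ 0}` is a valuation ring of `F`, `red` extends to `RED : W →+* Ω`
and `ker RED = ℓ W`.
-/

set_option autoImplicit false
set_option linter.unusedSectionVars false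

noncomputable section

namespace Fermat.Agent.S28

section Loc

variable {F Ω : Type*} [Field F] [Field Ω] (S : Subring F) (red : S →+* Ω)

/-- The localisation `W` of `S` at the complement of the kernel of `red`, inside `F`. -/
def FA_S28_alg_W : Subring F where
  carrier := {y | ∃ s t : S, red t ≠ 0 ∧ y * (t : F) = (s : F)}
  mul_mem' := by
    rintro a b ⟨s, t, ht, h⟩ ⟨s', t', ht', h'⟩
    refine ⟨s * s', t * t', ?_, ?_⟩
    · rw [map_mul]; exact mul_ne_zero ht ht'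
    · push_cast
      rw [← h, ← h']; ring
  one_mem' := ⟨1, 1, by rw [map_one]; exact one_ne_zero, by simp⟩
  add_mem' := by
    rintro a b ⟨s, t, ht, h⟩ ⟨s', t', ht', h'⟩
    refine ⟨s * t' + s' * t, t * t', ?_, ?_⟩
    · rw [map_mul]; exact mul_ne_zero ht ht'
    · push_cast
      rw [← h, ← h']; ring
  zero_mem' := ⟨0, 1, by rw [map_one]; exact one_ne_zero, by simp⟩
  neg_mem' := by
    rintro a ⟨s, t, ht, h⟩
    refine ⟨-s, t, ht, ?_⟩
    push_cast
    rw [← h]; ring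

theorem FA_S28_alg_mem_W {y : F} :
    y ∈ FA_S28_alg_W S red ↔ ∃ s t : S, red t ≠ 0 ∧ y * (t : F) = (s : F) := Iff.rfl

theorem FA_S28_alg_S_le_W : S ≤ FA_S28_alg_W S red := by
  intro y hy
  exact ⟨⟨y, hy⟩, 1, by rw [map_one]; exact one_ne_zero, by simp⟩

theorem FA_S28_alg_exists_pair (y : FA_S28_alg_W S red) :
    ∃ p : S × S, red p.2 ≠ 0 ∧ (y : F) * (p.2 : F) = (p.1 : F) := by
  obtain ⟨s, t, ht, h⟩ := y.2
  exact ⟨(s, t), ht, h⟩

/-- The extended reduction map, as a function. -/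
def FA_S28_alg_REDfun (y : FA_S28_alg_W S red) : Ω :=
  red (Classical.choose (FA_S28_alg_exists_pair S red y)).1 /
    red (Classical.choose (FA_S28_alg_exists_pair S red y)).2

theorem FA_S28_alg_REDfun_eq (y : FA_S28_alg_W S red) (s t : S) (ht : red t ≠ 0)
    (h : (y : F) * (t : F) = (s : F)) : FA_S28_alg_REDfun S red y = red s / red t := by
  obtain ⟨ht₀, h₀⟩ := Classical.choose_spec (FA_S28_alg_exists_pair S red y)
  unfold FA_S28_alg_REDfun
  generalize Classical.choose (FA_S28_alg_exists_pair S red y) = p at ht₀ h₀ ⊢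
  rw [div_eq_div_iff ht₀ ht]
  rw [← map_mul, ← map_mul]
  congr 1
  apply Subtype.ext
  push_cast
  rw [← h₀, ← h]; ring

/-- The extended reduction map `RED : W →+* Ω`. -/
def FA_S28_alg_RED : FA_S28_alg_W S red →+* Ω where
  toFun := FA_S28_alg_REDfun S red
  map_one' := by
    rw [FA_S28_alg_REDfun_eq S red 1 1 1 (by rw [map_one]; exact one_ne_zero) (by simp)]
    simp
  map_mul' := by
    rintro ⟨a, s, t, ht, h⟩ ⟨b, s', t', ht', h'⟩
    rw [FA_S28_alg_REDfun_eq S red _ (s * s') (t * t')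
        (by rw [map_mul]; exact mul_ne_zero ht ht')
        (by push_cast; rw [← h, ← h']; ring),
      FA_S28_alg_REDfun_eq S red ⟨a, s, t, ht, h⟩ s t ht h,
      FA_S28_alg_REDfun_eq S red ⟨b, s', t', ht', h'⟩ s' t' ht' h']
    rw [map_mul, map_mul]
    field_simp
  map_zero' := by
    rw [FA_S28_alg_REDfun_eq S red 0 0 1 (by rw [map_one]; exact one_ne_zero) (by simp)]
    simp
  map_add' := by
    rintro ⟨a, s, t, ht, h⟩ ⟨b, s', t', ht', h'⟩
    rw [FA_S28_alg_REDfun_eq S red _ (s * t' + s' * t) (t * t')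
        (by rw [map_mul]; exact mul_ne_zero ht ht')
        (by push_cast; rw [← h, ← h']; ring),
      FA_S28_alg_REDfun_eq S red ⟨a, s, t, ht, h⟩ s t ht h,
      FA_S28_alg_REDfun_eq S red ⟨b, s', t', ht', h'⟩ s' t' ht' h']
    rw [map_mul, map_add, map_mul, map_mul]
    field_simp

theorem FA_S28_alg_RED_eq (y : FA_S28_alg_W S red) (s t : S) (ht : red t ≠ 0)
    (h : (y : F) * (t : F) = (s : F)) : FA_S28_alg_RED S red y = red s / red t :=
  FA_S28_alg_REDfun_eq S red y s t ht h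

theorem FA_S28_alg_RED_of_mem (s : S) :
    FA_S28_alg_RED S red ⟨(s : F), FA_S28_alg_S_le_W S red s.2⟩ = red s := by
  rw [FA_S28_alg_RED_eq S red _ s 1 (by rw [map_one]; exact one_ne_zero) (by simp)]
  simp

/-- Elements of `S` with non-zero reduction are units of `W`. -/
theorem FA_S28_alg_inv_mem_W (t : S) (ht : red t ≠ 0) : ((t : F))⁻¹ ∈ FA_S28_alg_W S red := by
  have ht0 : (t : F) ≠ 0 := by
    intro h
    apply ht
    have : t = 0 := Subtype.ext h
    rw [this, map_zero]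
  exact ⟨1, t, ht, by simp [ht0]⟩

theorem FA_S28_alg_div_mem_W (s t : S) (ht : red t ≠ 0) :
    (s : F) / (t : F) ∈ FA_S28_alg_W S red := by
  rw [div_eq_mul_inv]
  exact mul_mem (FA_S28_alg_S_le_W S red s.2) (FA_S28_alg_inv_mem_W S red t ht)

end Loc

section Val

variable {F Ω : Type*} [Field F] [CharZero F] [Field Ω] (ℓ : ℕ) [Fact ℓ.Prime] [CharP Ω ℓ]
  (S : Subring F) (red : S →+* Ω)

omit [CharZero F] [Fact ℓ.Prime] in
theorem FA_S28_alg_red_ell : red (ℓ : S) = 0 := by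
  rw [map_natCast]
  exact CharP.cast_eq_zero Ω ℓ

theorem FA_S28_alg_ell_ne_zero : (ℓ : F) ≠ 0 :=
  Nat.cast_ne_zero.mpr (Fact.out : ℓ.Prime).ne_zero

omit [CharP Ω ℓ] in
/-- `ker RED ⊆ ℓ W`. -/
theorem FA_S28_alg_RED_ker
    (hker : ∀ s : S, red s = 0 → ∃ s' : S, s = (ℓ : S) * s')
    (y : FA_S28_alg_W S red) (hy : FA_S28_alg_RED S red y = 0) :
    ∃ w : FA_S28_alg_W S red, (y : F) = (ℓ : F) * (w : F) := by
  obtain ⟨y, s, t, ht, h⟩ := y
  rw [FA_S28_alg_RED_eq S red _ s t ht h, div_eq_zero_iff] at hy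
  rcases hy with hy | hy
  · obtain ⟨s', hs'⟩ := hker s hy
    have hℓ := FA_S28_alg_ell_ne_zero (F := F) ℓ
    refine ⟨⟨y / ℓ, s', t, ht, ?_⟩, ?_⟩
    · have : (s : F) = (ℓ : F) * (s' : F) := by rw [hs']; push_cast; rfl
      rw [div_mul_eq_mul_div, h, this]
      field_simp
    · show y = (ℓ : F) * (y / ℓ)
      field_simp
  · exact absurd hy ht

omit [CharZero F] [Fact ℓ.Prime] in
/-- `ℓ W ⊆ ker RED`. -/
theorem FA_S28_alg_RED_ell_mul (w : FA_S28_alg_W S red) :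
    FA_S28_alg_RED S red ((ℓ : FA_S28_alg_W S red) * w) = 0 := by
  rw [map_mul, map_natCast, CharP.cast_eq_zero Ω ℓ, zero_mul]

omit [CharZero F] [Fact ℓ.Prime] [CharP Ω ℓ] in
/-- Every non-zero element of `S` is `ℓ ^ a * s'` with `red s' ≠ 0`. -/
theorem FA_S28_alg_decomp
    (hker : ∀ s : S, red s = 0 → ∃ s' : S, s = (ℓ : S) * s')
    (hsep : ∀ s : S, s ≠ 0 → ∃ k : ℕ, ∀ s' : S, s ≠ (ℓ : S) ^ k * s')
    (s : S) (hs : s ≠ 0) : ∃ (a : ℕ) (s' : S), red s' ≠ 0 ∧ s = (ℓ : S) ^ a * s' := by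
  obtain ⟨k, hk⟩ := hsep s hs
  induction k generalizing s with
  | zero => exact absurd (by simp) (hk s)
  | succ k ih =>
    by_cases h : red s = 0
    · obtain ⟨s₁, hs₁⟩ := hker s h
      have hs₁0 : s₁ ≠ 0 := by
        rintro rfl
        exact hs (by rw [hs₁, mul_zero])
      obtain ⟨a, s', hs', h'⟩ := ih s₁ hs₁0 (by
        intro s' h'
        apply hk s'
        rw [hs₁, h', pow_succ]; ring)
      exact ⟨a + 1, s', hs', by rw [hs₁, h', pow_succ]; ring⟩
    · exact ⟨0, s, h, by simp⟩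

/-- `W` is a valuation ring of `F`. -/
theorem FA_S28_alg_mem_or_inv_mem
    (hker : ∀ s : S, red s = 0 → ∃ s' : S, s = (ℓ : S) * s')
    (hsep : ∀ s : S, s ≠ 0 → ∃ k : ℕ, ∀ s' : S, s ≠ (ℓ : S) ^ k * s')
    (hfrac : ∀ y : F, ∃ s t : S, t ≠ 0 ∧ y * (t : F) = (s : F))
    (y : F) : y ∈ FA_S28_alg_W S red ∨ y⁻¹ ∈ FA_S28_alg_W S red := by
  by_cases hy : y = 0
  · left; rw [hy]; exact zero_mem _
  obtain ⟨s, t, ht, h⟩ := hfrac y
  have ht0 : (t : F) ≠ 0 := fun h0 => ht (Subtype.ext h0)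
  have hs : s ≠ 0 := by
    rintro rfl
    have : y * (t : F) = 0 := by rw [h]; rfl
    rcases mul_eq_zero.mp this with h1 | h1
    · exact hy h1
    · exact ht0 h1
  obtain ⟨a, s', hs', hsa⟩ := FA_S28_alg_decomp ℓ S red hker hsep s hs
  obtain ⟨b, t', ht', htb⟩ := FA_S28_alg_decomp ℓ S red hker hsep t ht
  have hℓ := FA_S28_alg_ell_ne_zero (F := F) ℓ
  have hsF : (s : F) = (ℓ : F) ^ a * (s' : F) := by rw [hsa]; push_cast; rfl
  have htF : (t : F) = (ℓ : F) ^ b * (t' : F) := by rw [htb]; push_cast; rfl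
  have hs'0 : (s' : F) ≠ 0 := by
    intro h0
    apply hs'
    rw [show s' = 0 from Subtype.ext h0, map_zero]
  have ht'0 : (t' : F) ≠ 0 := by
    intro h0
    apply ht'
    rw [show t' = 0 from Subtype.ext h0, map_zero]
  rw [hsF, htF] at h
  rcases le_total b a with hba | hab
  · left
    refine ⟨(ℓ : S) ^ (a - b) * s', t', ht', ?_⟩
    push_cast
    have : (ℓ : F) ^ a = (ℓ : F) ^ (a - b) * (ℓ : F) ^ b := by
      rw [← pow_add, Nat.sub_add_cancel hba]
    rw [this] at h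
    have hb : (ℓ : F) ^ b ≠ 0 := pow_ne_zero _ hℓ
    apply mul_left_cancel₀ hb
    linear_combination h
  · right
    refine ⟨(ℓ : S) ^ (b - a) * t', s', hs', ?_⟩
    push_cast
    have : (ℓ : F) ^ b = (ℓ : F) ^ (b - a) * (ℓ : F) ^ a := by
      rw [← pow_add, Nat.sub_add_cancel hab]
    rw [this] at h
    have ha : (ℓ : F) ^ a ≠ 0 := pow_ne_zero _ hℓ
    apply mul_left_cancel₀ ha
    apply mul_left_cancel₀ hy
    have hyy : y * y⁻¹ = 1 := mul_inv_cancel₀ hy
    linear_combination (-1 : F) * h + ((ℓ : F) ^ a * (s' : F)) * hyy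

/-- `W` as a valuation subring. -/
def FA_S28_alg_Wv
    (hker : ∀ s : S, red s = 0 → ∃ s' : S, s = (ℓ : S) * s')
    (hsep : ∀ s : S, s ≠ 0 → ∃ k : ℕ, ∀ s' : S, s ≠ (ℓ : S) ^ k * s')
    (hfrac : ∀ y : F, ∃ s t : S, t ≠ 0 ∧ y * (t : F) = (s : F)) : ValuationSubring F :=
  { FA_S28_alg_W S red with
    mem_or_inv_mem' := FA_S28_alg_mem_or_inv_mem ℓ S red hker hsep hfrac }

theorem FA_S28_alg_mem_Wv
    (hker : ∀ s : S, red s = 0 → ∃ s' : S, s = (ℓ : S) * s')
    (hsep : ∀ s : S, s ≠ 0 → ∃ k : ℕ, ∀ s' : S, s ≠ (ℓ : S) ^ k * s')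
    (hfrac : ∀ y : F, ∃ s t : S, t ≠ 0 ∧ y * (t : F) = (s : F)) (y : F) :
    y ∈ FA_S28_alg_Wv ℓ S red hker hsep hfrac ↔ y ∈ FA_S28_alg_W S red := Iff.rfl

/-- `W` is integrally closed in `F`: anything integral over a ring mapping into `W` lies in `W`. -/
theorem FA_S28_alg_mem_W_of_isIntegral
    (hker : ∀ s : S, red s = 0 → ∃ s' : S, s = (ℓ : S) * s')
    (hsep : ∀ s : S, s ≠ 0 → ∃ k : ℕ, ∀ s' : S, s ≠ (ℓ : S) ^ k * s')
    (hfrac : ∀ y : F, ∃ s t : S, t ≠ 0 ∧ y * (t : F) = (s : F))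
    {B : Type*} [CommRing B] [Algebra B F]
    (hB : ∀ b : B, algebraMap B F b ∈ FA_S28_alg_W S red)
    (y : F) (hy : IsIntegral B y) : y ∈ FA_S28_alg_W S red := by
  set Wv := FA_S28_alg_Wv ℓ S red hker hsep hfrac with hWv
  have h1 : IsIntegral Wv y := by
    obtain ⟨p, hp, hpy⟩ := hy
    let φ : B →+* Wv := (algebraMap B F).codRestrict Wv.toSubring hB
    refine ⟨p.map φ, hp.map φ, ?_⟩
    rw [Polynomial.eval₂_map]
    exact hpy
  obtain ⟨w, hw⟩ := (IsIntegrallyClosed.isIntegral_iff (R := Wv) (K := F)).mp h1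
  rw [← hw]
  exact w.2

end Val

end Fermat.Agent.S28
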