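import Fermat.Agent.S28.AlgAbs1

/-!
# S28, leaf ALG, abstract part 2: polynomials in `x`, content, the module `W = ∑ R₂ e_i`
-/

set_option autoImplicit false
set_option linter.unusedSectionVars false

noncomputable section

namespace Fermat.Agent.S28

open Polynomial

section Poly

variable {F Ω : Type*} [Field F] [CharZero F] [Field Ω] (ℓ : ℕ) [Fact ℓ.Prime] [CharP Ω ℓ]
  [Algebra (ZMod ℓ) Ω] (S : Subring F) (red : S →+* Ω) (x : S)

/-- Reduction mod `ℓ` of integer polynomials. -/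
abbrev FA_S28_alg_pbar (P : ℤ[X]) : (ZMod ℓ)[X] := P.map (Int.castRingHom (ZMod ℓ))

theorem FA_S28_alg_coe_aeval (P : ℤ[X]) : ((aeval x P : S) : F) = aeval (x : F) P := by
  have := aeval_algHom_apply (S.subtype.toIntAlgHom) x P
  exact this.symm

theorem FA_S28_alg_red_aeval (P : ℤ[X]) :
    red (aeval x P) = aeval (red x) (FA_S28_alg_pbar ℓ P) := by
  have h : (red.comp (aeval x : ℤ[X] →ₐ[ℤ] S).toRingHom) =
      ((aeval (red x) : (ZMod ℓ)[X] →ₐ[ZMod ℓ] Ω).toRingHom.comp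
        (mapRingHom (Int.castRingHom (ZMod ℓ)))) := by
    apply Polynomial.ringHom_ext
    · intro a
      simp
    · simp
  exact congrArg (fun f : ℤ[X] →+* Ω => f P) h

theorem FA_S28_alg_pbar_eq_zero (P : ℤ[X]) (h : FA_S28_alg_pbar ℓ P = 0) :
    ∃ P₁ : ℤ[X], P = C (ℓ : ℤ) * P₁ := by
  have h1 : C (ℓ : ℤ) ∣ P := by
    rw [C_dvd_iff_dvd_coeff]
    intro i
    have := congrArg (fun p : (ZMod ℓ)[X] => p.coeff i) h
    simp only [coeff_map, coeff_zero, eq_intCast] at this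
    exact (ZMod.intCast_zmod_eq_zero_iff_dvd _ _).mp this
  exact h1

theorem FA_S28_alg_pbar_C_mul (P : ℤ[X]) : FA_S28_alg_pbar ℓ (C (ℓ : ℤ) * P) = 0 := by
  simp [FA_S28_alg_pbar]

/-- Content decomposition: `Q = ℓ ^ k * Q'` with `Q' ≢ 0 mod ℓ`. -/
theorem FA_S28_alg_content (Q : ℤ[X]) (hQ : Q ≠ 0) :
    ∃ (k : ℕ) (Q' : ℤ[X]), Q = C ((ℓ : ℤ) ^ k) * Q' ∧ FA_S28_alg_pbar ℓ Q' ≠ 0 := by
  have hℓ : (ℓ : ℤ) ≠ 0 := by exact_mod_cast (Fact.out : ℓ.Prime).ne_zero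
  have key : ∀ m : ℕ, ∀ Q : ℤ[X], Q ≠ 0 → Q.leadingCoeff.natAbs = m →
      ∃ (k : ℕ) (Q' : ℤ[X]), Q = C ((ℓ : ℤ) ^ k) * Q' ∧ FA_S28_alg_pbar ℓ Q' ≠ 0 := by
    intro m
    induction m using Nat.strong_induction_on with
    | _ m ih =>
      intro Q hQ hm
      by_cases h : FA_S28_alg_pbar ℓ Q = 0
      · obtain ⟨Q₁, hQ₁⟩ := FA_S28_alg_pbar_eq_zero ℓ Q h
        have hQ₁0 : Q₁ ≠ 0 := by
          rintro rfl
          exact hQ (by rw [hQ₁, mul_zero])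
        have hlc : Q.leadingCoeff = (ℓ : ℤ) * Q₁.leadingCoeff := by
          rw [hQ₁, leadingCoeff_mul, leadingCoeff_C]
        have hlt : Q₁.leadingCoeff.natAbs < m := by
          rw [← hm, hlc, Int.natAbs_mul, Int.natAbs_natCast]
          have h1 : 0 < Q₁.leadingCoeff.natAbs :=
            Int.natAbs_pos.mpr (leadingCoeff_ne_zero.mpr hQ₁0)
          have h2 : 2 ≤ ℓ := (Fact.out : ℓ.Prime).two_le
          nlinarith
        obtain ⟨k, Q', hk, hQ'⟩ := ih _ hlt Q₁ hQ₁0 rfl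
        refine ⟨k + 1, Q', ?_, hQ'⟩
        rw [hQ₁, hk, pow_succ, C_mul]
        ring
      · exact ⟨0, Q, by simp, h⟩
  exact key _ Q hQ rfl

variable (htr : ∀ P : (ZMod ℓ)[X], aeval (red x) P = 0 → P = 0)

include htr in
theorem FA_S28_alg_red_aeval_ne_zero (Q : ℤ[X]) (hQ : FA_S28_alg_pbar ℓ Q ≠ 0) :
    red (aeval x Q) ≠ 0 := by
  rw [FA_S28_alg_red_aeval ℓ S red x Q]
  exact fun h => hQ (htr _ h)

include htr in
theorem FA_S28_alg_aeval_ne_zero (Q : ℤ[X]) (hQ : Q ≠ 0) : aeval (x : F) Q ≠ 0 := by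
  obtain ⟨k, Q', hk, hQ'⟩ := FA_S28_alg_content ℓ Q hQ
  have h1 := FA_S28_alg_red_aeval_ne_zero ℓ S red x htr Q' hQ'
  have h2 : aeval (x : F) Q' ≠ 0 := by
    intro h0
    apply h1
    have : (aeval x Q' : S) = 0 := Subtype.ext (by rw [FA_S28_alg_coe_aeval, h0]; rfl)
    rw [this, map_zero]
  rw [hk, map_mul, aeval_C]
  refine mul_ne_zero ?_ h2
  simp only [eq_intCast, Int.cast_pow, Int.cast_natCast]
  exact pow_ne_zero _ (FA_S28_alg_ell_ne_zero ℓ)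

end Poly

section Span

variable {F Ω : Type*} [Field F] [CharZero F] [Field Ω] (ℓ : ℕ) [Fact ℓ.Prime] [CharP Ω ℓ]
  [Algebra (ZMod ℓ) Ω] (S : Subring F) (red : S →+* Ω) (x : S) {n : ℕ} (e : Fin n → S)

/-- The hypotheses of the abstract theorem, bundled. -/
structure FA_S28_alg_Hyp : Prop where
  hker : ∀ s : S, red s = 0 → ∃ s' : S, s = (ℓ : S) * s'
  hsep : ∀ s : S, s ≠ 0 → ∃ k : ℕ, ∀ s' : S, s ≠ (ℓ : S) ^ k * s'
  htr : ∀ P : (ZMod ℓ)[X], aeval (red x) P = 0 → P = 0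
  hli : ∀ c : Fin n → (ZMod ℓ)[X], (∑ i, aeval (red x) (c i) * red (e i)) = 0 → ∀ i, c i = 0
  hspan : ∀ y : F, ∃ (Q : ℤ[X]) (P : Fin n → ℤ[X]), Q ≠ 0 ∧
    aeval (x : F) Q * y = ∑ i, aeval (x : F) (P i) * (e i : F)

variable {ℓ S red x e}

theorem FA_S28_alg_Hyp.hfrac (H : FA_S28_alg_Hyp ℓ S red x e) :
    ∀ y : F, ∃ s t : S, t ≠ 0 ∧ y * (t : F) = (s : F) := by
  intro y
  obtain ⟨Q, P, hQ, h⟩ := H.hspan y
  refine ⟨∑ i, aeval x (P i) * e i, aeval x Q, ?_, ?_⟩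
  · intro h0
    apply FA_S28_alg_aeval_ne_zero ℓ S red x H.htr Q hQ
    rw [← FA_S28_alg_coe_aeval, h0]; rfl
  · rw [mul_comm, FA_S28_alg_coe_aeval, h]
    push_cast
    refine Finset.sum_congr rfl fun i _ => ?_
    rw [FA_S28_alg_coe_aeval]

theorem FA_S28_alg_Hyp.mem_W_of_isIntegral (H : FA_S28_alg_Hyp ℓ S red x e)
    {B : Type*} [CommRing B] [Algebra B F]
    (hB : ∀ b : B, algebraMap B F b ∈ FA_S28_alg_W S red)
    (y : F) (hy : IsIntegral B y) : y ∈ FA_S28_alg_W S red :=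
  FA_S28_alg_mem_W_of_isIntegral ℓ S red H.hker H.hsep H.hfrac hB y hy

/-- `RED` of an element `ℓ * w` with `w ∈ W` vanishes (element form). -/
theorem FA_S28_alg_RED_ell_mul' (w : F) (hw : w ∈ FA_S28_alg_W S red)
    (y : FA_S28_alg_W S red) (hy : (y : F) = (ℓ : F) * w) : FA_S28_alg_RED S red y = 0 := by
  have : y = (ℓ : FA_S28_alg_W S red) * ⟨w, hw⟩ := Subtype.ext (by rw [hy]; push_cast; rfl)
  rw [this]
  exact FA_S28_alg_RED_ell_mul ℓ S red _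

/-- Key step: a relation `ℓ^k Q'(x) y = ∑ P_i(x) e_i` with `y ∈ W` can be divided by `ℓ^k`. -/
theorem FA_S28_alg_Hyp.divide (H : FA_S28_alg_Hyp ℓ S red x e) (y : F)
    (hy : y ∈ FA_S28_alg_W S red) (Q' : ℤ[X]) (k : ℕ) (P : Fin n → ℤ[X])
    (h : (ℓ : F) ^ k * (aeval (x : F) Q' * y) = ∑ i, aeval (x : F) (P i) * (e i : F)) :
    ∃ P' : Fin n → ℤ[X], aeval (x : F) Q' * y = ∑ i, aeval (x : F) (P' i) * (e i : F) := by
  induction k generalizing P with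
  | zero => exact ⟨P, by simpa using h⟩
  | succ k ih =>
    -- reduce the relation
    have hS : ∀ s : S, (s : F) ∈ FA_S28_alg_W S red := fun s => FA_S28_alg_S_le_W S red s.2
    have hw : (ℓ : F) ^ k * (aeval (x : F) Q' * y) ∈ FA_S28_alg_W S red := by
      refine mul_mem (pow_mem (natCast_mem _ _) _) (mul_mem ?_ hy)
      rw [← FA_S28_alg_coe_aeval]
      exact hS _
    have hsum : (((∑ i, aeval x (P i) * e i : S) : S) : F) =
        (ℓ : F) * ((ℓ : F) ^ k * (aeval (x : F) Q' * y)) := by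
      rw [← mul_assoc, ← pow_succ', h]
      push_cast
      refine Finset.sum_congr rfl fun i _ => ?_
      rw [FA_S28_alg_coe_aeval]
    have hred : red (∑ i, aeval x (P i) * e i) = 0 := by
      rw [← FA_S28_alg_RED_of_mem S red]
      exact FA_S28_alg_RED_ell_mul' _ hw _ hsum
    rw [map_sum] at hred
    have hred' : (∑ i, aeval (red x) (FA_S28_alg_pbar ℓ (P i)) * red (e i)) = 0 := by
      rw [← hred]
      refine Finset.sum_congr rfl fun i _ => ?_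
      rw [map_mul, FA_S28_alg_red_aeval ℓ S red x]
    have hP := H.hli _ hred'
    choose P₁ hP₁ using fun i => FA_S28_alg_pbar_eq_zero ℓ (P i) (hP i)
    apply ih P₁
    have hℓ := FA_S28_alg_ell_ne_zero (F := F) ℓ
    apply mul_left_cancel₀ hℓ
    rw [← mul_assoc, ← pow_succ', h, Finset.mul_sum]
    refine Finset.sum_congr rfl fun i _ => ?_
    rw [hP₁ i, map_mul, aeval_C]
    simp only [eq_intCast, Int.cast_natCast]
    ring

/-- **Lemma K**: every `y ∈ W` satisfies `Q(x) y = ∑ P_i(x) e_i` with `Q ≢ 0 mod ℓ`. -/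
theorem FA_S28_alg_Hyp.lemmaK (H : FA_S28_alg_Hyp ℓ S red x e) (y : F)
    (hy : y ∈ FA_S28_alg_W S red) :
    ∃ (Q : ℤ[X]) (P : Fin n → ℤ[X]), FA_S28_alg_pbar ℓ Q ≠ 0 ∧
      aeval (x : F) Q * y = ∑ i, aeval (x : F) (P i) * (e i : F) := by
  obtain ⟨Q, P, hQ, h⟩ := H.hspan y
  obtain ⟨k, Q', hk, hQ'⟩ := FA_S28_alg_content ℓ Q hQ
  have h' : (ℓ : F) ^ k * (aeval (x : F) Q' * y) = ∑ i, aeval (x : F) (P i) * (e i : F) := by
    rw [← h, hk, map_mul, aeval_C]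
    simp only [eq_intCast, Int.cast_pow, Int.cast_natCast]
    ring
  obtain ⟨P', hP'⟩ := H.divide y hy Q' k P h'
  exact ⟨Q', P', hQ', hP'⟩

/-- Polynomials in `x` lying in `ℓ^k W` are divisible by `ℓ^k`. -/
theorem FA_S28_alg_Hyp.poly_divide (H : FA_S28_alg_Hyp ℓ S red x e) (c : F)
    (hc : c ∈ FA_S28_alg_W S red) (k : ℕ) (P : ℤ[X])
    (h : (ℓ : F) ^ k * c = aeval (x : F) P) :
    ∃ P' : ℤ[X], c = aeval (x : F) P' := by
  induction k generalizing P with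
  | zero => exact ⟨P, by simpa using h⟩
  | succ k ih =>
    have hw : (ℓ : F) ^ k * c ∈ FA_S28_alg_W S red :=
      mul_mem (pow_mem (natCast_mem _ _) _) hc
    have hP : ((aeval x P : S) : F) = (ℓ : F) * ((ℓ : F) ^ k * c) := by
      rw [FA_S28_alg_coe_aeval, ← h, pow_succ']; ring
    have hred : red (aeval x P) = 0 := by
      rw [← FA_S28_alg_RED_of_mem S red]
      exact FA_S28_alg_RED_ell_mul' _ hw _ hP
    rw [FA_S28_alg_red_aeval ℓ S red x] at hred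
    obtain ⟨P₁, hP₁⟩ := FA_S28_alg_pbar_eq_zero ℓ P (H.htr _ hred)
    apply ih P₁
    have hℓ := FA_S28_alg_ell_ne_zero (F := F) ℓ
    apply mul_left_cancel₀ hℓ
    rw [← mul_assoc, ← pow_succ', h, hP₁, map_mul, aeval_C]
    simp only [eq_intCast, Int.cast_natCast]

end Span

end Fermat.Agent.S28
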