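import Fermat.Agent.S28.AlgAbs2

/-!
# S28, leaf ALG, abstract part 3: integrality over `R₂ = W ∩ ℚ(x)` and over `ℚ[x]`,
and the main abstract theorem: `A ∩ ℓ W = ℓ A` for the integral closure `A` of `ℤ_(ℓ)[x]`.
-/

set_option autoImplicit false
set_option linter.unusedSectionVars false

noncomputable section

namespace Fermat.Agent.S28

open Polynomial IntermediateField

section Main

variable {F Ω : Type*} [Field F] [CharZero F] [Algebra ℚ F] [Field Ω] {ℓ : ℕ} [Fact ℓ.Prime]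
  [CharP Ω ℓ] [Algebra (ZMod ℓ) Ω] {S : Subring F} {red : S →+* Ω} {x : S} {n : ℕ}
  {e : Fin n → S}

theorem FA_S28_alg_aeval_mem_adjoin (x : F) (P : ℤ[X]) :
    aeval x P ∈ Algebra.adjoin ℚ {x} := by
  rw [← aeval_map_algebraMap ℚ x P]
  exact aeval_mem_adjoin_singleton ℚ x

theorem FA_S28_alg_aeval_mem_K0 (x : F) (P : ℤ[X]) :
    aeval x P ∈ IntermediateField.adjoin ℚ {x} :=
  algebra_adjoin_le_adjoin ℚ _ (FA_S28_alg_aeval_mem_adjoin x P)

/-- Transcendence of `x` over `ℚ`. -/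
theorem FA_S28_alg_Hyp.transcendental (H : FA_S28_alg_Hyp ℓ S red x e) :
    Transcendental ℚ (x : F) := by
  have h1 : Transcendental ℤ (x : F) := by
    rw [transcendental_iff]
    intro P hP
    by_contra h0
    exact FA_S28_alg_aeval_ne_zero ℓ S red x H.htr P h0 hP
  intro h2
  exact h1 ((IsFractionRing.isAlgebraic_iff ℤ ℚ F).mpr h2)

/-- `ℚ[x]` is integrally closed. -/
theorem FA_S28_alg_Hyp.isIntegrallyClosed_adjoin (H : FA_S28_alg_Hyp ℓ S red x e) :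
    IsIntegrallyClosed ↥(Algebra.adjoin ℚ {(x : F)}) := by
  have hinj : Function.Injective (aeval (R := ℚ) (x : F)) :=
    transcendental_iff_injective.mp H.transcendental
  have heq : (aeval (R := ℚ) (x : F)).range = Algebra.adjoin ℚ {(x : F)} :=
    (Algebra.adjoin_singleton_eq_range_aeval ℚ (x : F)).symm
  let f : ℚ[X] ≃ₐ[ℚ] ↥(Algebra.adjoin ℚ {(x : F)}) :=
    (AlgEquiv.ofInjective (aeval (R := ℚ) (x : F)) hinj).trans (Subalgebra.equivOfEq _ _ heq)
  exact IsIntegrallyClosed.of_equiv f.toRingEquiv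

/-- Elements of `ℚ[x] ∩ W` are of the form `m⁻¹ P(x)` with `ℓ ∤ m`, `P ∈ ℤ[X]`. -/
theorem FA_S28_alg_Hyp.adjoin_inter_W (H : FA_S28_alg_Hyp ℓ S red x e) (c : F)
    (hc1 : c ∈ Algebra.adjoin ℚ {(x : F)}) (hc2 : c ∈ FA_S28_alg_W S red) :
    ∃ (m : ℤ) (P : ℤ[X]), ¬ (ℓ : ℤ) ∣ m ∧ c = (m : F)⁻¹ * aeval (x : F) P := by
  rw [Algebra.adjoin_singleton_eq_range_aeval] at hc1
  obtain ⟨P, hP⟩ := hc1
  obtain ⟨b, hbM, hb⟩ := IsLocalization.integerNormalization_spec (nonZeroDivisors ℤ) P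
  set P₀ := IsLocalization.integerNormalization (nonZeroDivisors ℤ) P with hP₀
  have hb0 : (b : ℤ) ≠ 0 := nonZeroDivisors.ne_zero hbM
  have h1 : aeval (x : F) P₀ = ((b : ℤ) : F) * c := by
    rw [← aeval_map_algebraMap ℚ (x : F) P₀, hb, map_zsmul, zsmul_eq_mul]
    congr 1
  have hfin : FiniteMultiplicity (ℓ : ℤ) (b : ℤ) := by
    rw [Int.finiteMultiplicity_iff]
    refine ⟨?_, hb0⟩
    rw [Int.natAbs_natCast]
    exact (Fact.out : ℓ.Prime).ne_one
  obtain ⟨m, hm, hℓm⟩ := hfin.exists_eq_pow_mul_and_not_dvd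
  set k := multiplicity (ℓ : ℤ) (b : ℤ) with hk
  have hmW : ((m : ℤ) : F) * c ∈ FA_S28_alg_W S red := mul_mem (intCast_mem _ _) hc2
  have h2 : (ℓ : F) ^ k * (((m : ℤ) : F) * c) = aeval (x : F) P₀ := by
    rw [h1, hm]
    push_cast
    ring
  obtain ⟨P', hP'⟩ := H.poly_divide _ hmW k P₀ h2
  refine ⟨m, P', hℓm, ?_⟩
  have hm0 : ((m : ℤ) : F) ≠ 0 := by
    have : m ≠ 0 := by
      rintro rfl
      exact hℓm (dvd_zero _)
    exact_mod_cast this
  rw [← hP']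
  field_simp

end Main

end Fermat.Agent.S28
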