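import Fermat.Agent.S28.AlgAbs3

/-!
# S28, leaf ALG, abstract part 4: the main abstract theorem
-/

set_option autoImplicit false
set_option linter.unusedSectionVars false
set_option linter.style.haveILetI false

noncomputable section

namespace Fermat.Agent.S28

open Polynomial IntermediateField

open scoped IntermediateField.algebraAdjoinAdjoin

section Main

variable {F Ω : Type*} [Field F] [CharZero F] [Algebra ℚ F] [Field Ω] {ℓ : ℕ} [Fact ℓ.Prime]
  [CharP Ω ℓ] [Algebra (ZMod ℓ) Ω] {S : Subring F} {red : S →+* Ω} {x : S} {n : ℕ}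
  {e : Fin n → S}

/-- The valuation ring `W`. -/
def FA_S28_alg_Hyp.Wv (H : FA_S28_alg_Hyp ℓ S red x e) : ValuationSubring F :=
  FA_S28_alg_Wv ℓ S red H.hker H.hsep H.hfrac

theorem FA_S28_alg_Hyp.mem_Wv (H : FA_S28_alg_Hyp ℓ S red x e) (y : F) :
    y ∈ H.Wv ↔ y ∈ FA_S28_alg_W S red := Iff.rfl

/-- `R₂ = W ∩ ℚ(x)`, a valuation ring of `ℚ(x)`. -/
def FA_S28_alg_Hyp.R2 (H : FA_S28_alg_Hyp ℓ S red x e) :
    ValuationSubring ↥(IntermediateField.adjoin ℚ {(x : F)}) :=
  H.Wv.comap (algebraMap ↥(IntermediateField.adjoin ℚ {(x : F)}) F)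

theorem FA_S28_alg_Hyp.mem_R2 (H : FA_S28_alg_Hyp ℓ S red x e)
    (c : ↥(IntermediateField.adjoin ℚ {(x : F)})) :
    c ∈ H.R2 ↔ (c : F) ∈ FA_S28_alg_W S red := Iff.rfl

/-- The algebra structure of `F` over `R₂`. -/
@[reducible] def FA_S28_alg_Hyp.algR2 (H : FA_S28_alg_Hyp ℓ S red x e) : Algebra ↥H.R2 F :=
  ((algebraMap ↥(IntermediateField.adjoin ℚ {(x : F)}) F).comp
    (algebraMap ↥H.R2 ↥(IntermediateField.adjoin ℚ {(x : F)}))).toAlgebra

theorem FA_S28_alg_Hyp.isIntegral_R2 (H : FA_S28_alg_Hyp ℓ S red x e) (w : F)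
    (hw : w ∈ FA_S28_alg_W S red) :
    letI := H.algR2
    IsIntegral ↥H.R2 w := by
  letI := H.algR2
  have halg : ∀ r : ↥H.R2, algebraMap ↥H.R2 F r = ((r : ↥(IntermediateField.adjoin ℚ {(x : F)})) : F) :=
    fun _ => rfl
  have hsmul : ∀ (r : ↥H.R2) (z : F),
      r • z = ((r : ↥(IntermediateField.adjoin ℚ {(x : F)})) : F) * z := by
    intro r z
    rw [Algebra.smul_def, halg]
  let N : Submodule ↥H.R2 F := Submodule.span ↥H.R2 (Set.range fun i => (e i : F))
  have hNW : ∀ z ∈ N, z ∈ FA_S28_alg_W S red := by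
    intro z hz
    induction hz using Submodule.span_induction with
    | mem z hz =>
      obtain ⟨i, rfl⟩ := hz
      exact FA_S28_alg_S_le_W S red (e i).2
    | zero => exact zero_mem _
    | add a b _ _ ha hb => exact add_mem ha hb
    | smul r a _ ha =>
      rw [hsmul]
      exact mul_mem ((H.mem_R2 _).mp r.2) ha
  have hWN : ∀ z ∈ FA_S28_alg_W S red, z ∈ N := by
    intro z hz
    obtain ⟨Q, P, hQ, h⟩ := H.lemmaK z hz
    have hQred := FA_S28_alg_red_aeval_ne_zero ℓ S red x H.htr Q hQ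
    have hQ0 : aeval (x : F) Q ≠ 0 := by
      intro h0
      apply hQred
      have : (aeval x Q : S) = 0 := Subtype.ext (by rw [FA_S28_alg_coe_aeval, h0]; rfl)
      rw [this, map_zero]
    have hr : ∀ i, ∃ r : ↥H.R2,
        ((r : ↥(IntermediateField.adjoin ℚ {(x : F)})) : F) =
          aeval (x : F) (P i) / aeval (x : F) Q := by
      intro i
      have hK : aeval (x : F) (P i) / aeval (x : F) Q ∈ IntermediateField.adjoin ℚ {(x : F)} :=
        div_mem (FA_S28_alg_aeval_mem_K0 _ _) (FA_S28_alg_aeval_mem_K0 _ _)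
      have hW : aeval (x : F) (P i) / aeval (x : F) Q ∈ FA_S28_alg_W S red := by
        have := FA_S28_alg_div_mem_W S red (aeval x (P i)) (aeval x Q) hQred
        rwa [FA_S28_alg_coe_aeval, FA_S28_alg_coe_aeval] at this
      exact ⟨⟨⟨_, hK⟩, (H.mem_R2 _).mpr hW⟩, rfl⟩
    choose r hr using hr
    have hz : z = ∑ i, r i • (e i : F) := by
      apply mul_left_cancel₀ hQ0
      rw [h, Finset.mul_sum]
      refine Finset.sum_congr rfl fun i _ => ?_
      rw [hsmul, hr]
      field_simp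
    rw [hz]
    exact Submodule.sum_mem _ fun i _ =>
      Submodule.smul_mem _ _ (Submodule.subset_span ⟨i, rfl⟩)
  have hN0 : N ≠ ⊥ := by
    intro h0
    have h1 : (1 : F) ∈ N := hWN 1 (one_mem _)
    rw [h0, Submodule.mem_bot] at h1
    exact one_ne_zero h1
  have hNfg : N.FG := Submodule.fg_span (Set.finite_range _)
  exact isIntegral_of_smul_mem_submodule N hN0 hNfg w
    (fun z hz => hWN _ (mul_mem hw (hNW z hz)))

/-- **Main abstract theorem**: if `y = ℓ w` is integral over `B ⊆ ℚ[x] ∩ W`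
(`B ⊇ ℤ_(ℓ)[x]`) and `w ∈ W`, then `w` is integral over `B`. -/
theorem FA_S28_alg_Hyp.main (H : FA_S28_alg_Hyp ℓ S red x e)
    {B : Type*} [CommRing B] [Algebra B F]
    (hBQ : ∀ b : B, algebraMap B F b ∈ Algebra.adjoin ℚ {(x : F)})
    (hBx : ∀ (m : ℤ) (P : ℤ[X]), ¬ (ℓ : ℤ) ∣ m →
      ∃ b : B, algebraMap B F b = (m : F)⁻¹ * aeval (x : F) P)
    (y w : F) (hy : IsIntegral B y) (hw : w ∈ FA_S28_alg_W S red) (hyw : y = (ℓ : F) * w) :
    IsIntegral B w := by
  have hℓ := FA_S28_alg_ell_ne_zero (F := F) ℓ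
  -- integrality over `R₁ = ℚ[x]`
  have hy1 : IsIntegral ↥(Algebra.adjoin ℚ {(x : F)}) y := by
    obtain ⟨p, hp, hpy⟩ := hy
    let φ : B →+* ↥(Algebra.adjoin ℚ {(x : F)}) :=
      (algebraMap B F).codRestrict (Algebra.adjoin ℚ {(x : F)}) hBQ
    refine ⟨p.map φ, hp.map φ, ?_⟩
    rw [eval₂_map]
    exact hpy
  have hw1 : IsIntegral ↥(Algebra.adjoin ℚ {(x : F)}) w := by
    have h := IsIntegral.smul ((ℓ : ℚ)⁻¹) hy1
    have h2 : ((ℓ : ℚ)⁻¹) • y = w := by
      rw [Algebra.smul_def, hyw, map_inv₀, map_natCast]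
      field_simp
    rwa [h2] at h
  -- integrality over `R₂`
  letI := H.algR2
  haveI : IsScalarTower ↥H.R2 ↥(IntermediateField.adjoin ℚ {(x : F)}) F :=
    IsScalarTower.of_algebraMap_eq' rfl
  have hw2 : IsIntegral ↥H.R2 w := H.isIntegral_R2 w hw
  haveI := H.isIntegrallyClosed_adjoin
  have e1 := minpoly.isIntegrallyClosed_eq_field_fractions'
    (↥(IntermediateField.adjoin ℚ {(x : F)})) hw1
  have e2 := minpoly.isIntegrallyClosed_eq_field_fractions'
    (↥(IntermediateField.adjoin ℚ {(x : F)})) hw2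
  -- the coefficients of the minimal polynomial lie in `B`
  set μ := minpoly ↥(IntermediateField.adjoin ℚ {(x : F)}) w with hμ
  have hcoef : ∀ i, ∃ b : B, algebraMap B F b = ((μ.coeff i : ↥(IntermediateField.adjoin ℚ {(x : F)})) : F) := by
    intro i
    have h1 : ((μ.coeff i : ↥(IntermediateField.adjoin ℚ {(x : F)})) : F) ∈
        Algebra.adjoin ℚ {(x : F)} := by
      rw [e1, coeff_map]
      exact ((minpoly ↥(Algebra.adjoin ℚ {(x : F)}) w).coeff i).2
    have h2 : ((μ.coeff i : ↥(IntermediateField.adjoin ℚ {(x : F)})) : F) ∈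
        FA_S28_alg_W S red := by
      rw [e2, coeff_map]
      exact (H.mem_R2 _).mp ((minpoly ↥H.R2 w).coeff i).2
    obtain ⟨m, P, hm, hc⟩ := H.adjoin_inter_W _ h1 h2
    obtain ⟨b, hb⟩ := hBx m P hm
    exact ⟨b, by rw [hb, hc]⟩
  have hint : IsIntegral ↥(IntermediateField.adjoin ℚ {(x : F)}) w :=
    hw1.tower_top
  set q : F[X] := μ.map (algebraMap ↥(IntermediateField.adjoin ℚ {(x : F)}) F) with hq
  have hqmonic : q.Monic := (minpoly.monic hint).map _
  have hqroot : q.eval w = 0 := by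
    rw [hq, eval_map, ← aeval_def, minpoly.aeval]
  have hlifts : q ∈ Polynomial.lifts (algebraMap B F) := by
    rw [lifts_iff_coeff_lifts]
    intro i
    obtain ⟨b, hb⟩ := hcoef i
    exact ⟨b, by rw [hb, hq, coeff_map]; rfl⟩
  obtain ⟨q', hq'q, -, hq'monic⟩ := lifts_and_natDegree_eq_and_monic hlifts hqmonic
  refine ⟨q', hq'monic, ?_⟩
  rw [eval₂_eq_eval_map, hq'q, hqroot]

end Main

end Fermat.Agent.S28
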