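import Fermat.Agent.S28.AlgAbs4

/-!
# S28, leaf ALG, abstract part 5: the hypotheses are symmetric in `x ↔ x⁻¹`
-/

set_option autoImplicit false
set_option linter.unusedSectionVars false
set_option linter.style.haveILetI false

noncomputable section

namespace Fermat.Agent.S28

open Polynomial

section Inv

variable {F Ω : Type*} [Field F] [CharZero F] [Field Ω] {ℓ : ℕ} [Fact ℓ.Prime]
  [CharP Ω ℓ] [Algebra (ZMod ℓ) Ω] {S : Subring F} {red : S →+* Ω} {x : S} {n : ℕ}
  {e : Fin n → S}

theorem FA_S28_alg_aeval_reflect {R A : Type*} [CommRing R] [CommRing A] [Algebra R A]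
    (a b : A) (hab : a * b = 1) (N : ℕ) (f : R[X]) (hf : f.natDegree ≤ N) :
    aeval b (reflect N f) * a ^ N = aeval a f := by
  letI : Invertible a := ⟨b, by rw [mul_comm]; exact hab, hab⟩
  have := eval₂_reflect_mul_pow (algebraMap R A) a N f hf
  rw [aeval_def, aeval_def]
  exact this

theorem FA_S28_alg_Hyp.inv (H : FA_S28_alg_Hyp ℓ S red x e) (x' : S) (hxx' : x * x' = 1) :
    FA_S28_alg_Hyp ℓ S red x' e := by
  have hred : red x' * red x = 1 := by rw [← map_mul, mul_comm, hxx', map_one]
  have hred0 : red x' ≠ 0 := left_ne_zero_of_mul_eq_one hred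
  have hF : (x' : F) * (x : F) = 1 := by
    have := congrArg (fun s : S => (s : F)) hxx'
    simp only [Subring.coe_mul, Subring.coe_one] at this
    rw [mul_comm]; exact this
  have hF' : (x : F) * (x' : F) = 1 := by rw [mul_comm]; exact hF
  have hx0 : (x : F) ≠ 0 := left_ne_zero_of_mul_eq_one hF'
  refine ⟨H.hker, H.hsep, ?_, ?_, ?_⟩
  · intro P hP
    have h1 := FA_S28_alg_aeval_reflect (red x') (red x) hred P.natDegree P le_rfl
    rw [hP] at h1
    have h2 : aeval (red x) (reflect P.natDegree P) = 0 := by
      rcases mul_eq_zero.mp h1 with h | h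
      · exact h
      · exact absurd h (pow_ne_zero _ hred0)
    exact reflect_eq_zero_iff.mp (H.htr _ h2)
  · intro c hc
    set N := ∑ i, (c i).natDegree with hN
    have hle : ∀ i, (c i).natDegree ≤ N := fun i =>
      Finset.single_le_sum (f := fun i => (c i).natDegree) (fun _ _ => Nat.zero_le _)
        (Finset.mem_univ i)
    have h1 : (∑ i, aeval (red x) (reflect N (c i)) * red (e i)) * (red x') ^ N = 0 := by
      rw [Finset.sum_mul, ← hc]
      refine Finset.sum_congr rfl fun i _ => ?_
      rw [← FA_S28_alg_aeval_reflect (red x') (red x) hred N (c i) (hle i)]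
      ring
    have h2 : (∑ i, aeval (red x) (reflect N (c i)) * red (e i)) = 0 := by
      rcases mul_eq_zero.mp h1 with h | h
      · exact h
      · exact absurd h (pow_ne_zero _ hred0)
    intro i
    exact reflect_eq_zero_iff.mp (H.hli _ h2 i)
  · intro y
    obtain ⟨Q, P, hQ, h⟩ := H.hspan y
    set N := Q.natDegree + ∑ i, (P i).natDegree with hN
    have hleQ : Q.natDegree ≤ N := Nat.le_add_right _ _
    have hle : ∀ i, (P i).natDegree ≤ N := fun i =>
      (Finset.single_le_sum (f := fun i => (P i).natDegree) (fun _ _ => Nat.zero_le _)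
        (Finset.mem_univ i)).trans (Nat.le_add_left _ _)
    refine ⟨reflect N Q, fun i => reflect N (P i), fun h0 => hQ (reflect_eq_zero_iff.mp h0), ?_⟩
    have hxN : (x : F) ^ N ≠ 0 := pow_ne_zero _ hx0
    apply mul_right_cancel₀ hxN
    rw [Finset.sum_mul]
    calc aeval (x' : F) (reflect N Q) * y * (x : F) ^ N
        = (aeval (x' : F) (reflect N Q) * (x : F) ^ N) * y := by ring
      _ = aeval (x : F) Q * y := by
          rw [FA_S28_alg_aeval_reflect (x : F) (x' : F) hF' N Q hleQ]
      _ = ∑ i, aeval (x : F) (P i) * (e i : F) := h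
      _ = ∑ i, aeval (x' : F) (reflect N (P i)) * (e i : F) * (x : F) ^ N := by
          refine Finset.sum_congr rfl fun i _ => ?_
          rw [← FA_S28_alg_aeval_reflect (x : F) (x' : F) hF' N (P i) (hle i)]
          ring

end Inv

end Fermat.Agent.S28
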