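import Fermat.Agent.S28.AlgAbs5
import Fermat.Agent.S28.AlgTarget

/-!
# S28, leaf ALG, instantiation 1: the subring `S = F ∩ ℤ((q))` and the reduction map
-/

set_option autoImplicit false
set_option linter.unusedSectionVars false
set_option linter.style.haveILetI false

noncomputable section

namespace Fermat.Agent.S28

open ModularCurve ModularCurve.IgusaScheme Polynomial

/-- `ι : ℤ((q)) → ℚ((q))`. -/
abbrev FA_S28_alg_iota : LaurentSeries ℤ →+* LaurentSeries ℚ := coeffMap (Int.castRingHom ℚ)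

theorem FA_S28_alg_iota_injective : Function.Injective FA_S28_alg_iota := by
  intro a b h
  ext k
  have := congrArg (fun s : LaurentSeries ℚ => s.coeff k) h
  simpa using this

section

variable (N : ℕ) [NeZero N] (ℓ : ℕ) [Fact ℓ.Prime]

/-- `S = F ∩ ℤ((q))`. -/
def FA_S28_alg_S : Subring ↥(modularFunctionFieldFull N) :=
  (FA_S28_alg_iota.range).comap (algebraMap ↥(modularFunctionFieldFull N) (LaurentSeries ℚ))

theorem FA_S28_alg_mem_S (y : ↥(modularFunctionFieldFull N)) :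
    y ∈ FA_S28_alg_S N ↔ ∃ s : LaurentSeries ℤ, FA_S28_alg_iota s = (y : LaurentSeries ℚ) :=
  Iff.rfl

/-- The integral expansion of an element of `S`. -/
def FA_S28_alg_liftFun (y : FA_S28_alg_S N) : LaurentSeries ℤ := Classical.choose y.2

theorem FA_S28_alg_liftFun_spec (y : FA_S28_alg_S N) :
    FA_S28_alg_iota (FA_S28_alg_liftFun N y) = ((y : ↥(modularFunctionFieldFull N)) : LaurentSeries ℚ) :=
  Classical.choose_spec y.2

theorem FA_S28_alg_liftFun_eq (y : FA_S28_alg_S N) (s : LaurentSeries ℤ)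
    (h : FA_S28_alg_iota s = ((y : ↥(modularFunctionFieldFull N)) : LaurentSeries ℚ)) :
    FA_S28_alg_liftFun N y = s :=
  FA_S28_alg_iota_injective ((FA_S28_alg_liftFun_spec N y).trans h.symm)

/-- The integral expansion as a ring hom. -/
def FA_S28_alg_lift : FA_S28_alg_S N →+* LaurentSeries ℤ where
  toFun := FA_S28_alg_liftFun N
  map_one' := FA_S28_alg_liftFun_eq N 1 1 (by simp)
  map_mul' a b := FA_S28_alg_liftFun_eq N (a * b) _ (by
    rw [map_mul, FA_S28_alg_liftFun_spec, FA_S28_alg_liftFun_spec]; rfl)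
  map_zero' := FA_S28_alg_liftFun_eq N 0 0 (by simp)
  map_add' a b := FA_S28_alg_liftFun_eq N (a + b) _ (by
    rw [map_add, FA_S28_alg_liftFun_spec, FA_S28_alg_liftFun_spec]; rfl)

theorem FA_S28_alg_lift_spec (y : FA_S28_alg_S N) :
    FA_S28_alg_iota (FA_S28_alg_lift N y) = ((y : ↥(modularFunctionFieldFull N)) : LaurentSeries ℚ) :=
  FA_S28_alg_liftFun_spec N y

theorem FA_S28_alg_lift_eq (y : FA_S28_alg_S N) (s : LaurentSeries ℤ)
    (h : FA_S28_alg_iota s = ((y : ↥(modularFunctionFieldFull N)) : LaurentSeries ℚ)) :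
    FA_S28_alg_lift N y = s :=
  FA_S28_alg_liftFun_eq N y s h

theorem FA_S28_alg_lift_injective : Function.Injective (FA_S28_alg_lift N) := by
  intro a b h
  apply Subtype.ext
  apply Subtype.ext
  rw [← FA_S28_alg_lift_spec, ← FA_S28_alg_lift_spec, h]

/-- The reduction map `S → 𝔽_ℓ((q))`. -/
def FA_S28_alg_red : FA_S28_alg_S N →+* LaurentSeries (ZMod ℓ) :=
  (coeffMap (Int.castRingHom (ZMod ℓ))).comp (FA_S28_alg_lift N)

theorem FA_S28_alg_red_apply (y : FA_S28_alg_S N) :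
    FA_S28_alg_red N ℓ y = coeffMap (Int.castRingHom (ZMod ℓ)) (FA_S28_alg_lift N y) := rfl

/-- An element of `F` with a given integral expansion, as an element of `S`. -/
def FA_S28_alg_mkS (s : LaurentSeries ℤ) (h : FA_S28_alg_iota s ∈ modularFunctionFieldFull N) :
    FA_S28_alg_S N :=
  ⟨⟨FA_S28_alg_iota s, h⟩, ⟨s, rfl⟩⟩

@[simp] theorem FA_S28_alg_lift_mkS (s : LaurentSeries ℤ)
    (h : FA_S28_alg_iota s ∈ modularFunctionFieldFull N) :
    FA_S28_alg_lift N (FA_S28_alg_mkS N s h) = s :=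
  FA_S28_alg_lift_eq N _ s rfl

@[simp] theorem FA_S28_alg_red_mkS (s : LaurentSeries ℤ)
    (h : FA_S28_alg_iota s ∈ modularFunctionFieldFull N) :
    FA_S28_alg_red N ℓ (FA_S28_alg_mkS N s h) = coeffMap (Int.castRingHom (ZMod ℓ)) s := by
  rw [FA_S28_alg_red_apply, FA_S28_alg_lift_mkS]

theorem FA_S28_alg_coe_mkS (s : LaurentSeries ℤ)
    (h : FA_S28_alg_iota s ∈ modularFunctionFieldFull N) :
    (((FA_S28_alg_mkS N s h : FA_S28_alg_S N) : ↥(modularFunctionFieldFull N)) : LaurentSeries ℚ)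
      = FA_S28_alg_iota s := rfl

/-- Division of an integral Laurent series by `ℓ` (coefficientwise integer division). -/
def FA_S28_alg_divEll (s : LaurentSeries ℤ) : LaurentSeries ℤ :=
  s.map (⟨fun c => c / (ℓ : ℤ), by simp⟩ : ZeroHom ℤ ℤ)

theorem FA_S28_alg_divEll_spec (s : LaurentSeries ℤ)
    (h : coeffMap (Int.castRingHom (ZMod ℓ)) s = 0) :
    s = (ℓ : LaurentSeries ℤ) * FA_S28_alg_divEll ℓ s := by
  ext k
  have hk : ((s.coeff k : ℤ) : ZMod ℓ) = 0 := by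
    have := congrArg (fun t : LaurentSeries (ZMod ℓ) => t.coeff k) h
    simpa using this
  have hdvd : (ℓ : ℤ) ∣ s.coeff k := (ZMod.intCast_zmod_eq_zero_iff_dvd _ _).mp hk
  have h1 : ((ℓ : LaurentSeries ℤ) * FA_S28_alg_divEll ℓ s).coeff k
      = (ℓ : ℤ) * (FA_S28_alg_divEll ℓ s).coeff k := by
    rw [← nsmul_eq_mul, HahnSeries.coeff_smul, nsmul_eq_mul]
  rw [h1]
  show s.coeff k = (ℓ : ℤ) * (s.coeff k / (ℓ : ℤ))
  rw [Int.mul_ediv_cancel' hdvd]

theorem FA_S28_alg_hker (s : FA_S28_alg_S N) (h : FA_S28_alg_red N ℓ s = 0) :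
    ∃ s' : FA_S28_alg_S N, s = (ℓ : FA_S28_alg_S N) * s' := by
  have h1 := FA_S28_alg_divEll_spec ℓ (FA_S28_alg_lift N s) h
  haveI : CharZero (LaurentSeries ℚ) := algebraRat.charZero _
  have hℓ : ((ℓ : ℕ) : LaurentSeries ℚ) ≠ 0 :=
    Nat.cast_ne_zero.mpr (Fact.out : ℓ.Prime).ne_zero
  have hmem : FA_S28_alg_iota (FA_S28_alg_divEll ℓ (FA_S28_alg_lift N s)) ∈
      modularFunctionFieldFull N := by
    have h2 : FA_S28_alg_iota (FA_S28_alg_divEll ℓ (FA_S28_alg_lift N s)) =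
        ((s : ↥(modularFunctionFieldFull N)) : LaurentSeries ℚ) * ((ℓ : ℕ) : LaurentSeries ℚ)⁻¹ := by
      rw [eq_mul_inv_iff_mul_eq₀ hℓ, ← FA_S28_alg_lift_spec N s]
      conv_rhs => rw [h1]
      rw [map_mul, map_natCast, mul_comm]
    rw [h2]
    exact mul_mem (s : ↥(modularFunctionFieldFull N)).2 (inv_mem (natCast_mem _ _))
  refine ⟨FA_S28_alg_mkS N _ hmem, ?_⟩
  apply FA_S28_alg_lift_injective
  rw [map_mul, map_natCast, FA_S28_alg_lift_mkS]
  exact h1

theorem FA_S28_alg_hsep (s : FA_S28_alg_S N) (h : s ≠ 0) :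
    ∃ k : ℕ, ∀ s' : FA_S28_alg_S N, s ≠ (ℓ : FA_S28_alg_S N) ^ k * s' := by
  have h1 : FA_S28_alg_lift N s ≠ 0 := by
    intro h0
    apply h
    apply FA_S28_alg_lift_injective
    rw [h0, map_zero]
  obtain ⟨k₀, hk₀⟩ : ∃ k₀, (FA_S28_alg_lift N s).coeff k₀ ≠ 0 := by
    by_contra hcon
    simp only [not_exists, not_not] at hcon
    exact h1 (HahnSeries.ext (funext hcon))
  refine ⟨((FA_S28_alg_lift N s).coeff k₀).natAbs, fun s' hs' => ?_⟩
  have h2 := congrArg (fun t => (FA_S28_alg_lift N t).coeff k₀) hs'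
  simp only [map_mul, map_pow, map_natCast] at h2
  have h3 : (((ℓ : LaurentSeries ℤ)) ^ ((FA_S28_alg_lift N s).coeff k₀).natAbs *
      FA_S28_alg_lift N s').coeff k₀ =
      (ℓ : ℤ) ^ ((FA_S28_alg_lift N s).coeff k₀).natAbs * (FA_S28_alg_lift N s').coeff k₀ := by
    rw [← Nat.cast_pow, ← nsmul_eq_mul, HahnSeries.coeff_smul, nsmul_eq_mul]
    push_cast
    rfl
  rw [h3] at h2
  have h4 : (ℓ : ℤ) ^ ((FA_S28_alg_lift N s).coeff k₀).natAbs ∣ (FA_S28_alg_lift N s).coeff k₀ :=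
    ⟨_, h2⟩
  have h5 := Int.natAbs_dvd_natAbs.mpr h4
  rw [Int.natAbs_pow, Int.natAbs_natCast] at h5
  have h6 := Nat.le_of_dvd (Int.natAbs_pos.mpr hk₀) h5
  have h7 : ((FA_S28_alg_lift N s).coeff k₀).natAbs <
      ℓ ^ ((FA_S28_alg_lift N s).coeff k₀).natAbs :=
    Nat.lt_pow_self (Fact.out : ℓ.Prime).one_lt
  omega

end

end Fermat.Agent.S28
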