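import Fermat.Agent.S28.AlgInst2

/-!
# S28, leaf ALG, instantiation 3: the chart algebras lie in `W` and `A ∩ ℓ W = ℓ A`
-/

set_option autoImplicit false
set_option linter.unusedSectionVars false
set_option linter.style.haveILetI false

noncomputable section

namespace Fermat.Agent.S28

open ModularCurve ModularCurve.IgusaScheme Polynomial

section

variable (N : ℕ) [NeZero N] (ℓ : ℕ) [Fact ℓ.Prime]

/-- The valuation ring `W` of `F` (concrete). -/
abbrev FA_S28_alg_Wc : Subring ↥(modularFunctionFieldFull N) :=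
  FA_S28_alg_W (FA_S28_alg_S N) (FA_S28_alg_red N ℓ)

/-- The extended reduction `W → 𝔽_ℓ((q))` (concrete). -/
abbrev FA_S28_alg_REDc : FA_S28_alg_Wc N ℓ →+* LaurentSeries (ZMod ℓ) :=
  FA_S28_alg_RED (FA_S28_alg_S N) (FA_S28_alg_red N ℓ)

theorem FA_S28_alg_algebraMap_eq (c : ↥(GaloisRep.ratLocalizedAt ℓ)) :
    algebraMap ↥(GaloisRep.ratLocalizedAt ℓ) ↥(modularFunctionFieldFull N) c =
      algebraMap ℚ ↥(modularFunctionFieldFull N) (c : ℚ) := rfl

theorem FA_S28_alg_natCast_mem_S (d : ℕ) :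
    (d : ↥(modularFunctionFieldFull N)) ∈ FA_S28_alg_S N := natCast_mem _ d

theorem FA_S28_alg_red_natCast_ne (d : ℕ) (hd : ¬ ℓ ∣ d) :
    FA_S28_alg_red N ℓ (d : FA_S28_alg_S N) ≠ 0 := by
  haveI := FA_S28_alg_charP ℓ
  rw [map_natCast]
  exact fun h => hd ((CharP.cast_eq_zero_iff (LaurentSeries (ZMod ℓ)) ℓ d).mp h)

theorem FA_S28_alg_algebraMap_mem_W (c : ↥(GaloisRep.ratLocalizedAt ℓ)) :
    algebraMap ↥(GaloisRep.ratLocalizedAt ℓ) ↥(modularFunctionFieldFull N) c ∈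
      FA_S28_alg_Wc N ℓ := by
  have hc : (c : ℚ).den.Coprime ℓ := c.2
  have hd : ¬ ℓ ∣ (c : ℚ).den :=
    ((Fact.out : ℓ.Prime).coprime_iff_not_dvd).mp hc.symm
  refine ⟨(((c : ℚ).num : ℤ) : FA_S28_alg_S N), (((c : ℚ).den : ℕ) : FA_S28_alg_S N),
    FA_S28_alg_red_natCast_ne N ℓ _ hd, ?_⟩
  rw [FA_S28_alg_algebraMap_eq]
  push_cast
  have h := Rat.mul_den_eq_num (c : ℚ)
  have h2 := congrArg (algebraMap ℚ ↥(modularFunctionFieldFull N)) h
  rw [map_mul, map_natCast, map_intCast] at h2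
  exact h2

/-- `ℤ_(ℓ)[x] ⊆ W` for `x ∈ S`. -/
theorem FA_S28_alg_adjoin_le_W (x : FA_S28_alg_S N)
    (b : ↥(modularFunctionFieldFull N))
    (hb : b ∈ Algebra.adjoin ↥(GaloisRep.ratLocalizedAt ℓ)
      {((x : FA_S28_alg_S N) : ↥(modularFunctionFieldFull N))}) :
    b ∈ FA_S28_alg_Wc N ℓ := by
  induction hb using Algebra.adjoin_induction with
  | mem y hy =>
    rw [Set.mem_singleton_iff] at hy
    rw [hy]
    exact FA_S28_alg_S_le_W _ _ x.2
  | algebraMap c => exact FA_S28_alg_algebraMap_mem_W N ℓ c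
  | add y z _ _ hy hz => exact add_mem hy hz
  | mul y z _ _ hy hz => exact mul_mem hy hz

/-- `ℤ_(ℓ)[x] ⊆ ℚ[x]`. -/
theorem FA_S28_alg_adjoin_le_adjoinQ (x : ↥(modularFunctionFieldFull N))
    (b : ↥(modularFunctionFieldFull N))
    (hb : b ∈ Algebra.adjoin ↥(GaloisRep.ratLocalizedAt ℓ) {x}) :
    b ∈ Algebra.adjoin ℚ {x} := by
  induction hb using Algebra.adjoin_induction with
  | mem y hy => exact Algebra.subset_adjoin hy
  | algebraMap c =>
    rw [FA_S28_alg_algebraMap_eq]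
    exact Subalgebra.algebraMap_mem _ _
  | add y z _ _ hy hz => exact add_mem hy hz
  | mul y z _ _ hy hz => exact mul_mem hy hz

/-- `m⁻¹ P(x) ∈ ℤ_(ℓ)[x]` for `ℓ ∤ m`. -/
theorem FA_S28_alg_mem_adjoin (x : ↥(modularFunctionFieldFull N)) (m : ℤ) (P : ℤ[X])
    (hm : ¬ (ℓ : ℤ) ∣ m) :
    (m : ↥(modularFunctionFieldFull N))⁻¹ * aeval x P ∈
      Algebra.adjoin ↥(GaloisRep.ratLocalizedAt ℓ) {x} := by
  have hm0 : m ≠ 0 := by
    rintro rfl
    exact hm (dvd_zero _)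
  have hmem : ((m : ℚ)⁻¹) ∈ GaloisRep.ratLocalizedAt ℓ := by
    show ((m : ℚ)⁻¹).den.Coprime ℓ
    rw [Rat.inv_intCast_den, if_neg hm0]
    refine (((Fact.out : ℓ.Prime).coprime_iff_not_dvd).mpr ?_).symm
    intro h
    exact hm (Int.natCast_dvd.mpr h)
  have h1 : (m : ↥(modularFunctionFieldFull N))⁻¹ =
      algebraMap ↥(GaloisRep.ratLocalizedAt ℓ) ↥(modularFunctionFieldFull N) ⟨_, hmem⟩ := by
    rw [FA_S28_alg_algebraMap_eq]
    show _ = algebraMap ℚ ↥(modularFunctionFieldFull N) ((m : ℚ)⁻¹)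
    rw [map_inv₀, map_intCast]
  have h2 : aeval x P ∈ Algebra.adjoin ↥(GaloisRep.ratLocalizedAt ℓ) {x} := by
    have := FA_S28_alg_coe_aeval
      (Algebra.adjoin ↥(GaloisRep.ratLocalizedAt ℓ) {x}).toSubring
      (⟨x, Algebra.subset_adjoin rfl⟩ : (Algebra.adjoin ↥(GaloisRep.ratLocalizedAt ℓ) {x}).toSubring) P
    rw [← this]
    exact (aeval (⟨x, Algebra.subset_adjoin rfl⟩ :
      (Algebra.adjoin ↥(GaloisRep.ratLocalizedAt ℓ) {x}).toSubring) P).2
  rw [h1]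
  exact mul_mem (Subalgebra.algebraMap_mem _ _) h2

end

end Fermat.Agent.S28
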