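import Fermat.Agent.S28.AlgInst3

/-!
# S28, leaf ALG, instantiation 4: reduction maps on the three chart algebras
-/

set_option autoImplicit false
set_option linter.unusedSectionVars false
set_option linter.style.haveILetI false

noncomputable section

namespace Fermat.Agent.S28

open ModularCurve ModularCurve.IgusaScheme Polynomial

section

variable (N : ℕ) [NeZero N] (ℓ : ℕ) [Fact ℓ.Prime]

theorem FA_S28_alg_chart_le_W {n : ℕ} {e : Fin n → FA_S28_alg_S N} (x : FA_S28_alg_S N)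
    (H : FA_S28_alg_Hyp ℓ (FA_S28_alg_S N) (FA_S28_alg_red N ℓ) x e)
    (y : ↥(modularFunctionFieldFull N))
    (hy : y ∈ chartAlg N ℓ {((x : FA_S28_alg_S N) : ↥(modularFunctionFieldFull N))}) :
    y ∈ FA_S28_alg_Wc N ℓ := by
  haveI := FA_S28_alg_charP ℓ
  haveI := FA_S28_alg_charZero N
  exact H.mem_W_of_isIntegral
    (B := ↥(Algebra.adjoin ↥(GaloisRep.ratLocalizedAt ℓ)
      {((x : FA_S28_alg_S N) : ↥(modularFunctionFieldFull N))}))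
    (fun b => FA_S28_alg_adjoin_le_W N ℓ x _ b.2) y hy

theorem FA_S28_alg_chart_div {n : ℕ} {e : Fin n → FA_S28_alg_S N} (x : FA_S28_alg_S N)
    (H : FA_S28_alg_Hyp ℓ (FA_S28_alg_S N) (FA_S28_alg_red N ℓ) x e)
    (y w : ↥(modularFunctionFieldFull N))
    (hy : y ∈ chartAlg N ℓ {((x : FA_S28_alg_S N) : ↥(modularFunctionFieldFull N))})
    (hw : w ∈ FA_S28_alg_Wc N ℓ) (hyw : y = (ℓ : ↥(modularFunctionFieldFull N)) * w) :
    w ∈ chartAlg N ℓ {((x : FA_S28_alg_S N) : ↥(modularFunctionFieldFull N))} := by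
  haveI := FA_S28_alg_charP ℓ
  haveI := FA_S28_alg_charZero N
  exact H.main
    (B := ↥(Algebra.adjoin ↥(GaloisRep.ratLocalizedAt ℓ)
      {((x : FA_S28_alg_S N) : ↥(modularFunctionFieldFull N))}))
    (fun b => FA_S28_alg_adjoin_le_adjoinQ N ℓ _ _ b.2)
    (fun m P hm => ⟨⟨_, FA_S28_alg_mem_adjoin N ℓ _ m P hm⟩, rfl⟩) y w hy hw hyw

/-- A subalgebra `A ⊆ W` with `A ∩ ℓ W = ℓ A` has a reduction map with kernel `ℓ A`. -/
theorem FA_S28_alg_exists_red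
    (A : Subalgebra ↥(GaloisRep.ratLocalizedAt ℓ) ↥(modularFunctionFieldFull N))
    (hA : ∀ a ∈ A, a ∈ FA_S28_alg_Wc N ℓ)
    (hdiv : ∀ y w : ↥(modularFunctionFieldFull N), y ∈ A → w ∈ FA_S28_alg_Wc N ℓ →
      y = (ℓ : ↥(modularFunctionFieldFull N)) * w → w ∈ A) :
    ∃ Φ : ↥A →+* LaurentSeries (ZMod ℓ), ∀ a : ↥A, Φ a = 0 → ∃ a' : ↥A, a = (ℓ : ↥A) * a' := by
  haveI := FA_S28_alg_charZero N
  refine ⟨(FA_S28_alg_REDc N ℓ).comp
    ((A.val.toRingHom).codRestrict (FA_S28_alg_Wc N ℓ) (fun a => hA a a.2)), ?_⟩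
  intro a ha
  obtain ⟨w, hw⟩ := FA_S28_alg_RED_ker ℓ (FA_S28_alg_S N) (FA_S28_alg_red N ℓ)
    (FA_S28_alg_hker N ℓ) _ ha
  have hwA : (w : ↥(modularFunctionFieldFull N)) ∈ A := hdiv a w a.2 w.2 hw
  refine ⟨⟨w, hwA⟩, ?_⟩
  apply Subtype.ext
  rw [Subalgebra.coe_mul]
  exact hw

/-- The hypotheses for `x = j` and `x = 1/j` (from `DEG`), packaged existentially. -/
theorem FA_S28_alg_hyp_of_deg (h : FA_S28_Target_Deg N ℓ) :
    ∃ (n : ℕ) (e : Fin n → FA_S28_alg_S N),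
      FA_S28_alg_Hyp ℓ (FA_S28_alg_S N) (FA_S28_alg_red N ℓ) (FA_S28_alg_xj N) e ∧
      FA_S28_alg_Hyp ℓ (FA_S28_alg_S N) (FA_S28_alg_red N ℓ) (FA_S28_alg_xinv N) e := by
  haveI := FA_S28_alg_charP ℓ
  haveI := FA_S28_alg_charZero N
  obtain ⟨n, e, h1, h2, h3⟩ := h
  have H := FA_S28_alg_hyp_j N ℓ e h1 h2 h3
  exact ⟨n, _, H, H.inv _ (FA_S28_alg_xj_mul_xinv N)⟩

theorem FA_S28_alg_fin (h : FA_S28_Target_Deg N ℓ) :
    ∃ Φ : ↥(chartAlgFin N ℓ) →+* LaurentSeries (ZMod ℓ),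
      ∀ a : ↥(chartAlgFin N ℓ), Φ a = 0 → ∃ a' : ↥(chartAlgFin N ℓ), a = (ℓ : ↥(chartAlgFin N ℓ)) * a' := by
  obtain ⟨n, e, H, -⟩ := FA_S28_alg_hyp_of_deg N ℓ h
  have hx := FA_S28_alg_coe_xj N
  refine FA_S28_alg_exists_red N ℓ (chartAlgFin N ℓ) ?_ ?_
  · intro a ha
    refine FA_S28_alg_chart_le_W N ℓ _ H a ?_
    rw [hx]; exact ha
  · intro y w hy hw hyw
    have := FA_S28_alg_chart_div N ℓ _ H y w (by rw [hx]; exact hy) hw hyw
    rw [hx] at this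
    exact this

theorem FA_S28_alg_inf (h : FA_S28_Target_Deg N ℓ) :
    ∃ Φ : ↥(chartAlgInf N ℓ) →+* LaurentSeries (ZMod ℓ),
      ∀ a : ↥(chartAlgInf N ℓ), Φ a = 0 → ∃ a' : ↥(chartAlgInf N ℓ), a = (ℓ : ↥(chartAlgInf N ℓ)) * a' := by
  obtain ⟨n, e, -, H⟩ := FA_S28_alg_hyp_of_deg N ℓ h
  have hx := FA_S28_alg_coe_xinv N
  refine FA_S28_alg_exists_red N ℓ (chartAlgInf N ℓ) ?_ ?_
  · intro a ha
    refine FA_S28_alg_chart_le_W N ℓ _ H a ?_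
    rw [hx]; exact ha
  · intro y w hy hw hyw
    have := FA_S28_alg_chart_div N ℓ _ H y w (by rw [hx]; exact hy) hw hyw
    rw [hx] at this
    exact this

theorem FA_S28_alg_mid (h : FA_S28_Target_Deg N ℓ) :
    ∃ Φ : ↥(chartAlgMid N ℓ) →+* LaurentSeries (ZMod ℓ),
      ∀ a : ↥(chartAlgMid N ℓ), Φ a = 0 → ∃ a' : ↥(chartAlgMid N ℓ), a = (ℓ : ↥(chartAlgMid N ℓ)) * a' := by
  obtain ⟨n, e, H, -⟩ := FA_S28_alg_hyp_of_deg N ℓ h
  have hx := FA_S28_alg_coe_xj N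
  have hj0 : jFull N ≠ 0 := jFull_ne_zero N
  have hjW : jFull N ∈ FA_S28_alg_Wc N ℓ := by
    rw [← hx]; exact FA_S28_alg_S_le_W _ _ (FA_S28_alg_xj N).2
  have hjinvW : (jFull N)⁻¹ ∈ FA_S28_alg_Wc N ℓ := by
    rw [← FA_S28_alg_coe_xinv N]; exact FA_S28_alg_S_le_W _ _ (FA_S28_alg_xinv N).2
  have hjinvMid : (jFull N)⁻¹ ∈ chartAlgMid N ℓ :=
    subset_chartAlg N ℓ _ (Set.mem_insert_of_mem _ rfl)
  have hpair : insert (jFull N)⁻¹ ({jFull N} : Set ↥(modularFunctionFieldFull N)) =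
      {jFull N, (jFull N)⁻¹} := Set.pair_comm _ _
  have hpow : ∀ y ∈ chartAlgMid N ℓ, ∃ k : ℕ, jFull N ^ k * y ∈ chartAlgFin N ℓ := by
    intro y hy
    exact exists_pow_mul_mem_chartAlg (Set.mem_singleton _) hj0 (by rw [hpair]; exact hy)
  have hFinW : ∀ a ∈ chartAlgFin N ℓ, a ∈ FA_S28_alg_Wc N ℓ := by
    intro a ha
    refine FA_S28_alg_chart_le_W N ℓ _ H a ?_
    rw [hx]; exact ha
  refine FA_S28_alg_exists_red N ℓ (chartAlgMid N ℓ) ?_ ?_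
  · intro a ha
    obtain ⟨k, hk⟩ := hpow a ha
    have h1 := hFinW _ hk
    have h2 : a = (jFull N)⁻¹ ^ k * (jFull N ^ k * a) := by
      rw [← mul_assoc, ← mul_pow, inv_mul_cancel₀ hj0, one_pow, one_mul]
    rw [h2]
    exact mul_mem (pow_mem hjinvW k) h1
  · intro y w hy hw hyw
    obtain ⟨k, hk⟩ := hpow y hy
    have h1 : jFull N ^ k * w ∈ chartAlgFin N ℓ := by
      have := FA_S28_alg_chart_div N ℓ _ H (jFull N ^ k * y) (jFull N ^ k * w)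
        (by rw [hx]; exact hk) (mul_mem (pow_mem hjW k) hw) (by rw [hyw]; ring)
      rw [hx] at this
      exact this
    have h2 : w = (jFull N)⁻¹ ^ k * (jFull N ^ k * w) := by
      rw [← mul_assoc, ← mul_pow, inv_mul_cancel₀ hj0, one_pow, one_mul]
    rw [h2]
    exact mul_mem (pow_mem hjinvMid k) (chartAlg_mono N ℓ (sFin_subset N) h1)

end

end Fermat.Agent.S28
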