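import Fermat.Agent.S28.AlgInst4

/-!
# S28, leaf ALG, part III: base change of an algebra with a reduction map into `𝔽_ℓ((q))`
-/

set_option autoImplicit false
set_option linter.unusedSectionVars false
set_option linter.style.haveILetI false

noncomputable section

namespace Fermat.Agent.S28

open ModularCurve Polynomial TensorProduct

section

variable (ℓ : ℕ) [Fact ℓ.Prime]

/-- Ring homs out of `ℤ_(ℓ)` into a domain of characteristic `ℓ` are unique. -/
theorem FA_S28_alg_ringHom_ext {R : Type*} [CommRing R] [IsDomain R] [CharP R ℓ]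
    (φ ψ : ↥(GaloisRep.ratLocalizedAt ℓ) →+* R) : φ = ψ := by
  ext c
  have hc : (c : ℚ).den.Coprime ℓ := c.2
  have hd : ¬ ℓ ∣ (c : ℚ).den :=
    ((Fact.out : ℓ.Prime).coprime_iff_not_dvd).mp hc.symm
  have hdR : (((c : ℚ).den : ℕ) : R) ≠ 0 := fun h =>
    hd ((CharP.cast_eq_zero_iff R ℓ _).mp h)
  have h : c * (((c : ℚ).den : ℕ) : ↥(GaloisRep.ratLocalizedAt ℓ)) =
      (((c : ℚ).num : ℤ) : ↥(GaloisRep.ratLocalizedAt ℓ)) := by
    apply Subtype.ext
    push_cast
    exact Rat.mul_den_eq_num (c : ℚ)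
  have h1 := congrArg φ h
  have h2 := congrArg ψ h
  rw [map_mul, map_natCast, map_intCast] at h1 h2
  exact mul_right_cancel₀ hdR (h1.trans h2.symm)

variable (A : Type) [CommRing A] [Algebra ↥(GaloisRep.ratLocalizedAt ℓ) A]
  (K : Type) [Field K] [CharP K ℓ] [Algebra ↥(GaloisRep.ratLocalizedAt ℓ) K]

/-- Every element of `A ⊗ K` is a finite sum `∑ a_i ⊗ b_i` over a given `𝔽_ℓ`-basis of `K`. -/
theorem FA_S28_alg_tensor_repr {ι : Type*}
    (b : letI : Algebra (ZMod ℓ) K := (ZMod.castHom dvd_rfl K).toAlgebra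
      Module.Basis ι (ZMod ℓ) K)
    (t : A ⊗[↥(GaloisRep.ratLocalizedAt ℓ)] K) :
    ∃ f : ι →₀ A, t = f.sum (fun i a => a ⊗ₜ[↥(GaloisRep.ratLocalizedAt ℓ)] (b i)) := by
  letI : Algebra (ZMod ℓ) K := (ZMod.castHom dvd_rfl K).toAlgebra
  induction t using TensorProduct.induction_on with
  | zero => exact ⟨0, by simp⟩
  | tmul a k =>
    refine ⟨(b.repr k).mapRange
      (fun z : ZMod ℓ => ((z.val : ℕ) : ↥(GaloisRep.ratLocalizedAt ℓ)) • a) (by simp), ?_⟩
    rw [Finsupp.sum_mapRange_index (by intro i; simp)]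
    have hk : k = (b.repr k).sum (fun i z => z • b i) := (b.linearCombination_repr k).symm
    conv_lhs => rw [hk]
    rw [Finsupp.sum, TensorProduct.tmul_sum]
    refine Finset.sum_congr rfl fun i _ => ?_
    beta_reduce
    rw [TensorProduct.smul_tmul]
    congr 1
    rw [Algebra.smul_def, Algebra.smul_def, map_natCast]
    congr 1
    show (ZMod.castHom dvd_rfl K) (b.repr k i) = _
    rw [ZMod.castHom_apply, ZMod.natCast_val]
  | add x y hx hy =>
    obtain ⟨f, hf⟩ := hx
    obtain ⟨g, hg⟩ := hy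
    refine ⟨f + g, ?_⟩
    rw [Finsupp.sum_add_index' (by intro i; simp) (by intro i a a'; exact TensorProduct.add_tmul _ _ _),
      ← hf, ← hg]

/-- **Base change**: an algebra with a reduction map `Φ : A → 𝔽_ℓ((q))` of kernel `ℓ A` stays a
domain after tensoring with any field of characteristic `ℓ`. -/
theorem FA_S28_alg_tensor_isDomain
    (Φ : A →+* LaurentSeries (ZMod ℓ))
    (hΦ : ∀ a : A, Φ a = 0 → ∃ a' : A, a = (ℓ : A) * a') :
    IsDomain (A ⊗[↥(GaloisRep.ratLocalizedAt ℓ)] K) := by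
  letI : Algebra (ZMod ℓ) K := (ZMod.castHom dvd_rfl K).toAlgebra
  letI algL : Algebra ↥(GaloisRep.ratLocalizedAt ℓ) (LaurentSeries K) :=
    ((algebraMap K (LaurentSeries K)).comp (algebraMap ↥(GaloisRep.ratLocalizedAt ℓ) K)).toAlgebra
  haveI hchar : CharP (LaurentSeries K) ℓ :=
    charP_of_injective_algebraMap (algebraMap K (LaurentSeries K)).injective ℓ
  let ιK : ZMod ℓ →+* K := ZMod.castHom dvd_rfl K
  let f : A →ₐ[↥(GaloisRep.ratLocalizedAt ℓ)] LaurentSeries K :=
    { toRingHom := (coeffMap ιK).comp Φ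
      commutes' := fun c => by
        have := FA_S28_alg_ringHom_ext ℓ
          (((coeffMap ιK).comp Φ).comp (algebraMap ↥(GaloisRep.ratLocalizedAt ℓ) A))
          (algebraMap ↥(GaloisRep.ratLocalizedAt ℓ) (LaurentSeries K))
        exact congrArg (fun φ : ↥(GaloisRep.ratLocalizedAt ℓ) →+* LaurentSeries K => φ c) this }
  let g : K →ₐ[↥(GaloisRep.ratLocalizedAt ℓ)] LaurentSeries K :=
    { toRingHom := algebraMap K (LaurentSeries K)
      commutes' := fun c => rfl }
  let Ψ : A ⊗[↥(GaloisRep.ratLocalizedAt ℓ)] K →ₐ[↥(GaloisRep.ratLocalizedAt ℓ)] LaurentSeries K :=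
    Algebra.TensorProduct.productMap f g
  have hf : ∀ a, f a = coeffMap ιK (Φ a) := fun a => rfl
  have hg : ∀ k, g k = algebraMap K (LaurentSeries K) k := fun k => rfl
  have hΨ : ∀ a k, Ψ (a ⊗ₜ k) = coeffMap ιK (Φ a) * algebraMap K (LaurentSeries K) k :=
    fun a k => rfl
  have hinj : Function.Injective Ψ := by
    rw [injective_iff_map_eq_zero]
    intro t ht
    let b := Module.Free.chooseBasis (ZMod ℓ) K
    obtain ⟨F, hF⟩ := FA_S28_alg_tensor_repr ℓ A K b t
    rw [hF, Finsupp.sum, map_sum] at ht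
    -- each coefficient vanishes
    have hzero : ∀ i ∈ F.support, Φ (F i) = 0 := by
      intro i hi
      ext m
      have hm := congrArg (fun s : LaurentSeries K => s.coeff m) ht
      simp only [HahnSeries.coeff_zero] at hm
      rw [HahnSeries.coeff_sum] at hm
      have hm' : ∑ j ∈ F.support, ((Φ (F j)).coeff m) • b j = 0 := by
        rw [← hm]
        refine Finset.sum_congr rfl fun j _ => ?_
        rw [hΨ, FA_S28_alg_algebraMap_single, HahnSeries.coeff_mul_single_zero, coeffMap_coeff,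
          Algebra.smul_def]
        rfl
      have := linearIndependent_iff'.mp b.linearIndependent F.support
        (fun j => (Φ (F j)).coeff m) hm' i hi
      simpa using this
    rw [hF, Finsupp.sum]
    refine Finset.sum_eq_zero fun i hi => ?_
    obtain ⟨a', ha'⟩ := hΦ (F i) (hzero i hi)
    have h1 : F i = ((ℓ : ℕ) : ↥(GaloisRep.ratLocalizedAt ℓ)) • a' := by
      rw [ha', Algebra.smul_def, map_natCast]
    rw [h1, TensorProduct.smul_tmul]
    have h2 : ((ℓ : ℕ) : ↥(GaloisRep.ratLocalizedAt ℓ)) • (b i) = 0 := by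
      rw [Algebra.smul_def, map_natCast, CharP.cast_eq_zero K ℓ, zero_mul]
    rw [h2, TensorProduct.tmul_zero]
  exact Function.Injective.isDomain Ψ.toRingHom hinj

end

end Fermat.Agent.S28
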