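import Mathlib
import Fermat.Agent.S16.UInterface

/-!
# S28: the one analytic leaf not already in `S16/UInterface.lean`

`FA_S28_Target_AnV`: for a level one form `G` of weight `k`, `G(pz)` is a form on `Γ₀(p)` whose
pair of expansions is `(s(q^p), p^{-k} s(q^{1/p}))`  (`FA_S16_Target_AnRing` has this for `Δ` only).
With `FA_S16_An` it gives the modular equation `FA_S28_Target_PHI` (norm of `E₄(pz)³ − c Δ(pz)`).
-/

set_option autoImplicit false

noncomputable section

namespace Fermat.Agent.S28

open FA_S16

/-- **AN-V**: `(s(X^p), p^{-k} s)` is a pair of weight `k` for every level one `q`-expansion `s`. -/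
def FA_S28_Target_AnV : Prop :=
  ∀ (p : ℕ) [Fact p.Prime] [NeZero p] (k : ℤ) (s : PowerSeries ℂ), s ∈ FA_S16_qL1 k →
    FA_S16_IsPair p k (PowerSeries.expand p (NeZero.ne p) s) (((p : ℂ) ^ k)⁻¹ • s)

end Fermat.Agent.S28
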