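import Mathlib
import Fermat.Agent.S16.AnRing
import Fermat.Agent.S28.AnInterface

/-!
# S28, leaf AN-V (helper9): `G(pz)` for every level one form `G`

`FA_S28_anV : FA_S28_Target_AnV`, from `FA_S16.FA_S16_anV_gen` (`S16/AnRing.lean`).
-/

set_option autoImplicit false

noncomputable section

namespace Fermat.Agent.S28

open FA_S16

/-- **AN-V**. -/
theorem FA_S28_anV : FA_S28_Target_AnV := by
  intro p hp hne k s hs
  exact FA_S16_anV_gen p hs

end Fermat.Agent.S28
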