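import Fermat.Agent.S24.DAlg6
import Fermat.Agent.S24.ADegree
import Fermat.Agent.S24.BIndex

/-!
# S28, leaf DEG0, part 1: the degree `[F : K(x)] = ψ(N)` from the analytic package of S24,
with the transcendental `x` exposed (`τ x = g 1`).
-/

set_option autoImplicit false
set_option linter.unusedSectionVars false
set_option linter.style.haveILetI false

noncomputable section

namespace Fermat.Agent.S28

open Fermat.Agent.S24 AlgebraicCurve MatrixGroups IntermediateField

variable {K M : Type} [Field K] [Field M] [Algebra K M]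
variable {ρ : SL(2, ℤ) →* (M ≃ₐ[K] M)} {g : ℕ → M} {N : ℕ}

/-- The degree of the model over `K(x)`, where `τ x = g 1`. -/
theorem FA_S28_d0_finrank [IsAlgClosed K] [CharZero K] (hP : FA_S24_Props ρ g N) [NeZero N]
    (F : Type) [Field F] [Algebra K F] (τ : F →ₐ[K] M)
    (hτ : Set.range τ = (FA_S24_F0 K g N : Set M)) (x : F) (hx : τ x = g 1) :
    Module.finrank (IntermediateField.adjoin K {x}) F = ModularCurve.dedekindPsi N := by
  classical
  have hτmem : ∀ f : F, τ f ∈ FA_S24_F0 K g N := fun f => by
    have : τ f ∈ Set.range τ := ⟨f, rfl⟩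
    rw [hτ] at this
    exact this
  have hτsurj : ∀ y ∈ FA_S24_F0 K g N, ∃ f : F, τ f = y := fun y hy => by
    have : y ∈ Set.range τ := by rw [hτ]; exact hy
    exact this
  let τE : F →ₐ[K] FA_S24_E ρ g N :=
    AlgHom.codRestrict τ (FA_S24_E ρ g N).toSubalgebra
      (fun f => FA_S24_F0_le_E ρ g N (hτmem f))
  letI algFE : Algebra F (FA_S24_E ρ g N) := τE.toRingHom.toAlgebra
  have hcoe : ∀ f : F, ((algebraMap F (FA_S24_E ρ g N) f : FA_S24_E ρ g N) : M) = τ f :=
    fun f => rfl
  haveI tower : IsScalarTower K F (FA_S24_E ρ g N) :=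
    IsScalarTower.of_algebraMap_eq (fun c => (τE.commutes c).symm)
  have h := FA_S24_A_degree K F (FA_S24_E ρ g N) SL(2, ℤ) (FA_S24_phi ρ g N) hP.finite_range x
    (by
      intro hx'
      apply hP.transc
      rw [← hx]
      exact hx'.algHom τ)
    (by
      intro γ
      apply Subtype.ext
      show ρ γ (τ x) = τ x
      rw [hx]
      exact hP.fix_g_one γ)
    (by
      intro e he
      have he' : ∀ γ : SL(2, ℤ), ρ γ (e : M) = (e : M) := fun γ =>
        congrArg (fun y : FA_S24_E ρ g N => (y : M)) (he γ)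
      have h1 := hP.invariants (e : M) e.2 he'
      have h2 : (IntermediateField.adjoin K {x}).map τ = IntermediateField.adjoin K {g 1} := by
        rw [IntermediateField.adjoin_map, Set.image_singleton, hx]
      rw [← h2] at h1
      obtain ⟨f, hf, hfe⟩ := h1
      exact ⟨f, hf, Subtype.ext hfe⟩)
    (CongruenceSubgroup.Gamma0 N) hP.ker_le
    (by
      intro γ hγ f
      apply Subtype.ext
      show ρ γ (τ f) = τ f
      exact hP.fix_F0 γ hγ (hτmem f))
    (by
      intro e he
      obtain ⟨f, hf⟩ := hτsurj _ (hP.mem_F0_of_fixed e he)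
      exact ⟨f, Subtype.ext hf⟩)
  rw [h.2]
  exact FA_S24_index_Gamma0 N (Nat.pos_of_ne_zero (NeZero.ne N))

/-- Finite-dimensionality in the same situation. -/
theorem FA_S28_d0_finite [IsAlgClosed K] [CharZero K] (hP : FA_S24_Props ρ g N) [NeZero N]
    (F : Type) [Field F] [Algebra K F] (τ : F →ₐ[K] M)
    (hτ : Set.range τ = (FA_S24_F0 K g N : Set M)) (x : F) (hx : τ x = g 1) :
    FiniteDimensional (IntermediateField.adjoin K {x}) F := by
  have h := FA_S28_d0_finrank hP F τ hτ x hx
  have hpos : 0 < ModularCurve.dedekindPsi N := by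
    rw [← FA_S24_index_Gamma0 N (Nat.pos_of_ne_zero (NeZero.ne N))]
    have hfin : (CongruenceSubgroup.Gamma0 N).FiniteIndex := by
      exact Subgroup.finiteIndex_of_le (FA_S24_Gamma_le_Gamma0 N)
    exact Nat.pos_of_ne_zero hfin.index_ne_zero
  exact Module.finite_of_finrank_pos (by rw [h]; exact hpos)

end Fermat.Agent.S28
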