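import Fermat.Agent.S24.DModelFinal
import Fermat.Agent.S28.DegZero1

/-!
# S28, leaf DEG0, part 2: the transfer `τ` of S24 with `τ j = g 1` exposed
-/

set_option autoImplicit false
set_option linter.unusedSectionVars false
set_option linter.style.haveILetI false

noncomputable section

open UpperHalfPlane ModularForm EisensteinSeries Complex MatrixGroups Filter
open scoped Manifold Topology

namespace Fermat.Agent.S28

open Fermat.Agent.S24 Fermat.Agent.Mero

theorem FA_S28_d0_transport {K' B M' : Type} [Field K'] [Field B] [Field M'] [Algebra K' B]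
    [Algebra K' M'] {F1 F2 : IntermediateField K' B} (h : F1 = F2) (τ : F2 →ₐ[K'] M') :
    ∃ τ' : F1 →ₐ[K'] M', Set.range τ' = Set.range τ ∧
      ∀ (b : B) (h1 : b ∈ F1) (h2 : b ∈ F2), τ' ⟨b, h1⟩ = τ ⟨b, h2⟩ := by
  subst h
  exact ⟨τ, rfl, fun _ _ _ => rfl⟩

section transfer

variable (K : Type) [Field K] [Algebra ℚ K] [Algebra K ℂ] [Algebra K FA_Mero_Field]
  (ht : FA_S24_Tower K)
variable (N : ℕ) [NeZero N]

include ht in
/-- The transfer, with the image of `j` exposed. -/
theorem FA_S28_d0_transfer :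
    ∃ τ : IntermediateField.adjoin K {x : LaurentSeries K | ∃ (d : ℕ) (_ : NeZero d), d ∣ N ∧
        x = ModularCurve.coeffEmb K (ModularCurve.qExpand ℚ d ModularCurve.jq)}
          →ₐ[K] FA_Mero_Field,
      Set.range τ = (FA_S24_F0 K FA_S24_g N : Set FA_Mero_Field) ∧
      ∀ h : ModularCurve.coeffEmb K ModularCurve.jq ∈
          IntermediateField.adjoin K {x : LaurentSeries K | ∃ (d : ℕ) (_ : NeZero d), d ∣ N ∧
            x = ModularCurve.coeffEmb K (ModularCurve.qExpand ℚ d ModularCurve.jq)},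
        τ ⟨_, h⟩ = FA_S24_g 1 := by
  have hQE := FA_S24_QE
  have hQX := FA_S24_QX
  have hJQ := FA_S24_JQ
  have hTR := FA_S24_TR
  have hadd : ∀ x ∈ FA_S24_good N, ∀ y ∈ FA_S24_good N,
      FA_S24_Qinf N (x + y) = FA_S24_Qinf N x + FA_S24_Qinf N y :=
    fun x hx y hy => FA_S24_Qinf_add hx hy
  have hinj : ∀ x ∈ FA_S24_good N, FA_S24_Qinf N x = 0 → x = 0 := fun x hx h0 => by
    by_contra hne
    exact FA_S24_Qinf_ne_zero hx hne h0
  have hgen : ∀ i : {d : ℕ // d ∣ N}, FA_S24_g i.1 ∈ FA_S24_good N ∧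
      FA_S24_Qinf N (FA_S24_g i.1) = FA_S24_Lam K N (FA_S24_sGen K N i) := fun i => by
    have : NeZero i.1 := FA_S24_neZero_of_dvd i.2
    have hd : 0 < (i.1 : ℤ) := by exact_mod_cast Nat.pos_of_ne_zero (NeZero.ne i.1)
    refine ⟨?_, ?_⟩
    · rw [FA_S24_g_eq hd]
      exact FA_S24_jaffM_mem_good hQE N _ 0 1 hd one_pos (i.1 * N) (by push_cast; ring)
    · rw [FA_S24_Qinf_g hQE hQX hJQ N i.1]
      unfold FA_S24_sGen
      rw [FA_S24_Lam_gen]
  have hconst : ∀ c : K, algebraMap K FA_Mero_Field c ∈ FA_S24_good N ∧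
      FA_S24_Qinf N (algebraMap K FA_Mero_Field c) =
        FA_S24_Lam K N (algebraMap K (LaurentSeries K) c) := fun c =>
    ⟨FA_S24_constK_mem_good K ht N c, by
      rw [FA_S24_Lam_const, ht c, FA_S24_Qinf_const]⟩
  obtain ⟨τ, hτ, hQ⟩ := hTR K FA_Mero_Field (LaurentSeries K) (LaurentSeries ℂ) (FA_S24_Lam K N)
    (FA_S24_good N) (FA_S24_Qinf N) hadd
    (fun x hx y hy => FA_S24_Qinf_mul hx hy) hinj hconst
    {d : ℕ // d ∣ N} (FA_S24_sGen K N) (fun i => FA_S24_g i.1) hgen
  have h1 : IntermediateField.adjoin K {x : LaurentSeries K | ∃ (d : ℕ) (_ : NeZero d), d ∣ N ∧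
        x = ModularCurve.coeffEmb K (ModularCurve.qExpand ℚ d ModularCurve.jq)}
      = IntermediateField.adjoin K (Set.range (FA_S24_sGen K N)) := by
    rw [FA_S24_range_sGen]
  obtain ⟨τ', hτ', hval⟩ := FA_S28_d0_transport h1 τ
  refine ⟨τ', ?_, ?_⟩
  · rw [hτ', hτ, FA_S24_range_tGen]
    rfl
  · intro h
    have h2 : ModularCurve.coeffEmb K ModularCurve.jq ∈
        IntermediateField.adjoin K (Set.range (FA_S24_sGen K N)) := h1 ▸ h
    rw [hval _ h h2]
    -- both `τ j` and `g 1` lie in `good`, with the same image under `Qinf`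
    have hrange : ∀ y ∈ IntermediateField.adjoin K
        (Set.range (fun i : {d : ℕ // d ∣ N} => FA_S24_g i.1)), y ∈ FA_S24_good N := by
      intro y hy
      induction hy using IntermediateField.adjoin_induction with
      | mem x hx =>
        obtain ⟨i, rfl⟩ := hx
        exact (hgen i).1
      | algebraMap c => exact (hconst c).1
      | add a b _ _ ha hb => exact add_mem ha hb
      | inv a _ ha => exact inv_mem ha
      | mul a b _ _ ha hb => exact mul_mem ha hb
    have hτG : τ ⟨_, h2⟩ ∈ FA_S24_good N := by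
      apply hrange
      have : τ ⟨_, h2⟩ ∈ Set.range τ := ⟨_, rfl⟩
      rw [hτ] at this
      exact this
    have hg1 := hgen ⟨1, one_dvd N⟩
    have hs1 : FA_S24_sGen K N ⟨1, one_dvd N⟩ = ModularCurve.coeffEmb K ModularCurve.jq := by
      unfold FA_S24_sGen
      rw [ModularCurve.qExpand_one_apply]
    have hQeq : FA_S24_Qinf N (τ ⟨_, h2⟩) = FA_S24_Qinf N (FA_S24_g 1) := by
      rw [hQ, hg1.2, hs1]
    have hneg : -FA_S24_g 1 ∈ FA_S24_good N := neg_mem hg1.1
    have hQ0 : FA_S24_Qinf N 0 = 0 := by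
      have := hadd 0 (zero_mem _) 0 (zero_mem _)
      rw [add_zero] at this
      exact left_eq_add.mp this
    have hQneg : FA_S24_Qinf N (-FA_S24_g 1) = - FA_S24_Qinf N (FA_S24_g 1) := by
      have := hadd _ hg1.1 _ hneg
      rw [add_neg_cancel, hQ0] at this
      exact eq_neg_of_add_eq_zero_right this.symm
    have hsub : FA_S24_Qinf N (τ ⟨_, h2⟩ + -FA_S24_g 1) = 0 := by
      rw [hadd _ hτG _ hneg, hQneg, hQeq, add_neg_cancel]
    have := hinj _ (add_mem hτG hneg) hsub
    exact add_neg_eq_zero.mp this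

end transfer

end Fermat.Agent.S28
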